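import Mathlib

/-!
# Crux / G : pure algebra used in the chart theorem (S1)

* `dvd_eval_trace_of_pow` : a matrix over `A[X]` with `Z ^ N ≡ 0 mod (π, X - β)` has
  `π ∣ (tr Z)(β)`.
* `exists_C_dvd_sub_prod_mul` : if `π ∣ t(β)` for all `β ∈ B` and the `β` are distinct modulo `π`,
  then `t ∈ (π, ∏ (X - β))`.
-/

set_option autoImplicit false

open Polynomial

namespace Fermat.Agent.Crux.G

variable {A : Type*} [CommRing A] {π : A}

/-- a matrix over `A[X]` which is nilpotent modulo `(π, X - β)` has trace in `(π, X - β)`. -/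
theorem dvd_eval_trace_of_pow (hπ : Prime π) {ι : Type*} [Fintype ι] [DecidableEq ι]
    (Z Y : Matrix ι ι A[X]) (β : A) (N : ℕ)
    (h : ∀ j k, C π ∣ (Z ^ N) j k - (X - C β) * Y j k) : π ∣ (Z.trace).eval β := by
  classical
  set I : Ideal A := Ideal.span {π} with hI
  have hIp : I.IsPrime := (Ideal.span_singleton_prime hπ.ne_zero).2 hπ
  set φ : A[X] →+* A ⧸ I := (Ideal.Quotient.mk I).comp (evalRingHom β) with hφ
  have hφπ : φ (C π) = 0 := by
    simp only [hφ, RingHom.comp_apply, coe_evalRingHom, eval_C]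
    exact Ideal.Quotient.eq_zero_iff_mem.2 (Ideal.mem_span_singleton_self π)
  have hφβ : φ (X - C β) = 0 := by
    simp [hφ, RingHom.comp_apply, coe_evalRingHom]
  have hpow : (φ.mapMatrix Z) ^ N = 0 := by
    rw [← map_pow]
    ext j k
    obtain ⟨q, hq⟩ := h j k
    have : (Z ^ N) j k = (X - C β) * Y j k + C π * q := by rw [← hq]; ring
    simp [RingHom.mapMatrix_apply, Matrix.map_apply, this, hφπ, hφβ]
  have hnil : IsNilpotent (φ.mapMatrix Z).trace :=
    Matrix.isNilpotent_trace_of_isNilpotent ⟨N, hpow⟩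
  have h0 : (φ.mapMatrix Z).trace = 0 := hnil.eq_zero
  have h1 : φ Z.trace = 0 := by
    rw [← h0]
    simp [Matrix.trace, RingHom.mapMatrix_apply, map_sum]
  have h2 : (Z.trace).eval β ∈ I := by
    apply Ideal.Quotient.eq_zero_iff_mem.1
    simpa [hφ, RingHom.comp_apply, coe_evalRingHom] using h1
  exact Ideal.mem_span_singleton.1 h2

/-- Chinese remainders: `⋂_β (π, X - β) = (π, ∏ (X - β))` when the `β` are distinct mod `π`. -/
theorem exists_C_dvd_sub_prod_mul (hπ : Prime π) (B : Finset A)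
    (hB : ∀ β ∈ B, ∀ β' ∈ B, π ∣ β - β' → β = β') (t : A[X])
    (ht : ∀ β ∈ B, π ∣ t.eval β) : ∃ r : A[X], C π ∣ t - (∏ β ∈ B, (X - C β)) * r := by
  classical
  induction B using Finset.induction_on generalizing t with
  | empty => exact ⟨t, by simp⟩
  | insert β B hβ ih =>
    -- `t = (X - β) t₁ + t(β)`
    obtain ⟨t₁, ht₁⟩ : (X - C β) ∣ t - C (t.eval β) := by
      rw [dvd_iff_isRoot]; simp
    have hB' : ∀ γ ∈ B, ∀ γ' ∈ B, π ∣ γ - γ' → γ = γ' := fun γ hγ γ' hγ' =>
      hB γ (Finset.mem_insert_of_mem hγ) γ' (Finset.mem_insert_of_mem hγ')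
    have ht₁' : ∀ γ ∈ B, π ∣ t₁.eval γ := by
      intro γ hγ
      have e1 : t.eval γ - t.eval β = (γ - β) * t₁.eval γ := by
        have := congrArg (eval γ) ht₁
        simpa using this
      have h1 : π ∣ (γ - β) * t₁.eval γ := by
        rw [← e1]
        exact dvd_sub (ht γ (Finset.mem_insert_of_mem hγ)) (ht β (Finset.mem_insert_self _ _))
      rcases hπ.dvd_or_dvd h1 with h2 | h2
      · exfalso
        have := hB γ (Finset.mem_insert_of_mem hγ) β (Finset.mem_insert_self _ _) h2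
        exact hβ (this ▸ hγ)
      · exact h2
    obtain ⟨r, q, hq⟩ := ih hB' t₁ ht₁'
    obtain ⟨c, hc⟩ := ht β (Finset.mem_insert_self _ _)
    refine ⟨r, (X - C β) * q + C c, ?_⟩
    rw [Finset.prod_insert hβ]
    have e2 : t = (X - C β) * t₁ + C (t.eval β) := by rw [← ht₁]; ring
    have e3 : t₁ = (∏ β ∈ B, (X - C β)) * r + C π * q := by rw [← hq]; ring
    rw [hc, C_mul] at e2
    rw [e2]
    conv_lhs => rw [e3]
    ring

/-- `∏ (X - β)` is not divisible by `π`. -/
theorem not_C_dvd_prod_X_sub_C (hπ : Prime π) (B : Finset A) :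
    ¬ C π ∣ ∏ β ∈ B, (X - C β) := by
  intro h
  have hm : (∏ β ∈ B, (X - C β)).Monic := monic_prod_of_monic _ _ fun β _ => monic_X_sub_C β
  have := (C_dvd_iff_dvd_coeff _ _).1 h (∏ β ∈ B, (X - C β)).natDegree
  rw [coeff_natDegree, hm.leadingCoeff] at this
  exact hπ.not_isUnit (isUnit_of_dvd_one this)

/-- `X - β` is not divisible by `π`. -/
theorem not_C_dvd_X_sub_C (hπ : Prime π) (β : A) : ¬ C π ∣ (X - C β) := by
  intro h
  have hm : (X - C β).Monic := monic_X_sub_C β
  have := (C_dvd_iff_dvd_coeff _ _).1 h (X - C β).natDegree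
  rw [coeff_natDegree, hm.leadingCoeff] at this
  exact hπ.not_isUnit (isUnit_of_dvd_one this)

end Fermat.Agent.Crux.G
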