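import Fermat.Agent.Crux.G.Lattice
import Fermat.Agent.Crux.G.S1Alg

/-!
# Crux / G : auxiliary lemmas for the chart theorem (S1)
-/

set_option autoImplicit false
set_option linter.unusedSectionVars false

open Polynomial

namespace Fermat.Agent.Crux.G

variable {A : Type*} [CommRing A] [IsDomain A] [IsDiscreteValuationRing A] {π : A}
variable {E : Type*} [Field E] [Algebra A[X] E] [IsFractionRing A[X] E] [CharZero E]
variable {L : Type*} [Field L] [Algebra A[X] L] [Algebra E L] [IsScalarTower A[X] E L]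
  [FiniteDimensional E L]

theorem IsOG.s1_smul (hπ : Prime π) {c : E} (hc : IsOG π c) (r : A[X]) : IsOG π (r • c) := by
  rw [Algebra.smul_def]
  exact (isOG_algebraMap hπ r).mul hπ hc

theorem IsOG.s1_C_smul {c : E} (hc : IsOG π c) : IsPiOG π ((C π : A[X]) • c) := ⟨c, hc, rfl⟩

section
variable (E)
include E

theorem s1_faithfulSMul : FaithfulSMul A[X] L :=
  FaithfulSMul.trans A[X] E L

/-- every element of `L` is in `π^{-k} O_L` for some `k`. -/
theorem exists_pow_smul_isOL (hπ : Prime π) (y : L) : ∃ k : ℕ, IsOL π ((C π : A[X]) ^ k • y) := by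
  have h1 := IsLocalization.isAlgebraic E (nonZeroDivisors A[X])
  have h2 := Algebra.IsAlgebraic.trans A[X] E L
  obtain ⟨r, hr0, hr⟩ := (h2.isAlgebraic y).exists_integral_multiple
  have hCπ : ¬ IsUnit (C π : A[X]) := fun h => hπ.not_isUnit (isUnit_C.1 h)
  obtain ⟨k, c, hc, rfl⟩ := WfDvdMonoid.max_power_factor' hr0 hCπ
  refine ⟨k, c, hc, ?_⟩
  rwa [smul_smul, mul_comm]

end

/-- (H1) implies that `O_L` is self-dual: if `Tr(y O_L) ⊆ O_G` then `y ∈ O_L`. -/
theorem isOL_of_trace (hπ : Prime π) (H1 : TracePerfect π E L) (y : L)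
    (hy : ∀ z : L, IsOL π z → IsOG π (Algebra.trace E L (y * z))) : IsOL π y := by
  have hF : FaithfulSMul A[X] L := s1_faithfulSMul E
  have hT : Module.IsTorsionFree A[X] L := inferInstance
  obtain ⟨k, hk⟩ := exists_pow_smul_isOL E hπ y
  induction k with
  | zero => simpa using hk
  | succ k ih =>
    apply ih
    have h1 : IsPiOL π ((C π : A[X]) ^ (k + 1) • y) := by
      apply H1 _ hk
      intro z hz
      rw [smul_mul_assoc, LinearMap.map_smul_of_tower, pow_succ', mul_smul]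
      exact ((hy z hz).s1_smul hπ _).s1_C_smul
    obtain ⟨z, hz, hz'⟩ := h1
    rw [pow_succ', mul_smul] at hz'
    have hC : (C π : A[X]) ≠ 0 := by simpa using hπ.ne_zero
    have := smul_right_injective L hC hz'
    rwa [this]

/-- If `w l_j ≡ ∑ Z_jk l_k mod π O_L` then `w^N l_j ≡ ∑ (Z^N)_jk l_k`. -/
theorem isPiOL_pow_mul_sub (hπ : Prime π) {m : ℕ} (l : Fin m → L) (w : L) (hw : IsOL π w)
    (Z : Matrix (Fin m) (Fin m) A[X])
    (hZ : ∀ j, IsPiOL π (w * l j - ∑ k, Z j k • l k)) (N : ℕ) (j : Fin m) :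
    IsPiOL π (w ^ N * l j - ∑ k, (Z ^ N) j k • l k) := by
  induction N generalizing j with
  | zero =>
    have : (w ^ 0 * l j - ∑ k, ((Z ^ 0) j k) • l k) = 0 := by
      simp [Matrix.one_apply, ite_smul]
    rw [this]
    exact isPiOL_zero hπ
  | succ N ih =>
    have e1 : w ^ (N + 1) * l j - ∑ k, (Z ^ (N + 1)) j k • l k
        = w * (w ^ N * l j - ∑ k, (Z ^ N) j k • l k)
          + ∑ k, (Z ^ N) j k • (w * l k - ∑ i, Z k i • l i) := by
      have e2 : ∑ k, (Z ^ (N + 1)) j k • l k = ∑ k, (Z ^ N) j k • ∑ i, Z k i • l i := by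
        simp only [pow_succ, Matrix.mul_apply, Finset.sum_smul, Finset.smul_sum, mul_smul]
        rw [Finset.sum_comm]
      rw [e2]
      simp only [smul_sub, Finset.sum_sub_distrib, mul_sub, Finset.mul_sum, mul_smul_comm]
      ring
    rw [e1]
    exact ((ih j).mul_left hπ hw).add hπ (IsPiOL.sum hπ _ _ fun k _ => (hZ k).smul _)

/-- `Tr(w) ≡ tr Z mod π O_G` if `w l_j ≡ ∑ Z_jk l_k mod π O_L` for a basis `l` which is independent
modulo `π`. -/
theorem isPiOG_trace_sub (hπ : Irreducible π) {m : ℕ} (l : Module.Basis (Fin m) E L)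
    (hind : ∀ r : Fin m → A[X], IsPiOL π (∑ j, r j • l j) → ∀ j, C π ∣ r j) (w : L)
    (Z : Matrix (Fin m) (Fin m) A[X])
    (hZ : ∀ j, IsPiOL π (w * l j - ∑ k, Z j k • l k)) :
    IsPiOG π (Algebra.trace E L w - algebraMap A[X] E Z.trace) := by
  have hπ' : Prime π := hπ.prime
  rw [Algebra.trace_eq_matrix_trace l, Matrix.trace, Matrix.trace, map_sum,
    ← Finset.sum_sub_distrib]
  apply IsPiOG.sum hπ'
  intro j _
  simp only [Matrix.diag_apply, Algebra.leftMulMatrix_eq_repr_mul]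
  have h := hZ j
  have e1 : w * l j - ∑ k, Z j k • l k
      = ∑ k, (l.repr (w * l j) k - algebraMap A[X] E (Z j k)) • l k := by
    simp only [sub_smul, Finset.sum_sub_distrib, algebraMap_smul]
    rw [l.sum_repr]
  rw [e1] at h
  exact isPiOG_of_isPiOL_sum hπ l hind _ h j

/-- powers of an idempotent modulo `π`. -/
theorem isPiOL_pow_succ_sub (hπ : Prime π) (e : L) (he : IsOL π e)
    (hee : IsPiOL π (e ^ 2 - e)) (N : ℕ) : IsPiOL π (e ^ (N + 1) - e) := by
  induction N with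
  | zero => simpa using isPiOL_zero hπ
  | succ N ih =>
    have : e ^ (N + 1 + 1) - e = e * (e ^ (N + 1) - e) + (e ^ 2 - e) := by ring
    rw [this]
    exact (ih.mul_left hπ he).add hπ hee

/-- The lattice `Λ = M + e M`. -/
noncomputable def s1Lam (A : Type*) [CommRing A] {L : Type*} [Field L] [Algebra A[X] L] (e : L) :
    Submodule A[X] L :=
  (integralClosure A[X] L).toSubmodule ⊔
    (integralClosure A[X] L).toSubmodule.map (LinearMap.mulLeft A[X] e)

theorem mem_s1Lam {e y : L} :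
    y ∈ s1Lam A e ↔ ∃ y₁ y₂ : L, IsIntegral A[X] y₁ ∧ IsIntegral A[X] y₂ ∧ y = y₁ + e * y₂ := by
  constructor
  · intro h
    obtain ⟨y₁, h₁, y', h', rfl⟩ := Submodule.mem_sup.1 h
    obtain ⟨y₂, h₂, rfl⟩ := Submodule.mem_map.1 h'
    exact ⟨y₁, y₂, h₁, h₂, rfl⟩
  · rintro ⟨y₁, y₂, h₁, h₂, rfl⟩
    exact Submodule.add_mem_sup h₁ (Submodule.mem_map.2 ⟨y₂, h₂, rfl⟩)

/-- `e^(N+1) v Λ ⊆ Λ + π O_L` for `v ∈ M`. -/
theorem exists_mem_s1Lam (hπ : Prime π) (e : L) (he : IsOL π e)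
    (hee : IsPiOL π (e ^ 2 - e)) (N : ℕ) (v : L) (hv : IsIntegral A[X] v) (y : L)
    (hy : y ∈ s1Lam A e) : ∃ y' ∈ s1Lam A e, IsPiOL π (e ^ (N + 1) * v * y - y') := by
  obtain ⟨y₁, y₂, h₁, h₂, rfl⟩ := mem_s1Lam.1 hy
  refine ⟨e * (v * y₁ + v * y₂), mem_s1Lam.2 ⟨0, _, isIntegral_zero,
    (hv.mul h₁).add (hv.mul h₂), by simp⟩, ?_⟩
  have : e ^ (N + 1) * v * (y₁ + e * y₂) - e * (v * y₁ + v * y₂)
      = (e ^ (N + 1) - e) * (v * y₁) + (e ^ (N + 1 + 1) - e) * (v * y₂) := by ring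
  rw [this]
  exact ((isPiOL_pow_succ_sub hπ e he hee N).mul_right hπ (IsOL.of_isIntegral hπ (hv.mul h₁))).add hπ
    ((isPiOL_pow_succ_sub hπ e he hee (N + 1)).mul_right hπ (IsOL.of_isIntegral hπ (hv.mul h₂)))

/-- **Step 4** of the chart theorem. -/
theorem exists_isPiOG_trace_sub (hπ : Irreducible π) (B : Finset A)
    (hB : ∀ β ∈ B, ∀ β' ∈ B, π ∣ β - β' → β = β')
    (e : L) (he : IsOL π e) (hee : IsPiOL π (e ^ 2 - e))
    (u : L) (hu : IsIntegral A[X] u)
    (hu' : ∀ β ∈ B, ∃ (m : ℕ) (z : L), IsIntegral A[X] z ∧ u ^ m = (X - C β) • z) :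
    ∃ r : A[X], IsPiOG π (Algebra.trace E L (e * u)
      - algebraMap A[X] E ((∏ β ∈ B, (X - C β)) * r)) := by
  have hπ' : Prime π := hπ.prime
  have hfg : (s1Lam A e).FG := (integralClosure_fg E).sup ((integralClosure_fg E).map _)
  have hΛ : ∀ y ∈ s1Lam A e, IsOL π y := by
    intro y hy
    obtain ⟨y₁, y₂, h₁, h₂, rfl⟩ := mem_s1Lam.1 hy
    exact (IsOL.of_isIntegral hπ' h₁).add hπ' (he.mul hπ' (IsOL.of_isIntegral hπ' h₂))
  obtain ⟨m, l, hlΛ, hgen, hind⟩ := exists_basis_mod E hπ (s1Lam A e) hfg hΛ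
  obtain ⟨bl, hbl⟩ := exists_basis_of_gen_indep (E := E) hπ l (fun j => hΛ _ (hlΛ j))
    (fun y hy => hgen y (mem_s1Lam.2 ⟨y, 0, hy, isIntegral_zero, by simp⟩)) hind
  have hbl' : (bl : Fin m → L) = l := funext hbl
  -- the key approximation property
  have key : ∀ (N : ℕ) (v : L), IsIntegral A[X] v → ∀ j, ∃ r : Fin m → A[X],
      IsPiOL π (e ^ (N + 1) * v * l j - ∑ k, r k • l k) := by
    intro N v hv j
    obtain ⟨y', hy', h1⟩ := exists_mem_s1Lam hπ' e he hee N v hv (l j) (hlΛ j)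
    obtain ⟨r, hr⟩ := hgen y' hy'
    refine ⟨r, ?_⟩
    have : e ^ (N + 1) * v * l j - ∑ k, r k • l k
        = (e ^ (N + 1) * v * l j - y') + (y' - ∑ k, r k • l k) := by ring
    rw [this]
    exact h1.add hπ' hr
  choose Z hZ using key 0 u hu
  have hZ' : ∀ j, IsPiOL π ((e * u) * l j - ∑ k, (Matrix.of Z) j k • l k) := by
    intro j
    simpa using hZ j
  have hw : IsOL π (e * u) := he.mul hπ' (IsOL.of_isIntegral hπ' hu)
  have hev : ∀ β ∈ B, π ∣ ((Matrix.of Z).trace).eval β := by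
    intro β hβ
    obtain ⟨N, z, hz, hzu⟩ := hu' β hβ
    choose Y hY using key N (z * u) (hz.mul hu)
    apply dvd_eval_trace_of_pow hπ' (Matrix.of Z) (Matrix.of Y) β (N + 1)
    intro j
    apply hind
    have h1 := isPiOL_pow_mul_sub hπ' l (e * u) hw (Matrix.of Z) hZ' (N + 1) j
    have h2 := (hY j).smul (X - C β)
    have e2 : (e * u) ^ (N + 1) = (X - C β) • (e ^ (N + 1) * (z * u)) := by
      rw [mul_pow, pow_succ u, hzu]
      simp only [Algebra.smul_def]
      ring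
    have e1 : ∀ g : A[X], (e * u) ^ (N + 1) = g • (e ^ (N + 1) * (z * u)) →
        ∑ k, ((Matrix.of Z ^ (N + 1)) j k - g * (Matrix.of Y) j k) • l k
        = g • (e ^ (N + 1) * (z * u) * l j - ∑ k, Y j k • l k)
          - ((e * u) ^ (N + 1) * l j - ∑ k, (Matrix.of Z ^ (N + 1)) j k • l k) := by
      intro g e2
      rw [e2]
      simp only [sub_smul, Finset.sum_sub_distrib, mul_smul, smul_sub, Finset.smul_sum,
        Matrix.of_apply, smul_mul_assoc]
      ring
    specialize e1 _ e2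
    rw [e1]
    exact h2.sub hπ' h1
  obtain ⟨r, hr⟩ := exists_C_dvd_sub_prod_mul hπ' B hB _ hev
  refine ⟨r, ?_⟩
  have h3 : IsPiOG π (Algebra.trace E L (e * u) - algebraMap A[X] E (Matrix.of Z).trace) := by
    apply isPiOG_trace_sub hπ bl (by rw [hbl']; exact hind) (e * u) (Matrix.of Z)
    rw [hbl']; exact hZ'
  have h4 : IsPiOG π (algebraMap A[X] E ((Matrix.of Z).trace - (∏ β ∈ B, (X - C β)) * r)) :=
    (isPiOG_algebraMap_iff hπ' _).2 hr
  have e3 : Algebra.trace E L (e * u) - algebraMap A[X] E ((∏ β ∈ B, (X - C β)) * r)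
      = (Algebra.trace E L (e * u) - algebraMap A[X] E (Matrix.of Z).trace)
        + algebraMap A[X] E ((Matrix.of Z).trace - (∏ β ∈ B, (X - C β)) * r) := by
    rw [map_sub]; ring
  rw [e3]
  exact h3.add hπ' h4

end Fermat.Agent.Crux.G
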