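import Fermat.Agent.Crux.G.Sat

/-!
# Crux / G : (H1) in basis form implies (H1)

`y ∈ O_L`, `y = ∑ c_j b_j`, `(Tr(y b_k))_k = G c`, `G⁻¹ = c₀ · adjugate G` has entries in `O_G`;
`Tr(y O_L) ⊆ π O_G` gives `c_j ∈ π O_G`, hence `y ∈ π O_L`.
-/

set_option autoImplicit false

open Polynomial

namespace Fermat.Agent.Crux.G

namespace UnitDiscAux

variable {A : Type*} [CommRing A] [IsDomain A] {π : A}
variable {E : Type*} [Field E] [Algebra A[X] E]

/-- `O_G` as a subring of `E`. -/
def ogSubring (hπ : Prime π) : Subring E where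
  carrier := {c | IsOG π c}
  mul_mem' := fun ha hb => IsOG.mul hπ ha hb
  one_mem' := by simpa using isOG_algebraMap (E := E) hπ (1 : A[X])
  add_mem' := fun ha hb => IsOG.add hπ ha hb
  zero_mem' := by simpa using isOG_algebraMap (E := E) hπ (0 : A[X])
  neg_mem' := fun ha => IsOG.neg ha

theorem mem_ogSubring (hπ : Prime π) (c : E) : c ∈ ogSubring (E := E) hπ ↔ IsOG π c := Iff.rfl

/-- The adjugate of a matrix with entries in `O_G` has entries in `O_G`. -/
theorem isOG_adjugate (hπ : Prime π) {n : ℕ} (G : Matrix (Fin n) (Fin n) E)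
    (hG : ∀ i j, IsOG π (G i j)) (i j : Fin n) : IsOG π (G.adjugate i j) := by
  let G' : Matrix (Fin n) (Fin n) (ogSubring (E := E) hπ) := fun i j => ⟨G i j, hG i j⟩
  have h1 : (ogSubring (E := E) hπ).subtype.mapMatrix G' = G := by
    ext i j; rfl
  have h2 := RingHom.map_adjugate (ogSubring (E := E) hπ).subtype G'
  rw [h1] at h2
  rw [← h2]
  exact (G'.adjugate i j).2

end UnitDiscAux

variable {A : Type*} [CommRing A] [IsDomain A] [IsDiscreteValuationRing A] {π : A}
variable {E : Type*} [Field E] [Algebra A[X] E] [IsFractionRing A[X] E] [CharZero E]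
variable {L : Type*} [Field L] [Algebra A[X] L] [Algebra E L] [IsScalarTower A[X] E L]
  [FiniteDimensional E L]

/-- (H1), basis form, implies (H1). -/
theorem tracePerfect_of_unitDisc' (hπ : Irreducible π) (h : UnitDisc π E L) :
    TracePerfect π E L := by
  have hp : Prime π := hπ.prime
  obtain ⟨n, b, hb, c0, hc0, hdet⟩ := h
  intro y _ hyz
  set G : Matrix (Fin n) (Fin n) E := Algebra.traceMatrix E b with hGdef
  have hG : ∀ i j, IsOG π (G i j) := by
    intro i j
    rw [hGdef, Algebra.traceMatrix_apply, Algebra.traceForm_apply]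
    exact IsOL.trace hp (IsOL.mul hp (hb i) (hb j))
  set c : Fin n → E := fun j => b.repr y j with hcdef
  set t : Fin n → E := fun k => Algebra.trace E L (y * b k) with htdef
  have hy : y = ∑ j, c j • b j := (b.sum_repr y).symm
  have ht : ∀ k, IsPiOG π (t k) := fun k => hyz _ (hb k)
  have hGc : G.mulVec c = t := by
    funext k
    simp only [Matrix.mulVec, dotProduct, htdef]
    conv_rhs => rw [hy, Finset.sum_mul, map_sum]
    refine Finset.sum_congr rfl fun j _ => ?_
    rw [hGdef, Algebra.traceMatrix_apply, Algebra.traceForm_apply, smul_mul_assoc, map_smul,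
      smul_eq_mul, mul_comm (b k) (b j), mul_comm]
  have hadj : G.adjugate.mulVec t = G.det • c := by
    rw [← hGc, Matrix.mulVec_mulVec, Matrix.adjugate_mul, Matrix.smul_mulVec, Matrix.one_mulVec]
  have hc : ∀ j, IsPiOG π (c j) := by
    intro j
    have h1 : c j = c0 * (G.adjugate.mulVec t) j := by
      rw [hadj, Pi.smul_apply, smul_eq_mul, ← mul_assoc, hdet, one_mul]
    rw [h1]
    refine IsPiOG.mul_left hp hc0 ?_
    simp only [Matrix.mulVec, dotProduct]
    exact IsPiOG.sum hp _ _ fun k _ =>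
      IsPiOG.mul_left hp (UnitDiscAux.isOG_adjugate hp G hG j k) (ht k)
  rw [hy]
  exact IsPiOL.sum hp _ _ fun j _ => IsPiOG.smul_isOL hp (hc j) (hb j)

end Fermat.Agent.Crux.G
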