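import Fermat.Agent.Crux.G.Lattice
import Fermat.Agent.Crux.G.S1Aux
import Fermat.Agent.Crux.G.UnitDisc

/-!
# Crux / G : the chart theorem = (S1) (normality of the special fibre of one chart)

Blueprint (board #447, #488).  Let `(b, s)` be the package of `exists_pkg`.
1. `D = det Tr(b_i b_j) ∈ A[X]`, `π ∤ D` by (H1): otherwise there is `v ∈ A[X]^n`, not all
   `v_i ∈ (π)`, with `G v ≡ 0`; `y = ∑ v_i b_i` has `Tr(y O_L) ⊆ π O_G`, so `y ∈ π O_L`,
   contradicting independence mod `π`.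
2. dual basis `b_i^∨` (Mathlib `BilinForm.dualBasis` of the trace form): `s b_i^∨ ∈ M^∨`, so
   `D s b_i^∨ ∈ M` (`isIntegral_discr_mul_of_mem_traceDual`), hence `b_i^∨ ∈ O_L`.
3. `u_i := ε s b_i^∨`, `ε = ∏_{β ∈ B} (X - β)`.  By (HT) `u_i ∈ B_K`, and `u_i ∈ O_L`, so `u_i ∈ M`
   (saturation); `u_i^m = (X - β) z`, `z ∈ B_K ∩ O_L = M`.
4. `Λ = M + e M` (f.g.), `l` a basis of `Λ` mod `π` (`exists_basis_mod`), an `E`-basis of `L`
   (`exists_basis_of_gen_indep`).  `z_i := e u_i` maps `Λ` to `Λ + π O_L`: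
   `z_i l_j ≡ ∑ Z_jk l_k`, `Z ∈ M_n(A[X])`, and `Tr(z_i) ≡ tr Z mod π O_G` (`isPiOG_of_isPiOL_sum`).
   `z_i^m Λ ⊆ (X - β) Λ + π O_L`, so `Z^m ≡ 0 mod (π, X - β)`, so `tr Z ∈ (π, X - β)` for all
   `β ∈ B`; the `β` are distinct mod `π`, so `tr Z ∈ (π, ε)`.
5. `ε s Tr(e b_i^∨) = Tr(z_i) ≡ ε r_i mod π O_G`; `ε`, `s` are units of `O_G`, `s ≡ 1`:
   `Tr(e b_i^∨) ≡ r_i`.  `a := ∑ r_i b_i ∈ M`, `a - e = ∑ (r_i - Tr(e b_i^∨)) b_i ∈ π O_L`.
-/

set_option autoImplicit false

open Polynomial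

namespace Fermat.Agent.Crux.G

variable {A : Type*} [CommRing A] [IsDomain A] [IsDiscreteValuationRing A] {π : A}
variable {E : Type*} [Field E] [Algebra A[X] E] [IsFractionRing A[X] E] [CharZero E]
variable {L : Type*} [Field L] [Algebra A[X] L] [Algebra E L] [IsScalarTower A[X] E L]
  [FiniteDimensional E L]

/-- (H1), basis form, implies (H1). -/
theorem tracePerfect_of_unitDisc (hπ : Irreducible π) (h : UnitDisc π E L) :
    TracePerfect π E L :=
  tracePerfect_of_unitDisc' hπ h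

/-- **Chart theorem (S1).** Every idempotent of `O_L/π O_L` comes from `M`. -/
theorem chart (hπ : Irreducible π) (B : Finset A)
    (hB : ∀ β ∈ B, ∀ β' ∈ B, π ∣ β - β' → β = β')
    (H1 : TracePerfect π E L) (HT : Tame π E L B)
    (e : L) (he : IsOL π e) (hee : IsPiOL π (e ^ 2 - e)) :
    ∃ a : L, IsIntegral A[X] a ∧ IsPiOL π (a - e) := by
  classical
  have hπ' : Prime π := hπ.prime
  have hCπ : Prime (C π : A[X]) := prime_C_iff.2 hπ'
  have hF : FaithfulSMul A[X] L := s1_faithfulSMul E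
  obtain ⟨n, b, s, hbint, hs1, hsM, hbind⟩ := exists_pkg (E := E) (L := L) hπ
  -- the dual basis for the trace form
  have hnd : (Algebra.traceForm E L).Nondegenerate := traceForm_nondegenerate E L
  set d := (Algebra.traceForm E L).dualBasis hnd b with hd
  have hdb : ∀ i j, Algebra.trace E L (d i * b j) = if j = i then 1 else 0 :=
    fun i j => (Algebra.traceForm E L).apply_dualBasis_left hnd b i j
  have hrepr : ∀ i x, Algebra.trace E L (d i * x) = b.repr x i := by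
    intro i x
    conv_lhs => rw [← b.sum_repr x]
    rw [Finset.mul_sum, map_sum]
    simp [hdb]
  have hs : ¬ C π ∣ s := by
    intro h
    have h1 : C π ∣ 1 := by
      have := dvd_sub h hs1
      simpa using this
    exact hCπ.not_isUnit (isUnit_of_dvd_one h1)
  -- `s b_i^∨ ∈ M^∨`
  have hM : ∀ i z, IsIntegral A[X] z →
      ∃ r : A[X], Algebra.trace E L ((s • d i) * z) = algebraMap A[X] E r := by
    intro i z hz
    obtain ⟨c, hc⟩ := (Submodule.mem_span_range_iff_exists_fun _).1 (hsM z hz)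
    refine ⟨c i, ?_⟩
    rw [smul_mul_assoc, ← mul_smul_comm, ← hc, hrepr]
    have : ∑ j, c j • b j = ∑ j, (algebraMap A[X] E (c j)) • b j := by
      simp only [algebraMap_smul]
    rw [this, b.repr_sum_self]
  -- `b_i^∨ ∈ O_L`
  have hdOL : ∀ i, IsOL π (d i) := by
    intro i
    apply isOL_of_trace hπ' H1
    intro z hz
    obtain ⟨s', hs', hz'⟩ := hz
    obtain ⟨r, hr⟩ := hM i (s' • z) hz'
    refine ⟨s * s', r, hCπ.not_dvd_mul hs hs', ?_⟩
    rw [← hr, smul_mul_smul_comm, LinearMap.map_smul_of_tower]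
  -- `u_i = ε s b_i^∨ ∈ M`
  have hε : ¬ C π ∣ ∏ β ∈ B, (X - C β) := not_C_dvd_prod_X_sub_C hπ' B
  have hu : ∀ i, IsIntegral A[X] ((∏ β ∈ B, (X - C β)) • s • d i) := fun i =>
    isIntegral_of_isOL_of_isBK E hπ' (((hdOL i).smul s).smul _) (HT _ (hM i)).1
  have hu' : ∀ i, ∀ β ∈ B, ∃ (m : ℕ) (z : L), IsIntegral A[X] z ∧
      ((∏ β ∈ B, (X - C β)) • s • d i) ^ m = (X - C β) • z := by
    intro i β hβ
    obtain ⟨m, z, hz, hzm⟩ := (HT _ (hM i)).2 β hβ
    refine ⟨m, z, isIntegral_of_isOL_of_isBK E hπ' ?_ hz, hzm⟩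
    apply IsOL.of_smul hπ' (not_C_dvd_X_sub_C hπ' β)
    rw [← hzm]
    exact IsOL.of_isIntegral hπ' ((hu i).pow m)
  -- step 4
  choose r hr using fun i => exists_isPiOG_trace_sub (E := E) hπ B hB e he hee _ (hu i) (hu' i)
  -- step 5
  have hc : ∀ i, IsPiOG π (b.repr e i - algebraMap A[X] E (r i)) := by
    intro i
    have hcOG : IsOG π (b.repr e i) := by
      rw [← hrepr]
      exact ((hdOL i).mul hπ' he).trace hπ'
    have e1 : Algebra.trace E L (e * ((∏ β ∈ B, (X - C β)) • s • d i))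
          - algebraMap A[X] E ((∏ β ∈ B, (X - C β)) * r i)
        = (∏ β ∈ B, (X - C β)) • (s • b.repr e i - algebraMap A[X] E (r i)) := by
      rw [mul_smul_comm, mul_smul_comm, LinearMap.map_smul_of_tower, LinearMap.map_smul_of_tower,
        mul_comm e, hrepr, smul_sub, (algebraMap A[X] E).map_mul,
        Algebra.smul_def _ (algebraMap A[X] E (r i))]
    have h5 : IsPiOG π (s • b.repr e i - algebraMap A[X] E (r i)) :=
      IsPiOG.of_smul hπ' hε (e1 ▸ hr i)
    obtain ⟨q, hq⟩ := hs1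
    have e2 : b.repr e i - algebraMap A[X] E (r i)
        = (s • b.repr e i - algebraMap A[X] E (r i)) - (C π : A[X]) • (q • b.repr e i) := by
      rw [smul_smul, ← hq, sub_smul, one_smul]
      ring
    rw [e2]
    exact h5.sub hπ' (hcOG.s1_smul hπ' q).s1_C_smul
  refine ⟨∑ i, r i • b i, IsIntegral.sum _ (fun i _ => (hbint i).smul _), ?_⟩
  have e3 : ∑ i, r i • b i - e = ∑ i, (algebraMap A[X] E (r i) - b.repr e i) • b i := by
    simp only [sub_smul, Finset.sum_sub_distrib, algebraMap_smul, b.sum_repr]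
  rw [e3]
  apply IsPiOL.sum hπ'
  intro i _
  have h6 := (hc i).neg
  rw [neg_sub] at h6
  exact h6.smul_isOL hπ' (IsOL.of_isIntegral hπ' (hbint i))

end Fermat.Agent.Crux.G
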