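import Fermat.Agent.Crux.G.Main

/-!
# Crux / G : the chart theorem for arbitrary integral elements
(= normality of the special fibre of one chart)

`chart` lifts the idempotents of `O_L/π O_L` to `M` (= the integral closure of `A[X]` in `L`).  The same
proof lifts every element `e` of `O_L/π O_L` which is integral over `M/π` (in particular over
`k[X]`): replace the lattice `Λ = M + e M` by `Λ = ∑_{i < r} e^i M`, `r` = the degree of a monic
`P ∈ M[T]` with `P(e) ∈ π O_L`.

* `chartInt'` : `P ∈ M[T]`;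
* `chartInt`  : `P ∈ A[X][T]`;
* `chartIntx` : the same in the chart `X ↦ x`.
-/

set_option autoImplicit false
set_option linter.unusedSectionVars false
set_option linter.style.haveILetI false

open Polynomial

namespace Fermat.Agent.Crux.G

section Chart

variable {A : Type*} [CommRing A] [IsDomain A] [IsDiscreteValuationRing A] {π : A}
variable {E : Type*} [Field E] [Algebra A[X] E] [IsFractionRing A[X] E] [CharZero E]
variable {L : Type*} [Field L] [Algebra A[X] L] [Algebra E L] [IsScalarTower A[X] E L]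
  [FiniteDimensional E L]

/-- **Step 4** of the chart theorem for a general lattice `Λ ⊇ M` which is stable modulo `π O_L` under
`e^(N+1) v`, `v ∈ M`. -/
theorem exists_isPiOG_trace_sub_of_lattice (hπ : Irreducible π) (B : Finset A)
    (hB : ∀ β ∈ B, ∀ β' ∈ B, π ∣ β - β' → β = β')
    (e : L) (he : IsOL π e)
    (Λ : Submodule A[X] L) (hfg : Λ.FG) (hΛ : ∀ y ∈ Λ, IsOL π y)
    (hMΛ : ∀ y, IsIntegral A[X] y → y ∈ Λ)
    (hstab : ∀ (N : ℕ) (v : L), IsIntegral A[X] v → ∀ y ∈ Λ,
      ∃ y' ∈ Λ, IsPiOL π (e ^ (N + 1) * v * y - y'))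
    (u : L) (hu : IsIntegral A[X] u)
    (hu' : ∀ β ∈ B, ∃ (m : ℕ) (z : L), IsIntegral A[X] z ∧ u ^ m = (X - C β) • z) :
    ∃ r : A[X], IsPiOG π (Algebra.trace E L (e * u)
      - algebraMap A[X] E ((∏ β ∈ B, (X - C β)) * r)) := by
  have hπ' : Prime π := hπ.prime
  obtain ⟨m, l, hlΛ, hgen, hind⟩ := exists_basis_mod E hπ Λ hfg hΛ
  obtain ⟨bl, hbl⟩ := exists_basis_of_gen_indep (E := E) hπ l (fun j => hΛ _ (hlΛ j))
    (fun y hy => hgen y (hMΛ y hy)) hind
  have hbl' : (bl : Fin m → L) = l := funext hbl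
  -- the key approximation property
  have key : ∀ (N : ℕ) (v : L), IsIntegral A[X] v → ∀ j, ∃ r : Fin m → A[X],
      IsPiOL π (e ^ (N + 1) * v * l j - ∑ k, r k • l k) := by
    intro N v hv j
    obtain ⟨y', hy', h1⟩ := hstab N v hv (l j) (hlΛ j)
    obtain ⟨r, hr⟩ := hgen y' hy'
    refine ⟨r, ?_⟩
    have : e ^ (N + 1) * v * l j - ∑ k, r k • l k
        = (e ^ (N + 1) * v * l j - y') + (y' - ∑ k, r k • l k) := by ring
    rw [this]
    exact h1.add hπ' hr
  choose Z hZ using key 0 u hu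
  have hZ' : ∀ j, IsPiOL π ((e * u) * l j - ∑ k, (Matrix.of Z) j k • l k) := by
    intro j
    simpa using hZ j
  have hw : IsOL π (e * u) := he.mul hπ' (IsOL.of_isIntegral hπ' hu)
  have hev : ∀ β ∈ B, π ∣ ((Matrix.of Z).trace).eval β := by
    intro β hβ
    obtain ⟨N, z, hz, hzu⟩ := hu' β hβ
    choose Y hY using key N (z * u) (hz.mul hu)
    apply dvd_eval_trace_of_pow hπ' (Matrix.of Z) (Matrix.of Y) β (N + 1)
    intro j
    apply hind
    have h1 := isPiOL_pow_mul_sub hπ' l (e * u) hw (Matrix.of Z) hZ' (N + 1) j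
    have h2 := (hY j).smul (X - C β)
    have e2 : (e * u) ^ (N + 1) = (X - C β) • (e ^ (N + 1) * (z * u)) := by
      rw [mul_pow, pow_succ u, hzu]
      simp only [Algebra.smul_def]
      ring
    have e1 : ∀ g : A[X], (e * u) ^ (N + 1) = g • (e ^ (N + 1) * (z * u)) →
        ∑ k, ((Matrix.of Z ^ (N + 1)) j k - g * (Matrix.of Y) j k) • l k
        = g • (e ^ (N + 1) * (z * u) * l j - ∑ k, Y j k • l k)
          - ((e * u) ^ (N + 1) * l j - ∑ k, (Matrix.of Z ^ (N + 1)) j k • l k) := by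
      intro g e2
      rw [e2]
      simp only [sub_smul, Finset.sum_sub_distrib, mul_smul, smul_sub, Finset.smul_sum,
        Matrix.of_apply, smul_mul_assoc]
      ring
    specialize e1 _ e2
    rw [e1]
    exact h2.sub hπ' h1
  obtain ⟨r, hr⟩ := exists_C_dvd_sub_prod_mul hπ' B hB _ hev
  refine ⟨r, ?_⟩
  have h3 : IsPiOG π (Algebra.trace E L (e * u) - algebraMap A[X] E (Matrix.of Z).trace) := by
    apply isPiOG_trace_sub hπ bl (by rw [hbl']; exact hind) (e * u) (Matrix.of Z)
    rw [hbl']; exact hZ'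
  have h4 : IsPiOG π (algebraMap A[X] E ((Matrix.of Z).trace - (∏ β ∈ B, (X - C β)) * r)) :=
    (isPiOG_algebraMap_iff hπ' _).2 hr
  have e3 : Algebra.trace E L (e * u) - algebraMap A[X] E ((∏ β ∈ B, (X - C β)) * r)
      = (Algebra.trace E L (e * u) - algebraMap A[X] E (Matrix.of Z).trace)
        + algebraMap A[X] E ((Matrix.of Z).trace - (∏ β ∈ B, (X - C β)) * r) := by
    rw [map_sub]; ring
  rw [e3]
  exact h3.add hπ' h4

/-- The chart theorem from its step 4. -/
theorem chart_of_step4 (hπ : Irreducible π) (B : Finset A)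
    (H1 : TracePerfect π E L) (HT : Tame π E L B)
    (e : L) (he : IsOL π e)
    (h4 : ∀ u : L, IsIntegral A[X] u →
      (∀ β ∈ B, ∃ (m : ℕ) (z : L), IsIntegral A[X] z ∧ u ^ m = (X - C β) • z) →
      ∃ r : A[X], IsPiOG π (Algebra.trace E L (e * u)
        - algebraMap A[X] E ((∏ β ∈ B, (X - C β)) * r))) :
    ∃ a : L, IsIntegral A[X] a ∧ IsPiOL π (a - e) := by
  classical
  have hπ' : Prime π := hπ.prime
  have hCπ : Prime (C π : A[X]) := prime_C_iff.2 hπ'
  have hF : FaithfulSMul A[X] L := s1_faithfulSMul E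
  obtain ⟨n, b, s, hbint, hs1, hsM, hbind⟩ := exists_pkg (E := E) (L := L) hπ
  -- the dual basis for the trace form
  have hnd : (Algebra.traceForm E L).Nondegenerate := traceForm_nondegenerate E L
  set d := (Algebra.traceForm E L).dualBasis hnd b with hd
  have hdb : ∀ i j, Algebra.trace E L (d i * b j) = if j = i then 1 else 0 :=
    fun i j => (Algebra.traceForm E L).apply_dualBasis_left hnd b i j
  have hrepr : ∀ i x, Algebra.trace E L (d i * x) = b.repr x i := by
    intro i x
    conv_lhs => rw [← b.sum_repr x]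
    rw [Finset.mul_sum, map_sum]
    simp [hdb]
  have hs : ¬ C π ∣ s := by
    intro h
    have h1 : C π ∣ 1 := by
      have := dvd_sub h hs1
      simpa using this
    exact hCπ.not_isUnit (isUnit_of_dvd_one h1)
  -- `s b_i^∨ ∈ M^∨`
  have hM : ∀ i z, IsIntegral A[X] z →
      ∃ r : A[X], Algebra.trace E L ((s • d i) * z) = algebraMap A[X] E r := by
    intro i z hz
    obtain ⟨c, hc⟩ := (Submodule.mem_span_range_iff_exists_fun _).1 (hsM z hz)
    refine ⟨c i, ?_⟩
    rw [smul_mul_assoc, ← mul_smul_comm, ← hc, hrepr]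
    have : ∑ j, c j • b j = ∑ j, (algebraMap A[X] E (c j)) • b j := by
      simp only [algebraMap_smul]
    rw [this, b.repr_sum_self]
  -- `b_i^∨ ∈ O_L`
  have hdOL : ∀ i, IsOL π (d i) := by
    intro i
    apply isOL_of_trace hπ' H1
    intro z hz
    obtain ⟨s', hs', hz'⟩ := hz
    obtain ⟨r, hr⟩ := hM i (s' • z) hz'
    refine ⟨s * s', r, hCπ.not_dvd_mul hs hs', ?_⟩
    rw [← hr, smul_mul_smul_comm, LinearMap.map_smul_of_tower]
  -- `u_i = ε s b_i^∨ ∈ M`
  have hε : ¬ C π ∣ ∏ β ∈ B, (X - C β) := not_C_dvd_prod_X_sub_C hπ' B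
  have hu : ∀ i, IsIntegral A[X] ((∏ β ∈ B, (X - C β)) • s • d i) := fun i =>
    isIntegral_of_isOL_of_isBK E hπ' (((hdOL i).smul s).smul _) (HT _ (hM i)).1
  have hu' : ∀ i, ∀ β ∈ B, ∃ (m : ℕ) (z : L), IsIntegral A[X] z ∧
      ((∏ β ∈ B, (X - C β)) • s • d i) ^ m = (X - C β) • z := by
    intro i β hβ
    obtain ⟨m, z, hz, hzm⟩ := (HT _ (hM i)).2 β hβ
    refine ⟨m, z, isIntegral_of_isOL_of_isBK E hπ' ?_ hz, hzm⟩
    apply IsOL.of_smul hπ' (not_C_dvd_X_sub_C hπ' β)
    rw [← hzm]
    exact IsOL.of_isIntegral hπ' ((hu i).pow m)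
  -- step 4
  choose r hr using fun i => h4 _ (hu i) (hu' i)
  -- step 5
  have hc : ∀ i, IsPiOG π (b.repr e i - algebraMap A[X] E (r i)) := by
    intro i
    have hcOG : IsOG π (b.repr e i) := by
      rw [← hrepr]
      exact ((hdOL i).mul hπ' he).trace hπ'
    have e1 : Algebra.trace E L (e * ((∏ β ∈ B, (X - C β)) • s • d i))
          - algebraMap A[X] E ((∏ β ∈ B, (X - C β)) * r i)
        = (∏ β ∈ B, (X - C β)) • (s • b.repr e i - algebraMap A[X] E (r i)) := by
      rw [mul_smul_comm, mul_smul_comm, LinearMap.map_smul_of_tower, LinearMap.map_smul_of_tower,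
        mul_comm e, hrepr, smul_sub, (algebraMap A[X] E).map_mul,
        Algebra.smul_def _ (algebraMap A[X] E (r i))]
    have h5 : IsPiOG π (s • b.repr e i - algebraMap A[X] E (r i)) :=
      IsPiOG.of_smul hπ' hε (e1 ▸ hr i)
    obtain ⟨q, hq⟩ := hs1
    have e2 : b.repr e i - algebraMap A[X] E (r i)
        = (s • b.repr e i - algebraMap A[X] E (r i)) - (C π : A[X]) • (q • b.repr e i) := by
      rw [smul_smul, ← hq, sub_smul, one_smul]
      ring
    rw [e2]
    exact h5.sub hπ' (hcOG.s1_smul hπ' q).s1_C_smul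
  refine ⟨∑ i, r i • b i, IsIntegral.sum _ (fun i _ => (hbint i).smul _), ?_⟩
  have e3 : ∑ i, r i • b i - e = ∑ i, (algebraMap A[X] E (r i) - b.repr e i) • b i := by
    simp only [sub_smul, Finset.sum_sub_distrib, algebraMap_smul, b.sum_repr]
  rw [e3]
  apply IsPiOL.sum hπ'
  intro i _
  have h6 := (hc i).neg
  rw [neg_sub] at h6
  exact h6.smul_isOL hπ' (IsOL.of_isIntegral hπ' (hbint i))

/-! ### The lattice `∑_{i < r} e^i M` -/

/-- The lattice `Λ = ∑_{i < r} e^i M`. -/
noncomputable def lamInt (A : Type*) [CommRing A] {L : Type*} [Field L] [Algebra A[X] L] (e : L)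
    (r : ℕ) : Submodule A[X] L :=
  ⨆ i : Fin r, (integralClosure A[X] L).toSubmodule.map (LinearMap.mulLeft A[X] (e ^ (i : ℕ)))

theorem aeval_mem_lamInt (e : L) {r : ℕ} (Q : (integralClosure A[X] L)[X])
    (hQ : Q.natDegree < r) : aeval e Q ∈ lamInt A e r := by
  rw [aeval_eq_sum_range' hQ]
  refine Submodule.sum_mem _ fun i hi => ?_
  have hi' : i < r := Finset.mem_range.1 hi
  refine Submodule.mem_iSup_of_mem (⟨i, hi'⟩ : Fin r)
    (Submodule.mem_map.2 ⟨Q.coeff i, (Q.coeff i).2, ?_⟩)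
  rw [LinearMap.mulLeft_apply, Algebra.smul_def, mul_comm]
  rfl

theorem exists_aeval_eq_of_mem_lamInt (e : L) {r : ℕ} {y : L} (hy : y ∈ lamInt A e r) :
    ∃ Q : (integralClosure A[X] L)[X], aeval e Q = y := by
  refine Submodule.iSup_induction _ (motive := fun y => ∃ Q : (integralClosure A[X] L)[X],
    aeval e Q = y) hy ?_ ⟨0, by simp⟩ ?_
  · rintro i _ ⟨y, hy, rfl⟩
    refine ⟨C ⟨y, hy⟩ * X ^ (i : ℕ), ?_⟩
    rw [map_mul, aeval_C, map_pow, aeval_X, LinearMap.mulLeft_apply, mul_comm]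
    rfl
  · rintro _ _ ⟨Q₁, rfl⟩ ⟨Q₂, rfl⟩
    exact ⟨Q₁ + Q₂, map_add _ _ _⟩

theorem isOL_aeval_integralClosure (hπ : Prime π) {e : L} (he : IsOL π e)
    (Q : (integralClosure A[X] L)[X]) : IsOL π (aeval e Q) := by
  induction Q using Polynomial.induction_on' with
  | add p q hp hq => rw [map_add]; exact hp.add hπ hq
  | monomial n a =>
    rw [aeval_monomial]
    exact (IsOL.of_isIntegral hπ a.2).mul hπ (he.pow hπ n)

/-- **Chart theorem, integral form.**  Every element of `O_L/π O_L` which is integral over `M/π`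
comes from `M`. -/
theorem chartInt' (hπ : Irreducible π) (B : Finset A)
    (hB : ∀ β ∈ B, ∀ β' ∈ B, π ∣ β - β' → β = β')
    (H1 : TracePerfect π E L) (HT : Tame π E L B)
    (e : L) (he : IsOL π e) (P : (integralClosure A[X] L)[X]) (hP : P.Monic)
    (hPe : IsPiOL π (aeval e P)) :
    ∃ a : L, IsIntegral A[X] a ∧ IsPiOL π (a - e) := by
  have hπ' : Prime π := hπ.prime
  -- every element of `M[e]` is congruent to an element of `Λ`
  have key : ∀ Q : (integralClosure A[X] L)[X],
      ∃ y' ∈ lamInt A e (P.natDegree + 1), IsPiOL π (aeval e Q - y') := by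
    intro Q
    refine ⟨aeval e (Q %ₘ P), aeval_mem_lamInt e _ ?_, ?_⟩
    · exact lt_of_le_of_lt (natDegree_modByMonic_le Q hP) (Nat.lt_succ_self _)
    · have h1 : aeval e Q - aeval e (Q %ₘ P) = aeval e P * aeval e (Q /ₘ P) := by
        have h2 := congrArg (aeval e) (modByMonic_add_div Q P)
        rw [map_add, map_mul] at h2
        rw [← h2]
        ring
      rw [h1]
      exact hPe.mul_right hπ' (isOL_aeval_integralClosure hπ' he _)
  apply chart_of_step4 hπ B H1 HT e he
  apply exists_isPiOG_trace_sub_of_lattice hπ B hB e he (lamInt A e (P.natDegree + 1))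
  · exact Submodule.fg_iSup _ fun i => (integralClosure_fg E).map _
  · intro y hy
    obtain ⟨Q, rfl⟩ := exists_aeval_eq_of_mem_lamInt e hy
    exact isOL_aeval_integralClosure hπ' he Q
  · intro y hy
    have := aeval_mem_lamInt e (r := P.natDegree + 1) (C (⟨y, hy⟩ : integralClosure A[X] L))
      (by rw [natDegree_C]; exact Nat.succ_pos _)
    rw [aeval_C] at this
    exact this
  · intro N v hv y hy
    obtain ⟨Q, rfl⟩ := exists_aeval_eq_of_mem_lamInt e hy
    obtain ⟨y', hy', h⟩ := key (X ^ (N + 1) * C (⟨v, hv⟩ : integralClosure A[X] L) * Q)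
    refine ⟨y', hy', ?_⟩
    rw [map_mul, map_mul, map_pow, aeval_X, aeval_C] at h
    exact h

/-- **Chart theorem, integral form.**  Every element of `O_L/π O_L` which is integral over
`(A/π)[X]` comes from `M`. -/
theorem chartInt (hπ : Irreducible π) (B : Finset A)
    (hB : ∀ β ∈ B, ∀ β' ∈ B, π ∣ β - β' → β = β')
    (H1 : TracePerfect π E L) (HT : Tame π E L B)
    (e : L) (he : IsOL π e) (P : A[X][X]) (hP : P.Monic) (hPe : IsPiOL π (aeval e P)) :
    ∃ a : L, IsIntegral A[X] a ∧ IsPiOL π (a - e) := by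
  refine chartInt' hπ B hB H1 HT e he (P.map (algebraMap A[X] (integralClosure A[X] L)))
    (hP.map _) ?_
  rwa [aeval_map_algebraMap]

end Chart

section wrappers

variable {A E L : Type*} [CommRing A] [IsDomain A] [IsDiscreteValuationRing A]
    [Field E] [Field L] [CharZero E] [Algebra A E] [Algebra E L]
    [FiniteDimensional E L]

/-- chart theorem, integral form, in the chart `X ↦ x`. -/
theorem chartIntx {π : A} (hπ : Irreducible π) {x : E} (hx : Transcendental A x)
    (hgen : ∀ c : E, ∃ p q : A[X], q ≠ 0 ∧ c * aeval x q = aeval x p)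
    (H1 : TracePerfectx L π x) (B : Finset A)
    (hB : ∀ β ∈ B, ∀ β' ∈ B, π ∣ β - β' → β = β') (H2 : Unramx L π x B)
    (e : L) (he : IsOLx π x e) (P : A[X][X]) (hP : P.Monic)
    (hPe : IsPiOLx π x
      (P.eval₂ ((algebraMap E L).comp ((aeval x : A[X] →ₐ[A] E) : A[X] →+* E)) e)) :
    ∃ a : L, IntX A x a ∧ IsPiOLx π x (a - e) := by
  letI := algE (A := A) x
  letI := algL (A := A) L x
  haveI := isScalarTower_alg (A := A) (L := L) x
  haveI := isFractionRing_algE hx hgen
  exact chartInt hπ B hB H1 (tame_of_unram hπ B H2) e he P hP hPe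

/-- chart theorem, integral form, in the chart `X ↦ x`, with an integral equation whose
coefficients are integral over `A[x]`. -/
theorem chartIntx' {π : A} (hπ : Irreducible π) {x : E} (hx : Transcendental A x)
    (hgen : ∀ c : E, ∃ p q : A[X], q ≠ 0 ∧ c * aeval x q = aeval x p)
    (H1 : TracePerfectx L π x) (B : Finset A)
    (hB : ∀ β ∈ B, ∀ β' ∈ B, π ∣ β - β' → β = β') (H2 : Unramx L π x B)
    (e : L) (he : IsOLx π x e) (P : L[X]) (hP : P.Monic) (hPc : ∀ i, IntX A x (P.coeff i))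
    (hPe : IsPiOLx π x (P.eval e)) :
    ∃ a : L, IntX A x a ∧ IsPiOLx π x (a - e) := by
  letI := algE (A := A) x
  letI := algL (A := A) L x
  haveI := isScalarTower_alg (A := A) (L := L) x
  haveI := isFractionRing_algE hx hgen
  have hl : P ∈ Polynomial.lifts (algebraMap (integralClosure A[X] L) L) := by
    rw [Polynomial.lifts_iff_coeff_lifts]
    intro i
    exact ⟨⟨P.coeff i, hPc i⟩, rfl⟩
  obtain ⟨P', hP', -, hP'm⟩ := Polynomial.lifts_and_natDegree_eq_and_monic hl hP
  refine chartInt' hπ B hB H1 (tame_of_unram hπ B H2) e he P' hP'm ?_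
  rw [aeval_def, ← eval_map, hP']
  exact hPe

end wrappers

end Fermat.Agent.Crux.G
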