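import Mathlib

set_option autoImplicit false

/-!
# Crux/G, step (7): connectedness (two charts, `H¹` finitely generated, Newton idempotents)

Pure algebra, Mathlib only.
-/

namespace Fermat.Agent.Crux.G.Conn

/-! ## (C1) abstract two-chart idempotent gluing -/

section Abstract

variable {M : Type*} [CommRing M]

/-- One Newton step inside a subring. -/
theorem newton_step (S : Subring M) {π a : M} (ha : a ∈ S) {n : ℕ}
    (h : ∃ c ∈ S, a ^ 2 - a = π ^ n * c) :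
    ∃ a' ∈ S, (∃ c ∈ S, a' ^ 2 - a' = π ^ (2 * n) * c) ∧ ∃ d ∈ S, a' - a = π ^ n * d := by
  obtain ⟨c, hc, hac⟩ := h
  have h2 : (2 : M) ∈ S := by
    have : (2 : M) = 1 + 1 := by norm_num
    rw [this]; exact S.add_mem S.one_mem S.one_mem
  have h3 : (3 : M) ∈ S := by
    have : (3 : M) = 2 + 1 := by norm_num
    rw [this]; exact S.add_mem h2 S.one_mem
  have h4 : (4 : M) ∈ S := by
    have : (4 : M) = 3 + 1 := by norm_num
    rw [this]; exact S.add_mem h3 S.one_mem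
  refine ⟨3 * a ^ 2 - 2 * a ^ 3,
    S.sub_mem (S.mul_mem h3 (S.pow_mem ha 2)) (S.mul_mem h2 (S.pow_mem ha 3)),
    ⟨c ^ 2 * (4 * a ^ 2 - 4 * a - 3), ?_, ?_⟩, ⟨c * (1 - 2 * a), ?_, ?_⟩⟩
  · exact S.mul_mem (S.pow_mem hc 2)
      (S.sub_mem (S.sub_mem (S.mul_mem h4 (S.pow_mem ha 2)) (S.mul_mem h4 ha)) h3)
  · have : (3 * a ^ 2 - 2 * a ^ 3) ^ 2 - (3 * a ^ 2 - 2 * a ^ 3)
        = (a ^ 2 - a) ^ 2 * (4 * a ^ 2 - 4 * a - 3) := by ring
    rw [this, hac]; ring
  · exact S.mul_mem hc (S.sub_mem S.one_mem (S.mul_mem h2 ha))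
  · have : 3 * a ^ 2 - 2 * a ^ 3 - a = (a ^ 2 - a) * (1 - 2 * a) := by ring
    rw [this, hac]; ring

/-- Newton iteration inside a subring: an idempotent mod `π` lifts to an idempotent mod `π ^ n`. -/
theorem newton_iter (S : Subring M) {π a : M} (hπ : π ∈ S) (ha : a ∈ S)
    (h : ∃ c ∈ S, a ^ 2 - a = π * c) (n : ℕ) :
    ∃ a' ∈ S, (∃ c ∈ S, a' ^ 2 - a' = π ^ (n + 1) * c) ∧ ∃ d ∈ S, a' - a = π * d := by
  induction n with
  | zero =>
    obtain ⟨c, hc, hac⟩ := h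
    exact ⟨a, ha, ⟨c, hc, by simpa using hac⟩, ⟨0, S.zero_mem, by simp⟩⟩
  | succ n ih =>
    obtain ⟨a₁, ha₁, hc₁, d₁, hd₁, had₁⟩ := ih
    obtain ⟨a₂, ha₂, ⟨c₂, hc₂, hac₂⟩, d₂, hd₂, had₂⟩ := newton_step S ha₁ hc₁
    refine ⟨a₂, ha₂, ⟨π ^ n * c₂, S.mul_mem (S.pow_mem hπ n) hc₂, ?_⟩,
      ⟨π ^ n * d₂ + d₁, S.add_mem (S.mul_mem (S.pow_mem hπ n) hd₂) hd₁, ?_⟩⟩
    · rw [hac₂]; ring
    · have : a₂ - a = (a₂ - a₁) + (a₁ - a) := by ring
      rw [this, had₂, had₁]; ring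

/-- Uniqueness of idempotent lifts. -/
theorem sub_mem_of_idem {π a b : M} {n : ℕ}
    (ha : ∃ c, a ^ 2 - a = π ^ n * c) (hb : ∃ c, b ^ 2 - b = π ^ n * c)
    (hab : ∃ c, a - b = π * c) : ∃ c, a - b = π ^ n * c := by
  set I : Ideal M := Ideal.span {π ^ n} with hI
  have key : (Ideal.Quotient.mk I a) = Ideal.Quotient.mk I b := by
    apply eq_of_isNilpotent_sub_of_isIdempotentElem
    · obtain ⟨c, hc⟩ := ha
      have : Ideal.Quotient.mk I (a ^ 2 - a) = 0 := by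
        rw [Ideal.Quotient.eq_zero_iff_mem, hc]
        exact Ideal.mul_mem_right _ _ (Ideal.subset_span rfl)
      rw [map_sub, sub_eq_zero, map_pow, sq] at this
      exact this
    · obtain ⟨c, hc⟩ := hb
      have : Ideal.Quotient.mk I (b ^ 2 - b) = 0 := by
        rw [Ideal.Quotient.eq_zero_iff_mem, hc]
        exact Ideal.mul_mem_right _ _ (Ideal.subset_span rfl)
      rw [map_sub, sub_eq_zero, map_pow, sq] at this
      exact this
    · obtain ⟨c, hc⟩ := hab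
      refine ⟨n, ?_⟩
      rw [← map_sub, ← map_pow, Ideal.Quotient.eq_zero_iff_mem, hc, mul_pow]
      exact Ideal.mul_mem_right _ _ (Ideal.subset_span rfl)
  rw [Ideal.Quotient.eq, hI, Ideal.mem_span_singleton] at key
  exact key

/-- **(C1)** Two-chart gluing of an idempotent mod `π`: if the `π`-power torsion of
`M / (M₀ + M₁)` is bounded, an idempotent mod `π` given on both charts is congruent to a global
element. -/
theorem exists_global (M₀ M₁ : Subring M) {π : M} (h₀ : π ∈ M₀) (h₁ : π ∈ M₁) (t : ℕ)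
    (ht : ∀ (g : M) (n : ℕ), (∃ u ∈ M₀, ∃ v ∈ M₁, π ^ n * g = u + v) →
      ∃ u ∈ M₀, ∃ v ∈ M₁, π ^ t * g = u + v)
    {a b : M} (ha : a ∈ M₀) (hb : b ∈ M₁)
    (haa : ∃ c ∈ M₀, a ^ 2 - a = π * c) (hbb : ∃ c ∈ M₁, b ^ 2 - b = π * c)
    (hab : ∃ c, a - b = π * c) :
    ∃ z, z ∈ M₀ ∧ z ∈ M₁ ∧ (∃ c ∈ M₀, z - a = π * c) ∧ ∃ c ∈ M₁, z - b = π * c := by
  obtain ⟨a', ha', ⟨ca, -, hca⟩, da, hda, hada⟩ := newton_iter M₀ h₀ ha haa t
  obtain ⟨b', hb', ⟨cb, -, hcb⟩, db, hdb, hbdb⟩ := newton_iter M₁ h₁ hb hbb t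
  obtain ⟨c, hc⟩ := hab
  obtain ⟨g, hg⟩ : ∃ g, a' - b' = π ^ (t + 1) * g := by
    refine sub_mem_of_idem ⟨ca, hca⟩ ⟨cb, hcb⟩ ⟨da - db + c, ?_⟩
    have : a' - b' = (a' - a) - (b' - b) + (a - b) := by ring
    rw [this, hada, hbdb, hc]; ring
  obtain ⟨u, hu, v, hv, huv⟩ := ht g (t + 1) ⟨a', ha', -b', M₁.neg_mem hb', by rw [← hg]; ring⟩
  have hz : a' - π * u = b' + π * v := by
    have : a' - b' = π * (π ^ t * g) := by rw [hg]; ring
    rw [huv] at this
    linear_combination this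
  refine ⟨a' - π * u, M₀.sub_mem ha' (M₀.mul_mem h₀ hu), ?_,
    ⟨da - u, M₀.sub_mem hda hu, ?_⟩, ⟨db + v, M₁.add_mem hdb hv, ?_⟩⟩
  · rw [hz]; exact M₁.add_mem hb' (M₁.mul_mem h₁ hv)
  · linear_combination hada
  · rw [hz]; linear_combination hbdb

end Abstract

/-! ## (C2) the two charts of `A₀[x]`, `A₀[x⁻¹]` -/

section Charts

open Polynomial

variable {A₀ L : Type*} [CommRing A₀] [Field L] [Algebra A₀ L]

/-- Scaling lemma: if `s ^ j * c ∈ R` for all coefficients `c ∈ R'` and `j ≥ 1`, then `s * y` is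
integral over `R` as soon as `y` is integral over `R'`. -/
theorem isIntegral_mul_of_scale (R R' : Subalgebra A₀ L) (s₀ : L)
    (h : ∀ c ∈ R', ∃ k₀ : ℕ, ∀ k, k₀ ≤ k → s₀ ^ k * c ∈ R) {y : L} (hy : IsIntegral R' y) :
    ∃ k₀ : ℕ, ∀ k, k₀ ≤ k → IsIntegral R (s₀ ^ k * y) := by
  obtain ⟨p, hp, hpy⟩ := hy
  choose! K hK using h
  set P : L[X] := p.map (algebraMap R' L) with hP
  have hPm : P.Monic := hp.map _
  have hPy : P.eval y = 0 := by rw [hP, eval_map]; exact hpy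
  refine ⟨(Finset.range (p.natDegree + 1)).sup fun i => K (p.coeff i : L), fun k hk => ?_⟩
  set Q : L[X] := scaleRoots P (s₀ ^ k) with hQ
  have hQm : Q.Monic := (monic_scaleRoots_iff _).2 hPm
  have hQy : Q.eval (s₀ ^ k * y) = 0 := by
    have := scaleRoots_eval₂_eq_zero (p := P) (RingHom.id L) (r := y) (s := s₀ ^ k)
      (by simpa [eval₂_id] using hPy)
    simpa [eval₂_id] using this
  have hlift : Q ∈ lifts (algebraMap R L) := by
    rw [lifts_iff_coeff_lifts]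
    intro i
    rw [hQ, coeff_scaleRoots]
    have hdeg : P.natDegree = p.natDegree := by
      rw [hP]; exact hp.natDegree_map _
    rcases lt_trichotomy i P.natDegree with hi | hi | hi
    · have h1 : K (p.coeff i : L) ≤ k * (P.natDegree - i) := by
        have h2 : K (p.coeff i : L) ≤ k :=
          le_trans (Finset.le_sup (f := fun i => K (p.coeff i : L))
            (Finset.mem_range.2 (by omega))) hk
        have h3 : 1 ≤ P.natDegree - i := by omega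
        nlinarith
      have := hK (p.coeff i : L) (p.coeff i).2 _ h1
      refine ⟨⟨_, this⟩, ?_⟩
      have hc : P.coeff i = (p.coeff i : L) := by rw [hP, coeff_map]; rfl
      rw [hc, ← pow_mul]
      exact mul_comm _ _
    · subst hi
      refine ⟨1, ?_⟩
      have : P.coeff P.natDegree = 1 := hPm
      simp [this]
    · refine ⟨0, ?_⟩
      rw [coeff_eq_zero_of_natDegree_lt hi]; simp
  obtain ⟨q, hq, -, hqm⟩ := lifts_and_natDegree_eq_and_monic hlift hQm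
  refine ⟨q, hqm, ?_⟩
  rw [← eval_map, hq]; exact hQy

variable (A₀) in
/-- `A₀[x]` inside `L`. -/
abbrev R0 (x : L) : Subalgebra A₀ L := Algebra.adjoin A₀ {x}

variable (A₀) in
/-- `A₀[x⁻¹]` inside `L`. -/
abbrev R1 (x : L) : Subalgebra A₀ L := Algebra.adjoin A₀ {x⁻¹}

variable (A₀) in
/-- `A₀[x, x⁻¹]` inside `L`. -/
abbrev R01 (x : L) : Subalgebra A₀ L := Algebra.adjoin A₀ {x, x⁻¹}

/-- The integral closure of a subalgebra `R` of `L`, as an `A₀`-subalgebra of `L`. -/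
def IC (R : Subalgebra A₀ L) : Subalgebra A₀ L := (integralClosure R L).restrictScalars A₀

theorem mem_IC {R : Subalgebra A₀ L} {y : L} : y ∈ IC R ↔ IsIntegral R y := Iff.rfl

theorem le_IC (R : Subalgebra A₀ L) : R ≤ IC R := fun y hy =>
  mem_IC.2 (isIntegral_algebraMap (R := R) (x := ⟨y, hy⟩))

theorem x_mem_R0 (x : L) : x ∈ R0 A₀ x := Algebra.subset_adjoin rfl
theorem inv_mem_R1 (x : L) : x⁻¹ ∈ R1 A₀ x := Algebra.subset_adjoin rfl

theorem R0_le_R01 (x : L) : R0 A₀ x ≤ R01 A₀ x := Algebra.adjoin_mono (by simp)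
theorem R1_le_R01 (x : L) : R1 A₀ x ≤ R01 A₀ x := Algebra.adjoin_mono (by simp)

theorem IC_mono {R R' : Subalgebra A₀ L} (h : R ≤ R') : IC R ≤ IC R' := by
  intro y hy
  obtain ⟨p, hp, hpy⟩ := mem_IC.1 hy
  refine mem_IC.2 ⟨p.map (Subalgebra.inclusion h).toRingHom, hp.map _, ?_⟩
  rw [eval₂_map]
  exact hpy

/-- (F1) -/
theorem F1 {x : L} (hx : x ≠ 0) : ∀ c ∈ R0 A₀ x, ∃ k₀ : ℕ, ∀ k, k₀ ≤ k → x⁻¹ ^ k * c ∈ R1 A₀ x := by
  intro c hc
  induction hc using Algebra.adjoin_induction with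
  | mem y hy =>
    obtain rfl : y = x := hy
    refine ⟨1, fun k hk => ?_⟩
    obtain ⟨j, rfl⟩ := Nat.exists_eq_add_of_le hk
    have : y⁻¹ ^ (1 + j) * y = y⁻¹ ^ j := by
      rw [pow_add, pow_one]; field_simp
    rw [this]
    exact Subalgebra.pow_mem _ (inv_mem_R1 y) _
  | algebraMap r =>
    exact ⟨0, fun k _ => Subalgebra.mul_mem _ (Subalgebra.pow_mem _ (inv_mem_R1 x) _)
      (Subalgebra.algebraMap_mem _ r)⟩
  | add c c' _ _ h h' =>
    obtain ⟨k₀, h⟩ := h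
    obtain ⟨k₁, h'⟩ := h'
    refine ⟨max k₀ k₁, fun k hk => ?_⟩
    rw [mul_add]
    exact Subalgebra.add_mem _ (h k (le_trans (le_max_left _ _) hk))
      (h' k (le_trans (le_max_right _ _) hk))
  | mul c c' _ _ h h' =>
    obtain ⟨k₀, h⟩ := h
    obtain ⟨k₁, h'⟩ := h'
    refine ⟨k₀ + k₁, fun k hk => ?_⟩
    obtain ⟨j, rfl⟩ := Nat.exists_eq_add_of_le hk
    have : x⁻¹ ^ (k₀ + k₁ + j) * (c * c') = (x⁻¹ ^ k₀ * c) * (x⁻¹ ^ (k₁ + j) * c') := by ring
    rw [this]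
    exact Subalgebra.mul_mem _ (h _ le_rfl) (h' _ (by omega))

/-- (F2) -/
theorem F2 {x : L} (hx : x ≠ 0) : ∀ c ∈ R01 A₀ x, ∃ k₀ : ℕ, ∀ k, k₀ ≤ k → x ^ k * c ∈ R0 A₀ x := by
  intro c hc
  induction hc using Algebra.adjoin_induction with
  | mem y hy =>
    rcases hy with rfl | hy
    · exact ⟨0, fun k _ => Subalgebra.mul_mem _ (Subalgebra.pow_mem _ (x_mem_R0 y) _) (x_mem_R0 y)⟩
    · obtain rfl : y = x⁻¹ := hy
      refine ⟨1, fun k hk => ?_⟩
      obtain ⟨j, rfl⟩ := Nat.exists_eq_add_of_le hk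
      have : x ^ (1 + j) * x⁻¹ = x ^ j := by
        rw [pow_add, pow_one]; field_simp
      rw [this]
      exact Subalgebra.pow_mem _ (x_mem_R0 x) _
  | algebraMap r =>
    exact ⟨0, fun k _ => Subalgebra.mul_mem _ (Subalgebra.pow_mem _ (x_mem_R0 x) _)
      (Subalgebra.algebraMap_mem _ r)⟩
  | add c c' _ _ h h' =>
    obtain ⟨k₀, h⟩ := h
    obtain ⟨k₁, h'⟩ := h'
    refine ⟨max k₀ k₁, fun k hk => ?_⟩
    rw [mul_add]
    exact Subalgebra.add_mem _ (h k (le_trans (le_max_left _ _) hk))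
      (h' k (le_trans (le_max_right _ _) hk))
  | mul c c' _ _ h h' =>
    obtain ⟨k₀, h⟩ := h
    obtain ⟨k₁, h'⟩ := h'
    refine ⟨k₀ + k₁, fun k hk => ?_⟩
    obtain ⟨j, rfl⟩ := Nat.exists_eq_add_of_le hk
    have : x ^ (k₀ + k₁ + j) * (c * c') = (x ^ k₀ * c) * (x ^ (k₁ + j) * c') := by ring
    rw [this]
    exact Subalgebra.mul_mem _ (h _ le_rfl) (h' _ (by omega))

/-- (F3) splitting Laurent polynomials. -/
theorem F3 {x : L} (hx : x ≠ 0) (k : ℕ) : ∀ c ∈ R0 A₀ x,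
    x⁻¹ ^ k * c ∈ Subalgebra.toSubmodule (R0 A₀ x) ⊔ Subalgebra.toSubmodule (R1 A₀ x) := by
  intro c hc
  unfold R0 at hc
  rw [Algebra.adjoin_singleton_eq_range_aeval] at hc
  obtain ⟨P, rfl⟩ := hc
  induction P using Polynomial.induction_on' with
  | add p q hp hq =>
    simp only [AlgHom.toRingHom_eq_coe, RingHom.coe_coe, map_add, mul_add] at hp hq ⊢
    exact Submodule.add_mem _ hp hq
  | monomial n r =>
    simp only [AlgHom.toRingHom_eq_coe, RingHom.coe_coe, aeval_monomial]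
    rcases le_total k n with h | h
    · obtain ⟨j, rfl⟩ := Nat.exists_eq_add_of_le h
      apply Submodule.mem_sup_left
      have : x⁻¹ ^ k * (algebraMap A₀ L r * x ^ (k + j)) = algebraMap A₀ L r * x ^ j := by
        rw [pow_add, inv_pow]; field_simp
      rw [this]
      exact Subalgebra.mul_mem _ (Subalgebra.algebraMap_mem _ r)
        (Subalgebra.pow_mem _ (x_mem_R0 x) _)
    · obtain ⟨j, rfl⟩ := Nat.exists_eq_add_of_le h
      apply Submodule.mem_sup_right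
      have : x⁻¹ ^ (n + j) * (algebraMap A₀ L r * x ^ n) = algebraMap A₀ L r * x⁻¹ ^ j := by
        rw [pow_add, inv_pow, inv_pow]; field_simp
      rw [this]
      exact Subalgebra.mul_mem _ (Subalgebra.algebraMap_mem _ r)
        (Subalgebra.pow_mem _ (inv_mem_R1 x) _)

/-- (F4) -/
theorem F4 {x : L} (hx : x ≠ 0) (m : ℕ) : ∀ c ∈ R1 A₀ x,
    x ^ m * c ∈ Submodule.span A₀ ((fun a : ℕ => x ^ a) '' (Set.Iic m)) ⊔
      Subalgebra.toSubmodule (R1 A₀ x) := by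
  intro c hc
  unfold R1 at hc
  rw [Algebra.adjoin_singleton_eq_range_aeval] at hc
  obtain ⟨P, rfl⟩ := hc
  induction P using Polynomial.induction_on' with
  | add p q hp hq =>
    simp only [AlgHom.toRingHom_eq_coe, RingHom.coe_coe, map_add, mul_add] at hp hq ⊢
    exact Submodule.add_mem _ hp hq
  | monomial n r =>
    simp only [AlgHom.toRingHom_eq_coe, RingHom.coe_coe, aeval_monomial]
    rcases le_total n m with h | h
    · obtain ⟨j, rfl⟩ := Nat.exists_eq_add_of_le h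
      apply Submodule.mem_sup_left
      have : x ^ (n + j) * (algebraMap A₀ L r * x⁻¹ ^ n) = r • x ^ j := by
        rw [pow_add, inv_pow, Algebra.smul_def]; field_simp
      rw [this]
      exact Submodule.smul_mem _ _ (Submodule.subset_span ⟨j, by simp, rfl⟩)
    · obtain ⟨j, rfl⟩ := Nat.exists_eq_add_of_le h
      apply Submodule.mem_sup_right
      have : x ^ m * (algebraMap A₀ L r * x⁻¹ ^ (m + j)) = algebraMap A₀ L r * x⁻¹ ^ j := by
        rw [pow_add, inv_pow, inv_pow]; field_simp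
      rw [this]
      exact Subalgebra.mul_mem _ (Subalgebra.algebraMap_mem _ r)
        (Subalgebra.pow_mem _ (inv_mem_R1 x) _)

/-- (C2a) integral over `A₀[x]` ⟹ `x⁻ᵏ y` integral over `A₀[x⁻¹]` for `k ≫ 0`. -/
theorem exists_inv_pow_mul_mem {x : L} (hx : x ≠ 0) {y : L} (hy : y ∈ IC (R0 A₀ x)) :
    ∃ k₀ : ℕ, ∀ k, k₀ ≤ k → x⁻¹ ^ k * y ∈ IC (R1 A₀ x) :=
  isIntegral_mul_of_scale (R1 A₀ x) (R0 A₀ x) x⁻¹ (F1 hx) hy

/-- (C2b) integral over `A₀[x, x⁻¹]` ⟹ `xᵏ y` integral over `A₀[x]` for `k ≫ 0`. -/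
theorem exists_pow_mul_mem {x : L} (hx : x ≠ 0) {y : L} (hy : y ∈ IC (R01 A₀ x)) :
    ∃ k₀ : ℕ, ∀ k, k₀ ≤ k → x ^ k * y ∈ IC (R0 A₀ x) :=
  isIntegral_mul_of_scale (R0 A₀ x) (R01 A₀ x) x (F2 hx) hy

/-- **(C2)**, abstract form: `𝓜 ≤ M₀ + M₁ + T` with `T` a finitely generated `A₀`-module. -/
theorem exists_fg_sup_aux {x : L} (hx : x ≠ 0) (M0 M1 : Subalgebra A₀ L) (hx0 : x ∈ M0)
    (hx1 : x⁻¹ ∈ M1) (Y Z : Finset L) (hYmem : ∀ y ∈ Y, y ∈ M0)
    (hY : ∀ y ∈ M0, y ∈ Submodule.span (R0 A₀ x) (Y : Set L)) (hZmem : ∀ z ∈ Z, z ∈ M1)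
    (hZ : ∀ y ∈ M1, y ∈ Submodule.span (R1 A₀ x) (Z : Set L))
    (h01 : ∀ y ∈ M0, ∃ N : ℕ, x⁻¹ ^ N * y ∈ M1) :
    ∃ T : Submodule A₀ L, T.FG ∧ ∀ w : L, (∃ N : ℕ, x ^ N * w ∈ M0) →
      w ∈ Subalgebra.toSubmodule M0 ⊔ Subalgebra.toSubmodule M1 ⊔ T := by
  classical
  have hR0 : R0 A₀ x ≤ M0 := Algebra.adjoin_le (by simpa using hx0)
  have hR1 : R1 A₀ x ≤ M1 := Algebra.adjoin_le (by simpa using hx1)
  -- the exponent `m`
  have hm : ∃ m : ℕ, ∀ y ∈ Y, x⁻¹ ^ m * y ∈ M1 := by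
    have : ∀ y : L, ∃ k₀ : ℕ, y ∈ Y → ∀ k, k₀ ≤ k → x⁻¹ ^ k * y ∈ M1 := by
      intro y
      by_cases hy : y ∈ Y
      · obtain ⟨k₀, h⟩ := h01 y (hYmem y hy)
        refine ⟨k₀, fun _ k hk => ?_⟩
        obtain ⟨j, rfl⟩ := Nat.exists_eq_add_of_le hk
        have : x⁻¹ ^ (k₀ + j) * y = x⁻¹ ^ j * (x⁻¹ ^ k₀ * y) := by ring
        rw [this]
        exact Subalgebra.mul_mem _ (Subalgebra.pow_mem _ hx1 _) h
      · exact ⟨0, fun h => absurd h hy⟩
    choose K hK using this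
    exact ⟨Y.sup K, fun y hy => hK y hy _ (Finset.le_sup hy)⟩
  obtain ⟨m, hm⟩ := hm
  set T : Submodule A₀ L := Submodule.span A₀
    (Set.image2 (fun (a : ℕ) (z : L) => x ^ a * z) (Set.Iic m) (Z : Set L)) with hT
  set P : Submodule A₀ L :=
    Subalgebra.toSubmodule M0 ⊔ Subalgebra.toSubmodule M1 ⊔ T with hP
  have hM0P : ∀ v ∈ M0, v ∈ P := fun v hv =>
    Submodule.mem_sup_left (Submodule.mem_sup_left hv)
  have hM1P : ∀ v ∈ M1, v ∈ P := fun v hv =>
    Submodule.mem_sup_left (Submodule.mem_sup_right hv)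
  have hTP : ∀ v ∈ T, v ∈ P := fun v hv => Submodule.mem_sup_right hv
  refine ⟨T, Submodule.fg_span ((Set.finite_Iic m).image2 _ Z.finite_toSet), ?_⟩
  -- Step A
  have auxT : ∀ z ∈ Z, ∀ u ∈ Submodule.span A₀ ((fun a : ℕ => x ^ a) '' (Set.Iic m)),
      u * z ∈ T := by
    intro z hz u hu
    induction hu using Submodule.span_induction with
    | mem w hw =>
      obtain ⟨a, ha, rfl⟩ := hw
      exact Submodule.subset_span ⟨a, ha, z, hz, rfl⟩
    | zero => simp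
    | add w w' _ _ h h' => rw [add_mul]; exact T.add_mem h h'
    | smul r w _ h => rw [smul_mul_assoc]; exact T.smul_mem r h
  have stepA : ∀ s ∈ R1 A₀ x, ∀ z ∈ Z, x ^ m * (s * z) ∈ P := by
    intro s hs z hz
    have h4 := F4 hx m s hs
    obtain ⟨u, hu, v, hv, huv⟩ := Submodule.mem_sup.1 h4
    have : x ^ m * (s * z) = u * z + v * z := by rw [← add_mul, huv]; ring
    rw [this]
    exact P.add_mem (hTP _ (auxT z hz u hu))
      (hM1P _ (Subalgebra.mul_mem _ (hR1 hv) (hZmem z hz)))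
  -- Step B
  have stepB' : ∀ v ∈ Submodule.span (R1 A₀ x) (Z : Set L),
      ∀ s ∈ R1 A₀ x, x ^ m * (s * v) ∈ P := by
    intro v hv
    induction hv using Submodule.span_induction with
    | mem w hw => exact fun s hs => stepA s hs w hw
    | zero => intro s _; simp
    | add w w' _ _ h h' =>
      intro s hs
      rw [mul_add, mul_add]; exact P.add_mem (h s hs) (h' s hs)
    | smul r w _ h =>
      intro s hs
      have : s * (r • w) = (s * (r : L)) * w := by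
        rw [Subalgebra.smul_def, smul_eq_mul]; ring
      rw [this]
      exact h _ (Subalgebra.mul_mem _ hs r.2)
  have stepB : ∀ v ∈ M1, x ^ m * v ∈ P := by
    intro v hv
    simpa using stepB' v (hZ v hv) 1 (Subalgebra.one_mem _)
  -- Step C
  have stepC : ∀ y ∈ Y, ∀ c ∈ Subalgebra.toSubmodule (R0 A₀ x) ⊔ Subalgebra.toSubmodule (R1 A₀ x),
      c * y ∈ P := by
    intro y hy c hc
    obtain ⟨c₀, hc₀, c₁, hc₁, rfl⟩ := Submodule.mem_sup.1 hc
    rw [add_mul]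
    refine P.add_mem (hM0P _ (Subalgebra.mul_mem _ (hR0 hc₀) (hYmem y hy))) ?_
    have : c₁ * y = x ^ m * (c₁ * (x⁻¹ ^ m * y)) := by
      rw [inv_pow]; field_simp
    rw [this]
    exact stepB _ (Subalgebra.mul_mem _ (hR1 hc₁) (hm y hy))
  -- Step D
  have stepD : ∀ k : ℕ, ∀ u ∈ Submodule.span (R0 A₀ x) (Y : Set L),
      ∀ r ∈ R0 A₀ x, x⁻¹ ^ k * (r * u) ∈ P := by
    intro k u hu
    induction hu using Submodule.span_induction with
    | mem w hw =>
      intro r hr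
      rw [← mul_assoc]
      exact stepC w hw _ (F3 hx k r hr)
    | zero => intro s _; simp
    | add w w' _ _ h h' =>
      intro s hs
      rw [mul_add, mul_add]; exact P.add_mem (h s hs) (h' s hs)
    | smul r w _ h =>
      intro s hs
      have : s * (r • w) = (s * (r : L)) * w := by
        rw [Subalgebra.smul_def, smul_eq_mul]; ring
      rw [this]
      exact h _ (Subalgebra.mul_mem _ hs r.2)
  rintro w ⟨k, hk⟩
  have h2 := stepD k _ (hY _ hk) 1 (Subalgebra.one_mem _)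
  have h3 : x⁻¹ ^ k * (1 * (x ^ k * w)) = w := by
    rw [inv_pow]; field_simp
  rwa [h3] at h2

/-- Bounded `π`-power torsion modulo a submodule `P₀`, for elements of `P₀ + T`, `T` f.g. -/
theorem exists_bound [IsNoetherianRing A₀] (π : A₀) (P₀ T : Submodule A₀ L) (hT : T.FG) :
    ∃ t : ℕ, ∀ g ∈ P₀ ⊔ T, ∀ n : ℕ, π ^ n • g ∈ P₀ → π ^ t • g ∈ P₀ := by
  have : IsNoetherian A₀ T := isNoetherian_of_fg_of_noetherian T hT
  let F : ℕ → Submodule A₀ T := fun n =>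
    (P₀.comap (LinearMap.lsmul A₀ L (π ^ n))).comap T.subtype
  have hmem : ∀ n (τ : T), τ ∈ F n ↔ π ^ n • (τ : L) ∈ P₀ := fun n τ => Iff.rfl
  have hmono : Monotone F := by
    refine monotone_nat_of_le_succ fun n τ hτ => ?_
    rw [hmem] at hτ ⊢
    rw [pow_succ', mul_smul]
    exact P₀.smul_mem π hτ
  obtain ⟨t, ht⟩ := monotone_stabilizes_iff_noetherian.mpr ‹IsNoetherian A₀ T› ⟨F, hmono⟩
  refine ⟨t, fun g hg n hn => ?_⟩
  obtain ⟨p, hp, τ, hτ, rfl⟩ := Submodule.mem_sup.1 hg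
  have h1 : π ^ n • τ ∈ P₀ := by
    have : π ^ n • τ = π ^ n • (p + τ) - π ^ n • p := by rw [smul_add]; ring
    rw [this]; exact P₀.sub_mem hn (P₀.smul_mem _ hp)
  have h2 : (⟨τ, hτ⟩ : T) ∈ F n := (hmem n ⟨τ, hτ⟩).2 h1
  have h3 : (⟨τ, hτ⟩ : T) ∈ F t := by
    rcases le_total n t with h | h
    · exact hmono h h2
    · have := ht n h
      simp only [OrderHom.coe_mk] at this
      rw [this]; exact h2
  rw [smul_add]
  exact P₀.add_mem (P₀.smul_mem _ hp) ((hmem t ⟨τ, hτ⟩).1 h3)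

/-- **(C3)** an element integral over both `A₀[x]` and `A₀[x⁻¹]` is integral over `A₀`. -/
theorem isIntegral_of_mem_of_mem {x z : L} (h0 : z ∈ IC (R0 A₀ x)) (h1 : z ∈ IC (R1 A₀ x)) :
    IsIntegral A₀ z := by
  by_contra hz
  set R : Subring L := (integralClosure A₀ L).toSubring with hR
  have : IsIntegrallyClosedIn R L :=
    inferInstanceAs (IsIntegrallyClosedIn (integralClosure A₀ L) L)
  have hzR : z ∉ R := hz
  obtain ⟨V, hV, hzV⟩ := Subring.exists_le_valuationSubring_of_isIntegrallyClosedIn hzR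
  have hA : ∀ r : A₀, algebraMap A₀ L r ∈ V := fun r =>
    hV (show algebraMap A₀ L r ∈ integralClosure A₀ L from Subalgebra.algebraMap_mem _ r)
  -- a general fact: if `w ∈ V` then everything integral over `A₀[w]` is in `V`
  have key : ∀ w : L, w ∈ V → z ∈ IC (Algebra.adjoin A₀ {w}) → z ∈ V := by
    intro w hw hzw
    have hle : ∀ c ∈ Algebra.adjoin A₀ {w}, c ∈ V := by
      intro c hc
      induction hc using Algebra.adjoin_induction with
      | mem y hy => obtain rfl : y = w := hy; exact hw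
      | algebraMap r => exact hA r
      | add c c' _ _ h h' => exact V.add_mem _ _ h h'
      | mul c c' _ _ h h' => exact V.mul_mem _ _ h h'
    obtain ⟨p, hp, hpz⟩ := mem_IC.1 hzw
    let φ : (Algebra.adjoin A₀ {w}) →+* V :=
      { toFun := fun c => ⟨c.1, hle c.1 c.2⟩
        map_one' := rfl
        map_mul' := fun _ _ => rfl
        map_zero' := rfl
        map_add' := fun _ _ => rfl }
    have hint : IsIntegral V z := by
      refine ⟨p.map φ, hp.map _, ?_⟩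
      rw [eval₂_map]
      exact hpz
    obtain ⟨v, hv⟩ := (IsIntegrallyClosed.isIntegral_iff (R := V) (K := L)).1 hint
    rw [← hv]; exact v.2
  rcases V.mem_or_inv_mem x with hx | hx
  · exact hzV (key x hx h0)
  · exact hzV (key x⁻¹ hx h1)

end Charts

end Fermat.Agent.Crux.G.Conn

namespace Fermat.Agent.Crux.G

open Polynomial Conn

theorem connected_core {A L : Type*} [CommRing A] [IsNoetherianRing A] [Field L] [Algebra A L]
    (π : A) (x : L) (hx : x ≠ 0) (M0 Minf : Subalgebra A L) (hx0 : x ∈ M0) (hxinf : x⁻¹ ∈ Minf)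
    (fg0 : ∃ (r : ℕ) (μ : Fin r → L), ∀ y ∈ M0, ∃ p : Fin r → A[X], y = ∑ a, aeval x (p a) * μ a)
    (fginf : ∃ (r : ℕ) (ν : Fin r → L), (∀ c, ν c ∈ Minf) ∧
      ∀ y ∈ Minf, ∃ p : Fin r → A[X], y = ∑ c, aeval x⁻¹ (p c) * ν c)
    (h0inf : ∀ y ∈ M0, ∃ N : ℕ, x⁻¹ ^ N * y ∈ Minf)
    (hinf0 : ∀ y ∈ Minf, ∃ N : ℕ, x ^ N * y ∈ M0)
    (a b : L) (ha : a ∈ M0) (hb : b ∈ Minf)
    (haa : ∃ a' ∈ M0, a ^ 2 - a = π • a') (hbb : ∃ b' ∈ Minf, b ^ 2 - b = π • b')
    (hab : ∃ (c : L) (N : ℕ), x ^ N * c ∈ M0 ∧ a - b = π • c) :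
    ∃ z : L, z ∈ M0 ∧ z ∈ Minf ∧ ∃ a'' ∈ M0, z - a = π • a'' := by
  classical
  have hR0 : R0 A x ≤ M0 := Algebra.adjoin_le (by simpa using hx0)
  have hR1 : R1 A x ≤ Minf := Algebra.adjoin_le (by simpa using hxinf)
  have haev0 : ∀ p : A[X], aeval x p ∈ R0 A x := fun p => by
    unfold R0
    rw [Algebra.adjoin_singleton_eq_range_aeval]; exact ⟨p, rfl⟩
  have haev1 : ∀ p : A[X], aeval x⁻¹ p ∈ R1 A x := fun p => by
    unfold R1
    rw [Algebra.adjoin_singleton_eq_range_aeval]; exact ⟨p, rfl⟩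
  -- generators of `M0` inside `M0`
  obtain ⟨Y, hYmem, hY⟩ : ∃ Y : Finset L, (∀ y ∈ Y, y ∈ M0) ∧
      ∀ y ∈ M0, y ∈ Submodule.span (R0 A x) (Y : Set L) := by
    obtain ⟨r, μ, hμ⟩ := fg0
    have hnoeth : IsNoetherianRing (R0 A x) := by
      unfold R0
      rw [Algebra.adjoin_singleton_eq_range_aeval]
      infer_instance
    let N : Submodule (R0 A x) L := Submodule.span (R0 A x) (Set.range μ)
    have hN : IsNoetherian (R0 A x) N :=
      isNoetherian_of_fg_of_noetherian N (Submodule.fg_span (Set.finite_range μ))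
    let M0' : Submodule (R0 A x) L :=
      { carrier := M0
        add_mem' := fun h h' => M0.add_mem h h'
        zero_mem' := M0.zero_mem
        smul_mem' := fun c y hy => by
          rw [Subalgebra.smul_def]
          exact M0.mul_mem (hR0 c.2) hy }
    have hle : M0' ≤ N := by
      intro y hy
      obtain ⟨p, rfl⟩ := hμ y hy
      refine Submodule.sum_mem _ fun a _ => ?_
      have : aeval x (p a) * μ a = (⟨aeval x (p a), haev0 _⟩ : R0 A x) • μ a := rfl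
      rw [this]
      exact Submodule.smul_mem _ _ (Submodule.subset_span ⟨a, rfl⟩)
    obtain ⟨Y, hY⟩ := isNoetherian_submodule.mp hN M0' hle
    refine ⟨Y, fun y hy => ?_, fun y hy => ?_⟩
    · have : y ∈ M0' := by rw [← hY]; exact Submodule.subset_span hy
      exact this
    · rw [hY]; exact hy
  obtain ⟨Z, hZmem, hZ⟩ : ∃ Z : Finset L, (∀ z ∈ Z, z ∈ Minf) ∧
      ∀ y ∈ Minf, y ∈ Submodule.span (R1 A x) (Z : Set L) := by
    obtain ⟨r, ν, hν, hgen⟩ := fginf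
    refine ⟨Finset.univ.image ν, fun z hz => ?_, fun y hy => ?_⟩
    · obtain ⟨c, -, rfl⟩ := Finset.mem_image.1 hz
      exact hν c
    · obtain ⟨p, rfl⟩ := hgen y hy
      refine Submodule.sum_mem _ fun c _ => ?_
      have : aeval x⁻¹ (p c) * ν c = (⟨aeval x⁻¹ (p c), haev1 _⟩ : R1 A x) • ν c := rfl
      rw [this]
      exact Submodule.smul_mem _ _ (Submodule.subset_span (by simp))
  obtain ⟨T, hT, hle⟩ := exists_fg_sup_aux hx M0 Minf hx0 hxinf Y Z hYmem hY hZmem hZ h0inf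
  obtain ⟨t, ht⟩ := exists_bound π
    (Subalgebra.toSubmodule M0 ⊔ Subalgebra.toSubmodule Minf) T hT
  -- the ring `𝓜`
  have hup : ∀ {c : L} {N N' : ℕ}, N ≤ N' → x ^ N * c ∈ M0 → x ^ N' * c ∈ M0 := by
    intro c N N' h hc
    obtain ⟨j, rfl⟩ := Nat.exists_eq_add_of_le h
    have : x ^ (N + j) * c = x ^ j * (x ^ N * c) := by ring
    rw [this]
    exact M0.mul_mem (M0.pow_mem hx0 _) hc
  let M : Subalgebra A L :=
    { carrier := {c | ∃ N : ℕ, x ^ N * c ∈ M0}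
      mul_mem' := by
        rintro c c' ⟨N, h⟩ ⟨N', h'⟩
        refine ⟨N + N', ?_⟩
        have : x ^ (N + N') * (c * c') = (x ^ N * c) * (x ^ N' * c') := by ring
        rw [this]; exact M0.mul_mem h h'
      add_mem' := by
        rintro c c' ⟨N, h⟩ ⟨N', h'⟩
        refine ⟨max N N', ?_⟩
        rw [mul_add]
        exact M0.add_mem (hup (le_max_left _ _) h) (hup (le_max_right _ _) h')
      algebraMap_mem' := fun r => ⟨0, by simp [M0.algebraMap_mem r]⟩ }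
  have hMmem : ∀ c : L, c ∈ M ↔ ∃ N : ℕ, x ^ N * c ∈ M0 := fun c => Iff.rfl
  have h0le : M0 ≤ M := fun c hc => ⟨0, by simpa using hc⟩
  have h1le : Minf ≤ M := fun c hc => hinf0 c hc
  let M₀ : Subring M := M0.toSubring.comap M.val.toRingHom
  let M₁ : Subring M := Minf.toSubring.comap M.val.toRingHom
  have hsm : ∀ (n : ℕ) (g : M), (((algebraMap A M π) ^ n * g : M) : L) = π ^ n • (g : L) := by
    intro n g
    rw [Algebra.smul_def]
    simp
  have hsm1 : ∀ (g : M), (((algebraMap A M π) * g : M) : L) = π • (g : L) := by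
    intro g
    rw [Algebra.smul_def]
    simp
  obtain ⟨ca, hca, hca'⟩ := haa
  obtain ⟨cb, hcb, hcb'⟩ := hbb
  obtain ⟨c, Nc, hc, hc'⟩ := hab
  obtain ⟨z, hz0, hz1, ⟨c0, hc0, hzc0⟩, -⟩ :=
    exists_global (M := M) M₀ M₁ (π := algebraMap A M π)
      (show ((algebraMap A M π : M) : L) ∈ M0 from Subalgebra.algebraMap_mem _ π)
      (show ((algebraMap A M π : M) : L) ∈ Minf from Subalgebra.algebraMap_mem _ π) t
      (by
        rintro g n ⟨u, hu, v, hv, huv⟩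
        have h1 : π ^ n • (g : L) ∈
            Subalgebra.toSubmodule M0 ⊔ Subalgebra.toSubmodule Minf := by
          rw [← hsm, huv]
          exact Submodule.mem_sup.2 ⟨u, hu, v, hv, rfl⟩
        have h2 := ht (g : L) (hle g g.2) n h1
        obtain ⟨u', hu', v', hv', huv'⟩ := Submodule.mem_sup.1 h2
        refine ⟨⟨u', h0le hu'⟩, hu', ⟨v', h1le hv'⟩, hv', ?_⟩
        apply Subtype.ext
        rw [hsm, ← huv']
        rfl)
      (a := ⟨a, h0le ha⟩) (b := ⟨b, h1le hb⟩) ha hb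
      ⟨⟨ca, h0le hca⟩, hca, by apply Subtype.ext; rw [hsm1]; exact hca'⟩
      ⟨⟨cb, h1le hcb⟩, hcb, by apply Subtype.ext; rw [hsm1]; exact hcb'⟩
      ⟨⟨c, ⟨Nc, hc⟩⟩, by apply Subtype.ext; rw [hsm1]; exact hc'⟩
  refine ⟨z, hz0, hz1, c0, hc0, ?_⟩
  rw [← hsm1, ← hzc0]; rfl

end Fermat.Agent.Crux.G
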