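import Mathlib

/-!
# Crux / Theorem G : definitions

Setting of one *chart*: `A` a DVR with uniformiser `π`, `R = A[X]`, `E = Frac R`, `L / E` a finite
extension (char. 0).  All objects are given by elementary predicates on elements of `L`, `E`:

* `IsIntegral A[X] y`      : `y ∈ M`   (integral closure of `A[X]` in `L`);
* `IsOL π y`               : `y ∈ O_L` (integral closure of the Gauss local ring `A[X]_(π)`);
* `IsPiOL π y`             : `y ∈ π O_L`;
* `IsOG π c`, `IsPiOG π c` : `c ∈ O_G = A[X]_(π) ⊆ E`, resp. `c ∈ π O_G`;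
* `IsBK π y`               : `y ∈ B_K = M[1/π]` (integral closure of `K[X]`, `K = Frac A`).
-/

set_option autoImplicit false

open Polynomial

namespace Fermat.Agent.Crux.G

section Chart

variable {A : Type*} [CommRing A] (π : A)
variable {E : Type*} [Field E] [Algebra A[X] E]
variable {L : Type*} [Field L] [Algebra A[X] L]

/-- `y ∈ O_L`: integral over the Gauss local ring `A[X]_(π)`. -/
def IsOL (y : L) : Prop := ∃ s : A[X], ¬ C π ∣ s ∧ IsIntegral A[X] (s • y)

/-- `y ∈ π O_L`. -/
def IsPiOL (y : L) : Prop := ∃ z : L, IsOL π z ∧ y = (C π : A[X]) • z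

/-- `c ∈ O_G = A[X]_(π)`. -/
def IsOG (c : E) : Prop := ∃ s r : A[X], ¬ C π ∣ s ∧ s • c = algebraMap A[X] E r

/-- `c ∈ π O_G`. -/
def IsPiOG (c : E) : Prop := ∃ c' : E, IsOG π c' ∧ c = (C π : A[X]) • c'

/-- `y ∈ B_K = M[1/π]`. -/
def IsBK (y : L) : Prop := ∃ j : ℕ, IsIntegral A[X] ((C π : A[X]) ^ j • y)

variable (E L) [Algebra E L]

/-- (H1): the trace form of `O_L` over `O_G` is nondegenerate modulo `π`. -/
def TracePerfect : Prop :=
  ∀ y : L, IsOL π y → (∀ z : L, IsOL π z → IsPiOG π (Algebra.trace E L (y * z))) → IsPiOL π y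

/-- (H1), basis form: an `E`-basis of `L` consisting of elements of `O_L` whose discriminant
is a unit of `O_G`. -/
def UnitDisc : Prop :=
  ∃ (n : ℕ) (b : Module.Basis (Fin n) E L), (∀ i, IsOL π (b i)) ∧
    ∃ c : E, IsOG π c ∧ c * (Algebra.traceMatrix E b).det = 1

variable {E}

/-- (H2): `B_K / g B_K` is reduced for every prime `g` of `K[X]` other than the `X - β`, `β ∈ B`. -/
def Unram (B : Finset A) : Prop :=
  ∀ g : A[X], Irreducible g → ¬ Associated g (C π) → (∀ β ∈ B, ¬ Associated g (X - C β)) →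
    ∀ y z : L, IsBK π y → IsBK π z → y ^ 2 = g • z → ∃ y' : L, IsBK π y' ∧ y = g • y'

variable (E)

/-- (HT): the tame bound `d_P ≤ e_P - 1` for the different, in elementary form:
`ε · (M^∨) ⊆ rad(ε B_K)`, `ε = ∏_{β ∈ B} (X - β)`. -/
def Tame (B : Finset A) : Prop :=
  ∀ y : L, (∀ z : L, IsIntegral A[X] z →
      ∃ r : A[X], Algebra.trace E L (y * z) = algebraMap A[X] E r) →
    IsBK π ((∏ β ∈ B, (X - C β)) • y) ∧
    ∀ β ∈ B, ∃ (m : ℕ) (z : L), IsBK π z ∧ ((∏ β ∈ B, (X - C β)) • y) ^ m = (X - C β) • z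

end Chart

section Top

variable {A : Type*} [CommRing A]
variable {E : Type*} [Field E] [Algebra A E]

/-- The `A[X]`-algebra structure on `E` given by `X ↦ x`. -/
@[reducible] noncomputable def algE (x : E) : Algebra A[X] E := ((aeval x : A[X] →ₐ[A] E) : A[X] →+* E).toAlgebra

/-- The `A[X]`-algebra structure on an `E`-algebra `L` given by `X ↦ x`. -/
@[reducible] noncomputable def algL (L : Type*) [Field L] [Algebra E L] (x : E) : Algebra A[X] L :=
  ((algebraMap E L).comp ((aeval x : A[X] →ₐ[A] E) : A[X] →+* E)).toAlgebra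

variable {L : Type*} [Field L] [Algebra E L]

/-- `y` is integral over `A[x]`. -/
def IntX (A : Type*) [CommRing A] [Algebra A E] (x : E) (y : L) : Prop :=
  letI := algL (A := A) L x; IsIntegral A[X] y

/-- `y ∈ O_L` for the chart `X ↦ x`. -/
def IsOLx (π : A) (x : E) (y : L) : Prop := letI := algL (A := A) L x; IsOL π y

/-- `y ∈ π O_L` for the chart `X ↦ x`. -/
def IsPiOLx (π : A) (x : E) (y : L) : Prop := letI := algL (A := A) L x; IsPiOL π y

/-- `c ∈ O_G` for the chart `X ↦ x`. -/
def IsOGx (π : A) (x : E) (c : E) : Prop := letI := algE (A := A) x; IsOG π c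

/-- `c ∈ π O_G` for the chart `X ↦ x`. -/
def IsPiOGx (π : A) (x : E) (c : E) : Prop := letI := algE (A := A) x; IsPiOG π c

/-- (H1) for the chart `X ↦ x`. -/
def TracePerfectx (L : Type*) [Field L] [Algebra E L] (π : A) (x : E) : Prop :=
  letI := algE (A := A) x; letI := algL (A := A) L x; TracePerfect π E L

/-- (H1), basis form, for the chart `X ↦ x`. -/
def UnitDiscx (L : Type*) [Field L] [Algebra E L] (π : A) (x : E) : Prop :=
  letI := algE (A := A) x; letI := algL (A := A) L x; UnitDisc π E L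

/-- (H2) for the chart `X ↦ x`. -/
def Unramx (L : Type*) [Field L] [Algebra E L] (π : A) (x : E) (B : Finset A) : Prop :=
  letI := algL (A := A) L x; Unram π L B

end Top

end Fermat.Agent.Crux.G
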