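import Fermat.Agent.ES.An.FormalRoot
import Mathlib

/-!
# Crux / G : (P2) extension of an embedding into Laurent series to a Kummer extension
-/

set_option autoImplicit false

open Polynomial

namespace Fermat.Agent.Crux.G

namespace EmbP2

/-- the power basis `1, w, ..., w^(d-1)` -/
noncomputable def pb {F L : Type*} [Field F] [Field L] [Algebra F L] (d : ℕ) (hd : 0 < d) (w : L)
    (hdeg : Module.finrank F L = d)
    (hli : LinearIndependent F (fun j : Fin d => w ^ (j : ℕ))) : PowerBasis F L where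
  gen := w
  dim := d
  basis :=
    haveI : Nonempty (Fin d) := ⟨⟨0, hd⟩⟩
    basisOfLinearIndependentOfCardEqFinrank hli (by simp [hdeg])
  basis_eq_pow := fun i => by simp

theorem minpoly_eq {F L : Type*} [Field F] [Field L] [Algebra F L] (d : ℕ) (hd : 0 < d) (w : L)
    (W : F) (hw : w ^ d = algebraMap F L W) (hdeg : Module.finrank F L = d)
    (hli : LinearIndependent F (fun j : Fin d => w ^ (j : ℕ))) :
    minpoly F w = X ^ d - C W := by
  have hint : IsIntegral F w := (pb d hd w hdeg hli).isIntegral_gen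
  have h1 : (minpoly F w).natDegree = d := (pb d hd w hdeg hli).natDegree_minpoly
  have h2 : (X ^ d - C W : F[X]).Monic := monic_X_pow_sub_C W hd.ne'
  have h3 : minpoly F w ∣ X ^ d - C W := minpoly.dvd F w (by simp [hw])
  have h4 : (X ^ d - C W : F[X]).natDegree = d := natDegree_X_pow_sub_C
  exact (eq_of_monic_of_dvd_of_natDegree_le (minpoly.monic hint) h2 h3 (by rw [h1, h4])).symm

end EmbP2

/-- **(P2)** -/
theorem kummer_embeddings_aux {F L 𝕂 : Type*} [Field F] [Field L] [Algebra F L] [Field 𝕂]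
    [IsAlgClosed 𝕂] [CharZero 𝕂] (d : ℕ) (hd : 0 < d) (w : L) (W : F) (hW0 : W ≠ 0)
    (hw : w ^ d = algebraMap F L W) (hdeg : Module.finrank F L = d)
    (hli : LinearIndependent F (fun j : Fin d => w ^ (j : ℕ)))
    (σ : F →+* LaurentSeries 𝕂) (hord : (d : ℤ) ∣ (σ W).order) :
    ∃ τ : Fin d → (L →+* LaurentSeries 𝕂), Function.Injective τ ∧
      ∀ i c, τ i (algebraMap F L c) = σ c := by
  have hσW : σ W ≠ 0 := (map_ne_zero σ).mpr hW0
  obtain ⟨u, hu⟩ := Fermat.Agent.ES.An.exists_pow_eq_laurentSeries d hd (σ W) hσW hord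
  have hu0 : u ≠ 0 := by
    rintro rfl
    rw [zero_pow hd.ne'] at hu
    exact hσW hu.symm
  have : NeZero (d : 𝕂) := ⟨by exact_mod_cast hd.ne'⟩
  obtain ⟨ζ, hζ⟩ := HasEnoughRootsOfUnity.exists_primitiveRoot 𝕂 d
  let _ : Algebra F (LaurentSeries 𝕂) := σ.toAlgebra
  have hroot : ∀ i : Fin d, aeval (HahnSeries.C (ζ ^ (i : ℕ)) * u : LaurentSeries 𝕂)
      (minpoly F (EmbP2.pb d hd w hdeg hli).gen) = 0 := by
    intro i
    have e : minpoly F (EmbP2.pb d hd w hdeg hli).gen = X ^ d - C W :=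
      EmbP2.minpoly_eq d hd w W hw hdeg hli
    rw [e]
    rw [map_sub, aeval_X_pow, aeval_C]
    have h1 : (HahnSeries.C (ζ ^ (i : ℕ)) : LaurentSeries 𝕂) ^ d = 1 := by
      rw [← map_pow, ← pow_mul, mul_comm (i : ℕ) d, pow_mul, hζ.pow_eq_one, one_pow, map_one]
    rw [mul_pow, hu, h1, one_mul]
    exact sub_self _
  refine ⟨fun i => ((EmbP2.pb d hd w hdeg hli).lift _ (hroot i) : L →+* LaurentSeries 𝕂), ?_, ?_⟩
  · intro i j hij
    have h1 := congrArg (fun f : L →+* LaurentSeries 𝕂 => f w) hij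
    have hg : (EmbP2.pb d hd w hdeg hli).gen = w := rfl
    simp only [RingHom.coe_coe] at h1
    have h2 := (EmbP2.pb d hd w hdeg hli).lift_gen _ (hroot i)
    have h3 := (EmbP2.pb d hd w hdeg hli).lift_gen _ (hroot j)
    rw [hg] at h2 h3
    rw [h2, h3] at h1
    have h4 : (HahnSeries.C (ζ ^ (i : ℕ)) : LaurentSeries 𝕂) = HahnSeries.C (ζ ^ (j : ℕ)) :=
      mul_right_cancel₀ hu0 h1
    have h5 : ζ ^ (i : ℕ) = ζ ^ (j : ℕ) := HahnSeries.C_injective h4
    exact Fin.ext (hζ.pow_inj i.2 j.2 h5)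
  · intro i c
    exact ((EmbP2.pb d hd w hdeg hli).lift _ (hroot i)).commutes c

end Fermat.Agent.Crux.G
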