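import Fermat.Agent.Crux.G.Sat
import Fermat.Agent.ES.An.FormalRoot
import Fermat.Agent.Crux.G.EmbP2

/-!
# Crux / G : (H2) from families of embeddings into Laurent series  (bridges for Crux/GM)

* `unram_at_of_embeddings` (P1, the "char-poly trick"): if there are `[L:E]` distinct embeddings
  `τ_a : L → 𝕂((T))` over one embedding `ι : E → 𝕂((T))` with `ι(A[X]) ⊆ 𝕂[[T]]`, `ι(π)` a unit and
  `ord_T ι(g) = 1`, then `B_K / g B_K` is reduced.
  Proof.  `y² = g z`, `y, z ∈ B_K`.  `τ_a y, τ_a z ∈ 𝕂[[T]]` (integral over `ι(A[X][1/π]) ⊆ 𝕂[[T]]`,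
  which is integrally closed in `𝕂((T))`), `2 ord τ_a y ≥ 1`, so `u := y/g` has `ord τ_a u ≥ 0` for all
  `a`.  The `τ_a` are ALL the `E`-embeddings of `L` into an algebraic closure of `𝕂((T))`
  (cardinality), so all roots of `ι(minpoly E u)` have the form `τ_a u`
  (`Algebra.IsAlgebraic.range_eval_eq_rootSet_minpoly`), so its coefficients `ι(c_i)` have order `≥ 0`.
  On the other hand `g u = y ∈ B_K` gives `π^{j i} g^i c_i ∈ A[X]` (as in `Sat.lean`, saturation).
  If `c = r/(π^j g^m)`, `g ∤ r`, `m > 0`, then Bezout in `K[X]` (`u r + v g = π^k` in `A[X]`, Gauss lemma) shows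
  that `ord ι(r) = 0`, so `ord ι(c) < 0`.  Hence `π^j c_i ∈ A[X]`, i.e. `u ∈ B_K`.
* `kummer_embeddings` (P2): extension of an embedding to a Kummer extension.
-/

set_option autoImplicit false

open Polynomial

namespace Fermat.Agent.Crux.G

namespace Emb

section Ord

variable {𝕂 : Type*} [Field 𝕂]

theorem order_mul_nonneg {x y : LaurentSeries 𝕂} (hx : 0 ≤ x.order) (hy : 0 ≤ y.order) :
    0 ≤ (x * y).order := by
  by_cases hx0 : x = 0
  · rw [hx0, zero_mul, HahnSeries.order_zero]
  by_cases hy0 : y = 0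
  · rw [hy0, mul_zero, HahnSeries.order_zero]
  rw [HahnSeries.order_mul hx0 hy0]
  exact add_nonneg hx hy

theorem order_add_ge {x y : LaurentSeries 𝕂} {n : ℤ} (hn : n ≤ 0 ∨ x + y ≠ 0) (hx : n ≤ x.order)
    (hy : n ≤ y.order) : n ≤ (x + y).order := by
  by_cases h : x + y = 0
  · rw [h, HahnSeries.order_zero]
    exact hn.resolve_right (not_not.mpr h)
  · exact le_trans (le_min hx hy) (HahnSeries.min_order_le_order_add h)

/-- The valuation ring `𝕂[[T]]` inside `𝕂((T))`, described by the order. -/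
def ordVal (𝕂 : Type*) [Field 𝕂] : ValuationSubring (LaurentSeries 𝕂) where
  carrier := {x | 0 ≤ x.order}
  mul_mem' := fun hx hy => order_mul_nonneg hx hy
  one_mem' := by
    show 0 ≤ (1 : LaurentSeries 𝕂).order
    rw [HahnSeries.order_one]
  add_mem' := fun hx hy => order_add_ge (Or.inl le_rfl) hx hy
  zero_mem' := by
    show 0 ≤ (0 : LaurentSeries 𝕂).order
    rw [HahnSeries.order_zero]
  neg_mem' := fun {x} hx => by
    show 0 ≤ (-x).order
    rwa [HahnSeries.order_neg]
  mem_or_inv_mem' := fun x => by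
    by_cases hx0 : x = 0
    · left
      show 0 ≤ x.order
      rw [hx0, HahnSeries.order_zero]
    have h := HahnSeries.order_mul hx0 (inv_ne_zero hx0)
    rw [mul_inv_cancel₀ hx0, HahnSeries.order_one] at h
    rcases le_total 0 x.order with h1 | h1
    · exact Or.inl h1
    · right
      show 0 ≤ (x⁻¹).order
      omega

theorem mem_ordVal {x : LaurentSeries 𝕂} : x ∈ ordVal 𝕂 ↔ 0 ≤ x.order := Iff.rfl

theorem order_nonneg_of_isIntegralElem {R : Type*} [CommRing R] (f : R →+* LaurentSeries 𝕂)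
    (hf : ∀ r, 0 ≤ (f r).order) {x : LaurentSeries 𝕂} (hx : f.IsIntegralElem x) :
    0 ≤ x.order := by
  obtain ⟨p, hp, hpx⟩ := hx
  let f' : R →+* ordVal 𝕂 := f.codRestrict (ordVal 𝕂).toSubring hf
  have h1 : IsIntegral (ordVal 𝕂) x := by
    refine ⟨p.map f', hp.map _, ?_⟩
    rw [eval₂_map]
    exact hpx
  obtain ⟨y, hy⟩ := IsIntegrallyClosed.isIntegral_iff.mp h1
  rw [← hy]
  exact y.2


/-- `x = 0` or `ord x ≥ 1`. -/
def Pos (x : LaurentSeries 𝕂) : Prop := x = 0 ∨ 1 ≤ x.order

theorem Pos.add {x y : LaurentSeries 𝕂} (hx : Pos x) (hy : Pos y) : Pos (x + y) := by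
  by_cases h : x + y = 0
  · exact Or.inl h
  rcases hx with rfl | hx
  · rwa [zero_add]
  rcases hy with rfl | hy
  · rw [add_zero]; exact Or.inr hx
  exact Or.inr (le_trans (le_min hx hy) (HahnSeries.min_order_le_order_add h))

theorem Pos.mul_left {x y : LaurentSeries 𝕂} (hx : 0 ≤ x.order) (hy : Pos y) : Pos (x * y) := by
  by_cases hx0 : x = 0
  · left; rw [hx0, zero_mul]
  rcases hy with rfl | hy
  · left; rw [mul_zero]
  have hy0 : y ≠ 0 := by
    rintro rfl
    rw [HahnSeries.order_zero] at hy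
    omega
  right
  rw [HahnSeries.order_mul hx0 hy0]
  omega

end Ord

section Coeff

variable {E L 𝕂 : Type*} [Field E] [Field L] [Algebra E L] [FiniteDimensional E L] [CharZero E]
  [Field 𝕂]

theorem coeff_order_nonneg (ι : E →+* LaurentSeries 𝕂)
    {κ : Type*} [Fintype κ] (hκ : Fintype.card κ = Module.finrank E L)
    (τ : κ → (L →+* LaurentSeries 𝕂)) (hτinj : Function.Injective τ)
    (hτ : ∀ a c, τ a (algebraMap E L c) = ι c)
    (u : L) (hu : ∀ a, 0 ≤ (τ a u).order) (i : ℕ) :
    0 ≤ (ι ((minpoly E u).coeff i)).order := by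
  classical
  let Ω := AlgebraicClosure (LaurentSeries 𝕂)
  let _ : Algebra E Ω := ((algebraMap (LaurentSeries 𝕂) Ω).comp ι).toAlgebra
  have halg : ∀ c : E, algebraMap E Ω c = algebraMap (LaurentSeries 𝕂) Ω (ι c) := fun _ => rfl
  have hinjΩ : Function.Injective (algebraMap (LaurentSeries 𝕂) Ω) :=
    (algebraMap (LaurentSeries 𝕂) Ω).injective
  let T : κ → (L →ₐ[E] Ω) := fun a =>
    { toRingHom := (algebraMap (LaurentSeries 𝕂) Ω).comp (τ a)
      commutes' := fun c => by
        show algebraMap (LaurentSeries 𝕂) Ω (τ a (algebraMap E L c)) = _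
        rw [hτ, halg] }
  have hT : ∀ a x, T a x = algebraMap (LaurentSeries 𝕂) Ω (τ a x) := fun _ _ => rfl
  have hTinj : Function.Injective T := by
    intro a b hab
    apply hτinj
    ext1 x
    apply hinjΩ
    rw [← hT, ← hT, hab]
  have hTbij : Function.Bijective T :=
    (Fintype.bijective_iff_injective_and_card T).mpr ⟨hTinj, by rw [hκ, AlgHom.card]⟩
  have hint : IsIntegral E u := Algebra.IsIntegral.isIntegral u
  have hm : (minpoly E u).Monic := minpoly.monic hint
  have hsplit : ((minpoly E u).map (algebraMap E Ω)).Splits := IsAlgClosed.splits _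
  let f : ordVal 𝕂 →+* Ω := (algebraMap (LaurentSeries 𝕂) Ω).comp (ordVal 𝕂).subtype
  have hroots : ∀ x ∈ ((minpoly E u).map (algebraMap E Ω)).roots, x ∈ f.range := by
    intro x hx
    have hx' : x ∈ (minpoly E u).rootSet Ω := by
      rw [Polynomial.rootSet, Finset.mem_coe, Multiset.mem_toFinset]
      exact hx
    rw [← Algebra.IsAlgebraic.range_eval_eq_rootSet_minpoly Ω u] at hx'
    obtain ⟨ψ, rfl⟩ := hx'
    obtain ⟨a, rfl⟩ := hTbij.2 ψ
    exact ⟨⟨τ a u, hu a⟩, rfl⟩
  have hl := hsplit.mem_lift_of_roots_mem_range (hm.map _) f hroots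
  rw [Polynomial.lifts_iff_coeff_lifts] at hl
  obtain ⟨o, ho⟩ := hl i
  rw [coeff_map, halg] at ho
  have : (o : LaurentSeries 𝕂) = ι ((minpoly E u).coeff i) := hinjΩ ho
  rw [← this]
  exact o.2

end Coeff


section Desc

variable {A : Type*} [CommRing A] [IsDomain A] [IsDiscreteValuationRing A] {π : A}
  {E : Type*} [Field E] [Algebra A[X] E] [IsFractionRing A[X] E]
  {𝕂 : Type*} [Field 𝕂] (ι : E →+* LaurentSeries 𝕂)

theorem isPrimitive_of_irreducible (hπ : Irreducible π) {g : A[X]} (hg : Irreducible g)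
    (hgπ : ¬ Associated g (C π)) : g.IsPrimitive := by
  intro r hr
  obtain ⟨h, rfl⟩ := hr
  rcases hg.isUnit_or_isUnit rfl with h1 | h1
  · exact isUnit_C.mp h1
  · exfalso
    have hass : Associated (C r * h) (C r) := by
      obtain ⟨v, rfl⟩ := h1
      exact (associated_mul_unit_right (C r) _ v.isUnit).symm
    have hCr : Irreducible (C r : A[X]) := hass.irreducible hg
    have hr : Irreducible r :=
      ⟨fun hu => hCr.not_isUnit (hu.map C), fun a b hab => by
        have := hCr.isUnit_or_isUnit (a := C a) (b := C b) (by rw [hab, C_mul])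
        simpa [isUnit_C] using this⟩
    have h2 : Associated r π := IsDiscreteValuationRing.associated_of_irreducible A hr hπ
    exact hgπ (hass.trans (h2.map (C : A →+* A[X]).toMonoidHom))

include ι in
theorem order_C_eq_zero (hπ : Irreducible π)
    (hι : ∀ r : A[X], 0 ≤ (ι (algebraMap A[X] E r)).order)
    (hπu : (ι (algebraMap A[X] E (C π))).order = 0) {d : A} (hd : d ≠ 0) :
    (ι (algebraMap A[X] E (C d))).order = 0 := by
  obtain ⟨n, v, rfl⟩ := IsDiscreteValuationRing.eq_unit_mul_pow_irreducible hd hπ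
  have h1 : ι (algebraMap A[X] E (C (v : A))) * ι (algebraMap A[X] E (C ((v⁻¹ : Aˣ) : A))) = 1 := by
    rw [← map_mul, ← map_mul, ← C_mul, Units.mul_inv, C_1, map_one, map_one]
  have hv0 : ι (algebraMap A[X] E (C (v : A))) ≠ 0 := left_ne_zero_of_mul_eq_one h1
  have hv0' : ι (algebraMap A[X] E (C ((v⁻¹ : Aˣ) : A))) ≠ 0 := right_ne_zero_of_mul_eq_one h1
  have h2 := HahnSeries.order_mul hv0 hv0'
  rw [h1, HahnSeries.order_one] at h2
  have h3 := hι (C (v : A))
  have h4 := hι (C ((v⁻¹ : Aˣ) : A))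
  have h5 : (ι (algebraMap A[X] E (C (v : A)))).order = 0 := by omega
  have hπ0 : ι (algebraMap A[X] E (C π)) ≠ 0 := by
    rw [Ne, map_eq_zero, map_eq_zero_iff _ (IsFractionRing.injective A[X] E), C_eq_zero]
    exact hπ.ne_zero
  rw [C_mul, C_pow, map_mul, map_mul, map_pow, map_pow,
    HahnSeries.order_mul hv0 (pow_ne_zero _ hπ0), HahnSeries.order_pow, h5, hπu]
  simp

include ι in
theorem dvd_of_pos (hπ : Irreducible π)
    (hι : ∀ r : A[X], 0 ≤ (ι (algebraMap A[X] E r)).order)
    (hπu : (ι (algebraMap A[X] E (C π))).order = 0)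
    {g : A[X]} (hg : Irreducible g) (hgπ : ¬ Associated g (C π))
    (hg1 : (ι (algebraMap A[X] E g)).order = 1)
    {r : A[X]} (hr : Pos (ι (algebraMap A[X] E r))) : g ∣ r := by
  have hprim := isPrimitive_of_irreducible hπ hg hgπ
  let K := FractionRing A
  have hgK : Irreducible (g.map (algebraMap A K)) :=
    (hprim.irreducible_iff_irreducible_map_fraction_map).mp hg
  by_contra hnd
  have h1 : ¬ g.map (algebraMap A K) ∣ r.map (algebraMap A K) := fun h =>
    hnd (hprim.dvd_of_fraction_map_dvd_fraction_map h)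
  obtain ⟨a, b, hab⟩ := hgK.coprime_iff_not_dvd.mpr h1
  obtain ⟨c, c0, hc⟩ := IsLocalization.integerNormalization_spec (nonZeroDivisors A) a
  obtain ⟨d, d0, hd⟩ := IsLocalization.integerNormalization_spec (nonZeroDivisors A) b
  set a' := IsLocalization.integerNormalization (nonZeroDivisors A) a
  set b' := IsLocalization.integerNormalization (nonZeroDivisors A) b
  have hc' : a'.map (algebraMap A K) = C (algebraMap A K c) * a := by
    have : a'.map (algebraMap A K) = c • a := hc
    rw [this, Algebra.smul_def]; rfl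
  have hd' : b'.map (algebraMap A K) = C (algebraMap A K d) * b := by
    have : b'.map (algebraMap A K) = d • b := hd
    rw [this, Algebra.smul_def]; rfl
  have h2 : C d * a' * g + C c * b' * r = C (c * d) := by
    apply map_injective (algebraMap A K) (IsFractionRing.injective A K)
    rw [Polynomial.map_add, Polynomial.map_mul, Polynomial.map_mul, Polynomial.map_mul,
      Polynomial.map_mul, hc', hd', map_C, map_C, map_C, map_mul, C_mul]
    linear_combination (C (algebraMap A K c) * C (algebraMap A K d)) * hab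
  have hcd : c * d ≠ 0 :=
    mul_ne_zero (nonZeroDivisors.ne_zero c0) (nonZeroDivisors.ne_zero d0)
  have h3 : Pos (ι (algebraMap A[X] E (C (c * d)))) := by
    have e : ι (algebraMap A[X] E (C (c * d)))
        = ι (algebraMap A[X] E (C d * a')) * ι (algebraMap A[X] E g)
          + ι (algebraMap A[X] E (C c * b')) * ι (algebraMap A[X] E r) := by
      rw [← h2, map_add, map_add, map_mul (algebraMap A[X] E) _ g, map_mul ι,
        map_mul (algebraMap A[X] E) _ r, map_mul ι]
    rw [e]
    have p1 : Pos (ι (algebraMap A[X] E g)) := Or.inr hg1.ge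
    exact Pos.add (Pos.mul_left (hι (C d * a')) p1) (Pos.mul_left (hι (C c * b')) hr)
  rcases h3 with h3 | h3
  · rw [map_eq_zero, map_eq_zero_iff _ (IsFractionRing.injective A[X] E), C_eq_zero] at h3
    exact hcd h3
  · rw [order_C_eq_zero ι hπ hι hπu hcd] at h3
    omega

include ι in
theorem descend (hπ : Irreducible π)
    (hι : ∀ r : A[X], 0 ≤ (ι (algebraMap A[X] E r)).order)
    (hπu : (ι (algebraMap A[X] E (C π))).order = 0)
    {g : A[X]} (hg : Irreducible g) (hgπ : ¬ Associated g (C π))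
    (hg1 : (ι (algebraMap A[X] E g)).order = 1)
    {c : E} (hc : 0 ≤ (ι c).order) (s : A[X]) (m : ℕ) :
    ∀ r : A[X], c * algebraMap A[X] E (s * g ^ m) = algebraMap A[X] E r →
      ∃ r' : A[X], c * algebraMap A[X] E s = algebraMap A[X] E r' := by
  induction m with
  | zero =>
    intro r h
    exact ⟨r, by rwa [pow_zero, mul_one] at h⟩
  | succ m ih =>
    intro r h
    have hpos : Pos (ι (algebraMap A[X] E r)) := by
      rw [← h, pow_succ, ← mul_assoc, map_mul (algebraMap A[X] E), ← mul_assoc, map_mul ι]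
      refine Pos.mul_left ?_ (Or.inr hg1.ge)
      rw [map_mul]
      exact order_mul_nonneg hc (hι _)
    obtain ⟨r'', rfl⟩ := dvd_of_pos ι hπ hι hπu hg hgπ hg1 hpos
    apply ih r''
    have hgE : algebraMap A[X] E g ≠ 0 := by
      rw [Ne, map_eq_zero_iff _ (IsFractionRing.injective A[X] E)]
      exact hg.ne_zero
    apply mul_right_cancel₀ hgE
    rw [mul_assoc, ← map_mul, mul_assoc, ← pow_succ, h, map_mul, mul_comm]

end Desc

end Emb

/-- **(P1)** -/
theorem unram_at_of_embeddings {A : Type*} [CommRing A] [IsDomain A] [IsDiscreteValuationRing A]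
    {π : A} (hπ : Irreducible π)
    {E : Type*} [Field E] [Algebra A[X] E] [IsFractionRing A[X] E] [CharZero E]
    {L : Type*} [Field L] [Algebra A[X] L] [Algebra E L] [IsScalarTower A[X] E L]
    [FiniteDimensional E L]
    {𝕂 : Type*} [Field 𝕂] (ι : E →+* LaurentSeries 𝕂)
    (hι : ∀ r : A[X], 0 ≤ (ι (algebraMap A[X] E r)).order)
    (hπu : (ι (algebraMap A[X] E (C π))).order = 0)
    (g : A[X]) (hg : Irreducible g) (hgπ : ¬ Associated g (C π))
    (hg1 : (ι (algebraMap A[X] E g)).order = 1)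
    {κ : Type*} [Fintype κ] (hκ : Fintype.card κ = Module.finrank E L)
    (τ : κ → (L →+* LaurentSeries 𝕂)) (hτinj : Function.Injective τ)
    (hτ : ∀ a c, τ a (algebraMap E L c) = ι c)
    (y z : L) (hy : IsBK π y) (hz : IsBK π z) (hyz : y ^ 2 = g • z) :
    ∃ y' : L, IsBK π y' ∧ y = g • y' := by
  classical
  by_cases hy0 : y = 0
  · exact ⟨0, IsBK.of_isIntegral isIntegral_zero, by rw [hy0, smul_zero]⟩
  have hinj := IsFractionRing.injective A[X] E
  have hgE : algebraMap A[X] E g ≠ 0 := by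
    rw [Ne, map_eq_zero_iff _ hinj]; exact hg.ne_zero
  have hgL : algebraMap A[X] L g ≠ 0 := by
    rw [IsScalarTower.algebraMap_apply A[X] E L, Ne, map_eq_zero]; exact hgE
  have hπE : algebraMap A[X] E (C π) ≠ 0 := by
    rw [Ne, map_eq_zero_iff _ hinj, C_eq_zero]; exact hπ.ne_zero
  -- `τ a` on `A[X]`
  have hτR : ∀ a (r : A[X]), τ a (algebraMap A[X] L r) = ι (algebraMap A[X] E r) := by
    intro a r
    rw [IsScalarTower.algebraMap_apply A[X] E L, hτ]
  -- elements of `B_K` have nonnegative order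
  have hBK : ∀ a (x : L), IsBK π x → 0 ≤ (τ a x).order := by
    intro a x hx
    obtain ⟨j, p, hp, hpx⟩ := hx
    by_cases hx0 : τ a x = 0
    · rw [hx0, HahnSeries.order_zero]
    have h1 : 0 ≤ (τ a ((C π : A[X]) ^ j • x)).order := by
      refine Emb.order_nonneg_of_isIntegralElem ((τ a).comp (algebraMap A[X] L)) ?_ ⟨p, hp, ?_⟩
      · intro r
        rw [RingHom.comp_apply, hτR]
        exact hι r
      · rw [← Polynomial.hom_eval₂, hpx, map_zero]
    rw [Algebra.smul_def, map_mul, hτR, map_pow, map_pow,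
      HahnSeries.order_mul (pow_ne_zero _ ((map_ne_zero ι).mpr hπE)) hx0, HahnSeries.order_pow,
      hπu] at h1
    simpa using h1
  set u : L := (algebraMap A[X] L g)⁻¹ * y with hu
  have hgu : g • u = y := by
    rw [hu, Algebra.smul_def, mul_inv_cancel_left₀ hgL]
  have hz0 : z ≠ 0 := by
    rintro rfl
    rw [smul_zero] at hyz
    exact hy0 ((pow_eq_zero_iff two_ne_zero).mp hyz)
  -- orders of `u`
  have hord : ∀ a, 0 ≤ (τ a u).order := by
    intro a
    have hy0' : τ a y ≠ 0 := (map_ne_zero (τ a)).mpr hy0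
    have hz0' : τ a z ≠ 0 := (map_ne_zero (τ a)).mpr hz0
    have hu0' : τ a u ≠ 0 := (map_ne_zero (τ a)).mpr (by
      rw [hu]; exact mul_ne_zero (inv_ne_zero hgL) hy0)
    have hg0' : ι (algebraMap A[X] E g) ≠ 0 := (map_ne_zero ι).mpr hgE
    have e1 : (τ a y).order + (τ a y).order = 1 + (τ a z).order := by
      have := congrArg (fun x => (τ a x).order) hyz
      beta_reduce at this
      rw [pow_two, map_mul, HahnSeries.order_mul hy0' hy0', Algebra.smul_def, map_mul, hτR,
        HahnSeries.order_mul hg0' hz0', hg1] at this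
      exact this
    have e2 : (τ a y).order = 1 + (τ a u).order := by
      have := congrArg (fun x => (τ a x).order) hgu
      beta_reduce at this
      rw [Algebra.smul_def, map_mul, hτR, HahnSeries.order_mul hg0' hu0', hg1] at this
      exact this.symm
    have e3 := hBK a z hz
    omega
  have hcoef : ∀ i, 0 ≤ (ι ((minpoly E u).coeff i)).order :=
    Emb.coeff_order_nonneg ι hκ τ hτinj hτ u hord
  obtain ⟨j, hj⟩ := hy
  refine ⟨u, ⟨j, ?_⟩, hgu.symm⟩
  have huE : IsIntegral E u := Algebra.IsIntegral.isIntegral u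
  set a : A[X] := (C π) ^ j * g with ha
  have ha0 : a ≠ 0 := mul_ne_zero (pow_ne_zero _ (C_ne_zero.mpr hπ.ne_zero)) hg.ne_zero
  have hau : IsIntegral A[X] (a • u) := by
    rw [ha, mul_smul, hgu]; exact hj
  have key : ∀ i, (minpoly E u).coeff i * algebraMap A[X] E (a ^ ((minpoly E u).natDegree - i))
        = algebraMap A[X] E ((minpoly A[X] (a • u)).coeff i) := by
    intro i
    have e1 : minpoly E (a • u) = (minpoly A[X] (a • u)).map (algebraMap A[X] E) :=
      minpoly.isIntegrallyClosed_eq_field_fractions' E hau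
    have e2 : minpoly E ((algebraMap A[X] E a) • u)
        = (minpoly E u).scaleRoots (algebraMap A[X] E a) :=
      IsIntegrallyClosed.minpoly_smul (by rwa [Ne, map_eq_zero_iff _ hinj]) huE
    rw [algebraMap_smul] at e2
    have e3 := congrArg (fun p => p.coeff i) (e2.symm.trans e1)
    simp only [coeff_scaleRoots, coeff_map] at e3
    rw [map_pow]
    exact e3
  have hlift : (minpoly E u).scaleRoots (algebraMap A[X] E ((C π) ^ j))
      ∈ Polynomial.lifts (algebraMap A[X] E) := by
    rw [Polynomial.lifts_iff_coeff_lifts]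
    intro i
    have k1 := key i
    rw [ha, mul_pow] at k1
    obtain ⟨r', hr'⟩ := Emb.descend ι hπ hι hπu hg hgπ hg1 (hcoef i) _ _ _ k1
    refine ⟨r', ?_⟩
    rw [coeff_scaleRoots, ← map_pow, ← hr']
  obtain ⟨q, hq, -, hqm⟩ := Polynomial.lifts_and_natDegree_eq_and_monic hlift
    ((monic_scaleRoots_iff _).mpr (minpoly.monic huE))
  refine ⟨q, hqm, ?_⟩
  have h0 := scaleRoots_aeval_eq_zero (r := algebraMap A[X] E ((C π) ^ j)) (minpoly.aeval E u)
  rw [← hq, aeval_map_algebraMap, ← IsScalarTower.algebraMap_apply, ← Algebra.smul_def] at h0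
  exact h0

/-- **(P2)** (`d`-th roots: `Fermat.Agent.ES.An.exists_pow_eq_laurentSeries`; `L ≅ F[X]/(X^d - W)`.) -/
theorem kummer_embeddings {F L 𝕂 : Type*} [Field F] [Field L] [Algebra F L] [Field 𝕂]
    [IsAlgClosed 𝕂] [CharZero 𝕂] (d : ℕ) (hd : 0 < d) (w : L) (W : F) (hW0 : W ≠ 0)
    (hw : w ^ d = algebraMap F L W) (hdeg : Module.finrank F L = d)
    (hli : LinearIndependent F (fun j : Fin d => w ^ (j : ℕ)))
    (σ : F →+* LaurentSeries 𝕂) (hord : (d : ℤ) ∣ (σ W).order) :
    ∃ τ : Fin d → (L →+* LaurentSeries 𝕂), Function.Injective τ ∧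
      ∀ i c, τ i (algebraMap F L c) = σ c :=
  kummer_embeddings_aux d hd w W hW0 hw hdeg hli σ hord

end Fermat.Agent.Crux.G
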