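import Mathlib

/-!
# Crux / G : (P5) "full families of embeddings extend"   (Mathlib only)

`E₀ ⊆ E ⊆ L`, `E₀ ⊆ F ⊆ L`, `L = E F`.  Let `ι : E → Ω` be an embedding into ANY field and let
`τ_a : F → Ω` (`a ∈ J`) be `[F : E₀]` distinct embeddings with `τ_a = ι` on `E₀`.  Then there are
exactly `[L : E]` distinct embeddings `σ_b : L → Ω` over `ι`, each restricts on `F` to one of
the `τ_a`, `a = r b`, and `r` is injective.

Proof.  In `Ω̄ = AlgebraicClosure Ω` there are `[L : E]` embeddings of `L` over `ι`; each restricts to an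
`E₀`-embedding of `F`, which is one of the `τ_a` by cardinality; so it maps `E` and `F`, hence
`L = E F`, into `Ω`.

* `mem_full_family_of_hom`, `mem_full_family` : a full family contains every embedding (also those
  into a bigger field `Ω'`);
* `restrict_mem_full_family` : every embedding of `L` over `ι` (into a bigger field) restricts on `F` to
  a member of the family;
* `full_family_extends` (`IntermediateField.adjoin` form), `full_family_extends'` (`Algebra.adjoin`).
-/

set_option autoImplicit false

namespace Fermat.Agent.Crux.G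

section Full

variable {E₀ F Ω Ω' : Type*} [Field E₀] [Field F] [Field Ω] [Field Ω'] [Algebra E₀ F]
  [FiniteDimensional E₀ F]

/-- A full family of embeddings `F → Ω` over `ι₀ : E₀ → Ω` contains every embedding of `F` over `ι₀`,
even those with values in a bigger field `j : Ω → Ω'`. -/
theorem mem_full_family_of_hom (ι₀ : E₀ →+* Ω) {J : Type*} [Fintype J]
    (hJ : Fintype.card J = Module.finrank E₀ F)
    (τ : J → F →+* Ω) (hτinj : Function.Injective τ)
    (hτ : ∀ a c, τ a (algebraMap E₀ F c) = ι₀ c)
    (j : Ω →+* Ω') (φ : F →+* Ω') (hφ : ∀ c, φ (algebraMap E₀ F c) = j (ι₀ c)) :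
    ∃ a, ∀ y, φ y = j (τ a y) := by
  classical
  have hj : Function.Injective j := j.injective
  let _ : Algebra E₀ Ω' := (j.comp ι₀).toAlgebra
  have halg : ∀ c : E₀, algebraMap E₀ Ω' c = j (ι₀ c) := fun _ => rfl
  let T : J → (F →ₐ[E₀] Ω') := fun a =>
    { toRingHom := j.comp (τ a)
      commutes' := fun c => by
        show j (τ a (algebraMap E₀ F c)) = _
        rw [hτ, halg] }
  have hT : ∀ a x, T a x = j (τ a x) := fun _ _ => rfl
  have hTinj : Function.Injective T := by
    intro a b hab
    apply hτinj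
    ext1 x
    apply hj
    rw [← hT, ← hT, hab]
  have hfin : Finite (F →ₐ[E₀] Ω') := inferInstance
  have hTbij : Function.Bijective T := by
    apply hTinj.bijective_of_nat_card_le
    rw [Nat.card_eq_fintype_card (α := J), hJ]
    exact card_algHom_le_finrank E₀ F Ω'
  let ψ : F →ₐ[E₀] Ω' :=
    { toRingHom := φ
      commutes' := fun c => by
        show φ (algebraMap E₀ F c) = _
        rw [hφ, halg] }
  obtain ⟨a, ha⟩ := hTbij.2 ψ
  refine ⟨a, fun y => ?_⟩
  rw [← hT, ha]
  rfl

theorem mem_full_family (ι₀ : E₀ →+* Ω) {J : Type*} [Fintype J]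
    (hJ : Fintype.card J = Module.finrank E₀ F)
    (τ : J → F →+* Ω) (hτinj : Function.Injective τ)
    (hτ : ∀ a c, τ a (algebraMap E₀ F c) = ι₀ c)
    (φ : F →+* Ω) (hφ : ∀ c, φ (algebraMap E₀ F c) = ι₀ c) :
    ∃ a, φ = τ a := by
  obtain ⟨a, ha⟩ := mem_full_family_of_hom ι₀ hJ τ hτinj hτ (RingHom.id Ω) φ hφ
  exact ⟨a, RingHom.ext ha⟩

end Full

section Extend

variable {E₀ E F L Ω Ω' : Type*} [Field E₀] [Field E] [Field F] [Field L] [Field Ω] [Field Ω']
  [Algebra E₀ E] [Algebra E₀ F] [Algebra E L] [Algebra F L] [Algebra E₀ L]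
  [IsScalarTower E₀ E L] [IsScalarTower E₀ F L]
  [FiniteDimensional E₀ F]

/-- Every embedding of `L` over `ι` (into a bigger field) restricts on `F` to a member of
the full family. -/
theorem restrict_mem_full_family
    (ι : E →+* Ω) {J : Type*} [Fintype J] (hJ : Fintype.card J = Module.finrank E₀ F)
    (τ : J → F →+* Ω) (hτinj : Function.Injective τ)
    (hτ : ∀ a c, τ a (algebraMap E₀ F c) = ι (algebraMap E₀ E c))
    (j : Ω →+* Ω') (φ : L →+* Ω') (hφ : ∀ e, φ (algebraMap E L e) = j (ι e)) :
    ∃ a, ∀ y, φ (algebraMap F L y) = j (τ a y) := by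
  refine mem_full_family_of_hom (ι.comp (algebraMap E₀ E)) hJ τ hτinj hτ j
    (φ.comp (algebraMap F L)) (fun c => ?_)
  rw [RingHom.comp_apply, ← IsScalarTower.algebraMap_apply, IsScalarTower.algebraMap_apply E₀ E L,
    hφ, RingHom.comp_apply]

/-- Two embeddings of `L = E F` which agree on `E` and on `F` are equal. -/
theorem ringHom_ext_of_adjoin
    (hgen : IntermediateField.adjoin E (Set.range (algebraMap F L)) = ⊤)
    (φ ψ : L →+* Ω) (hE : ∀ e, φ (algebraMap E L e) = ψ (algebraMap E L e))
    (hF : ∀ y, φ (algebraMap F L y) = ψ (algebraMap F L y)) : φ = ψ := by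
  let K : IntermediateField E L := (RingHom.eqLocusField φ ψ).toIntermediateField hE
  have hK : IntermediateField.adjoin E (Set.range (algebraMap F L)) ≤ K := by
    rw [IntermediateField.adjoin_le_iff]
    rintro _ ⟨y, rfl⟩
    exact hF y
  rw [hgen] at hK
  ext x
  exact hK (IntermediateField.mem_top (x := x))

variable [FiniteDimensional E L] [Algebra.IsSeparable E L]

/-- **(P5)** full families of embeddings extend to a compositum. -/
theorem full_family_extends
    (hgen : IntermediateField.adjoin E (Set.range (algebraMap F L)) = ⊤)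
    (ι : E →+* Ω) {J : Type*} [Fintype J] (hJ : Fintype.card J = Module.finrank E₀ F)
    (τ : J → F →+* Ω) (hτinj : Function.Injective τ)
    (hτ : ∀ a c, τ a (algebraMap E₀ F c) = ι (algebraMap E₀ E c)) :
    ∃ (σ : Fin (Module.finrank E L) → L →+* Ω) (r : Fin (Module.finrank E L) → J),
      Function.Injective σ ∧ Function.Injective r ∧
      (∀ b e, σ b (algebraMap E L e) = ι e) ∧ (∀ b y, σ b (algebraMap F L y) = τ (r b) y) := by
  classical
  let Ωb := AlgebraicClosure Ω
  let j : Ω →+* Ωb := algebraMap Ω Ωb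
  have hj : Function.Injective j := j.injective
  let _ : Algebra E Ωb := (j.comp ι).toAlgebra
  have halgE : ∀ e : E, algebraMap E Ωb e = j (ι e) := fun _ => rfl
  -- restriction to `F`
  have hres : ∀ φ : L →ₐ[E] Ωb, ∃ a, ∀ y : F, φ (algebraMap F L y) = j (τ a y) := fun φ =>
    restrict_mem_full_family ι hJ τ hτinj hτ j (φ : L →+* Ωb) (fun e => by
      show φ (algebraMap E L e) = _
      rw [φ.commutes, halgE])
  -- the image lies in `Ω`
  have hrange : ∀ (φ : L →ₐ[E] Ωb) (x : L), φ x ∈ j.fieldRange := by
    intro φ x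
    obtain ⟨a, ha⟩ := hres φ
    let K : IntermediateField E L :=
      (j.fieldRange.comap (φ : L →+* Ωb)).toIntermediateField (fun e => by
          show φ (algebraMap E L e) ∈ j.fieldRange
          rw [φ.commutes, halgE]
          exact ⟨_, rfl⟩)
    have hK : IntermediateField.adjoin E (Set.range (algebraMap F L)) ≤ K := by
      rw [IntermediateField.adjoin_le_iff]
      rintro _ ⟨y, rfl⟩
      show φ (algebraMap F L y) ∈ j.fieldRange
      rw [ha]
      exact ⟨_, rfl⟩
    rw [hgen] at hK
    exact hK (IntermediateField.mem_top (x := x))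
  choose! S hS using hrange
  let Sg : (L →ₐ[E] Ωb) → (L →+* Ω) := fun φ =>
    { toFun := S φ
      map_one' := hj (by rw [hS, map_one, map_one])
      map_mul' := fun x y => hj (by rw [hS, map_mul, map_mul, hS, hS])
      map_zero' := hj (by rw [hS, map_zero, map_zero])
      map_add' := fun x y => hj (by rw [hS, map_add, map_add, hS, hS]) }
  have hSg : ∀ φ x, j (Sg φ x) = φ x := hS
  choose R hR using hres
  have hcard : Fintype.card (L →ₐ[E] Ωb) = Module.finrank E L := AlgHom.card E L Ωb
  let eqv : Fin (Module.finrank E L) ≃ (L →ₐ[E] Ωb) := (Fintype.equivFinOfCardEq hcard).symm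
  have hSginj : Function.Injective Sg := by
    intro φ ψ h
    ext x
    rw [← hSg, ← hSg, h]
  have hRinj : Function.Injective R := by
    intro φ ψ h
    have : (φ : L →+* Ωb) = (ψ : L →+* Ωb) := by
      refine ringHom_ext_of_adjoin (E := E) (F := F) hgen _ _ (fun e => ?_) (fun y => ?_)
      · show φ (algebraMap E L e) = ψ (algebraMap E L e)
        rw [φ.commutes, ψ.commutes]
      · show φ (algebraMap F L y) = ψ (algebraMap F L y)
        rw [hR, hR, h]
    ext x
    exact congrArg (fun f : L →+* Ωb => f x) this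
  refine ⟨fun b => Sg (eqv b), fun b => R (eqv b), hSginj.comp eqv.injective,
    hRinj.comp eqv.injective, fun b e => hj ?_, fun b y => hj ?_⟩
  · rw [hSg, AlgHom.commutes, halgE]
  · rw [hSg, hR]

/-- **(P5)**, `Algebra.adjoin` form of the hypothesis `L = E F`. -/
theorem full_family_extends'
    (hgen : Algebra.adjoin E (Set.range (algebraMap F L)) = ⊤)
    (ι : E →+* Ω) {J : Type*} [Fintype J] (hJ : Fintype.card J = Module.finrank E₀ F)
    (τ : J → F →+* Ω) (hτinj : Function.Injective τ)
    (hτ : ∀ a c, τ a (algebraMap E₀ F c) = ι (algebraMap E₀ E c)) :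
    ∃ (σ : Fin (Module.finrank E L) → L →+* Ω) (r : Fin (Module.finrank E L) → J),
      Function.Injective σ ∧ Function.Injective r ∧
      (∀ b e, σ b (algebraMap E L e) = ι e) ∧ (∀ b y, σ b (algebraMap F L y) = τ (r b) y) := by
  refine full_family_extends ?_ ι hJ τ hτinj hτ
  rw [eq_top_iff, ← IntermediateField.toSubalgebra_le_toSubalgebra, IntermediateField.top_toSubalgebra,
    ← hgen]
  exact IntermediateField.algebra_adjoin_le_adjoin E _

end Extend

end Fermat.Agent.Crux.G
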