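import Fermat.Agent.Crux.G.Sat

/-!
# Crux / G : the Kummer step  `L = F(w)`, `w^d = W`, `W ≡ 1 mod π`, `π ∤ d`

* `Tr_{L/F}(w^i) = 0` for `0 < i < d` (matrix of `w^i` in the basis `1, w, …, w^{d-1}` has zero
  diagonal), so for `y = ∑ c_j w^j`: `c_j = Tr_{L/F}(y w^{d-j}) / (d W)`; hence `O_L = ⊕ O_F w^j`.
* (H1) for `F` ⇒ (H1) for `L` by transitivity of the trace.
* `e = (1/d) ∑ w^i` is an idempotent mod `π` (`w e ≡ e`), `≠ 0, 1` by uniqueness of coordinates.

The hypothesis `hli` (the powers `w^j`, `j < d`, are linearly independent over `F`) says that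
`L = F(w)`; it follows from `kummer_linearIndependent` or `kummer_linearIndependent_of_adjoin`.
-/

set_option autoImplicit false
set_option linter.unusedSectionVars false

open Polynomial

namespace Fermat.Agent.Crux.G

variable {A : Type*} [CommRing A] [IsDomain A] [IsDiscreteValuationRing A] {π : A}
variable {E F L : Type*} [Field E] [Field F] [Field L]
  [Algebra A[X] E] [IsFractionRing A[X] E] [CharZero E]
  [Algebra A[X] F] [Algebra E F] [IsScalarTower A[X] E F] [FiniteDimensional E F]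
  [Algebra A[X] L] [Algebra E L] [IsScalarTower A[X] E L] [FiniteDimensional E L]
  [Algebra F L] [IsScalarTower E F L] [IsScalarTower A[X] F L]

variable (E) in
include E in
/-- `1 ∉ π O_F`. -/
theorem not_isPiOL_one (hπ : Irreducible π) : ¬ IsPiOL π (1 : F) := by
  intro h
  have h1 : IsPiOL π (algebraMap A[X] F 1) := by simpa using h
  have h2 := (isPiOL_algebraMap_iff E hπ.prime 1).1 h1
  have h3 : IsUnit (C π : A[X]) := isUnit_of_dvd_one h2
  exact hπ.not_isUnit (Polynomial.isUnit_C.1 h3)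

theorem kummer_smul_algebraMap (s : A[X]) (c : F) :
    s • algebraMap F L c = algebraMap F L (s • c) := by
  rw [Algebra.smul_def, Algebra.smul_def, map_mul, ← IsScalarTower.algebraMap_apply]

theorem IsOL.algebraMap_FL {c : F} (hc : IsOL π c) : IsOL π (algebraMap F L c) := by
  obtain ⟨s, hs, h⟩ := hc
  refine ⟨s, hs, ?_⟩
  rw [kummer_smul_algebraMap]
  exact h.algebraMap

theorem IsPiOL.algebraMap_FL {c : F} (hc : IsPiOL π c) : IsPiOL π (algebraMap F L c) := by
  obtain ⟨z, hz, rfl⟩ := hc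
  exact ⟨algebraMap F L z, hz.algebraMap_FL, (kummer_smul_algebraMap _ _).symm⟩

/-- division by the integer `d`, `π ∤ d`. -/
theorem IsOL.natCast_inv_mul (hπ : Irreducible π) {d : ℕ} (hd : ¬ π ∣ (d : A)) {y : L}
    (hy : IsOL π y) : IsOL π ((d : L)⁻¹ * y) := by
  by_cases hd0 : (d : L) = 0
  · rw [hd0, inv_zero, zero_mul]; exact isOL_zero hπ.prime
  have hC : ¬ (C π : A[X]) ∣ C (d : A) := fun h =>
    hd (by simpa using (Polynomial.C_dvd_iff_dvd_coeff _ _).1 h 0)
  refine IsOL.of_smul hπ.prime hC ?_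
  have h1 : (C (d : A) : A[X]) • ((d : L)⁻¹ * y) = y := by
    rw [Algebra.smul_def]
    have h2 : algebraMap A[X] L (C (d : A)) = (d : L) := by simp
    rw [h2, mul_inv_cancel_left₀ hd0]
  rwa [h1]

/-- `w ∈ O_L`. -/
theorem kummer_isOL_w {d : ℕ} (hd0 : d ≠ 0) {w : L} {W : F}
    (hw : w ^ d = algebraMap F L W) (hW : IsOL π W) : IsOL π w := by
  obtain ⟨s, hs, h⟩ := hW
  refine ⟨s, hs, ?_⟩
  apply IsIntegral.of_pow (Nat.pos_of_ne_zero hd0)
  have h1 : (s • w) ^ d = algebraMap A[X] L (s ^ (d - 1)) * algebraMap F L (s • W) := by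
    rw [_root_.smul_pow, hw, ← kummer_smul_algebraMap, ← Algebra.smul_def, smul_smul, ← pow_succ,
      Nat.sub_add_cancel (Nat.pos_of_ne_zero hd0)]
  rw [h1]
  exact isIntegral_algebraMap.mul h.algebraMap

/-- the trace `L → F` maps `O_L` to `O_F`. -/
theorem IsOL.trace_FL [FiniteDimensional F L] {y : L} (hy : IsOL π y) :
    IsOL π (Algebra.trace F L y) := by
  obtain ⟨s, hs, h⟩ := hy
  refine ⟨s, hs, ?_⟩
  have h1 : s • Algebra.trace F L y = Algebra.trace F L (s • y) := by
    rw [← algebraMap_smul F s y, map_smul, Algebra.smul_def s, smul_eq_mul]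
  rw [h1]
  exact Algebra.isIntegral_trace h

section trace

variable {d : ℕ} {w : L} {W : F}

theorem kummer_trace_pow_eq_zero (hw : w ^ d = algebraMap F L W) (hdeg : Module.finrank F L = d)
    (hli : LinearIndependent F (fun j : Fin d => w ^ (j : ℕ))) {i : ℕ} (hi0 : 0 < i)
    (hid : i < d) : Algebra.trace F L (w ^ i) = 0 := by
  classical
  have hcard : Fintype.card (Fin d) = Module.finrank F L := by simp [hdeg]
  have : Nonempty (Fin d) := ⟨⟨0, by omega⟩⟩
  let b := basisOfLinearIndependentOfCardEqFinrank hli hcard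
  have hb : ∀ j, b j = w ^ (j : ℕ) := fun j => by simp [b]
  rw [Algebra.trace_eq_matrix_trace b, Matrix.trace]
  apply Finset.sum_eq_zero
  intro j _
  rw [Matrix.diag_apply, Algebra.leftMulMatrix_eq_repr_mul, hb, ← pow_add]
  by_cases h : i + j < d
  · have h1 : w ^ (i + j) = b ⟨i + j, h⟩ := (hb ⟨i + j, h⟩).symm
    rw [h1, b.repr_self, Finsupp.single_apply, if_neg]
    intro h'
    have := congrArg Fin.val h'
    simp at this
    omega
  · have h1 : w ^ (i + j) = W • b ⟨i + j - d, by omega⟩ := by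
      rw [hb, Algebra.smul_def, ← hw, ← pow_add]
      congr 1
      simp only
      omega
    rw [h1, map_smul, b.repr_self, Finsupp.smul_apply, Finsupp.single_apply, if_neg, smul_zero]
    intro h'
    have := congrArg Fin.val h'
    simp at this
    omega

theorem kummer_trace_pow_mul (hw : w ^ d = algebraMap F L W) (hdeg : Module.finrank F L = d)
    (hli : LinearIndependent F (fun j : Fin d => w ^ (j : ℕ))) (j k : Fin d) :
    Algebra.trace F L (w ^ (j : ℕ) * w ^ (d - (k : ℕ))) = if j = k then (d : F) * W else 0 := by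
  have hj := j.2
  have hk := k.2
  rw [← pow_add]
  split_ifs with h
  · subst h
    rw [Nat.add_sub_cancel' hj.le, hw, Algebra.trace_algebraMap, hdeg, nsmul_eq_mul]
  · have hne : (j : ℕ) ≠ k := fun h' => h (Fin.ext h')
    rcases lt_or_gt_of_ne hne with hlt | hgt
    · exact kummer_trace_pow_eq_zero hw hdeg hli (by omega) (by omega)
    · have h1 : w ^ ((j : ℕ) + (d - k)) = W • w ^ ((j : ℕ) - k) := by
        rw [Algebra.smul_def, ← hw, ← pow_add]
        congr 1
        omega
      rw [h1, map_smul, kummer_trace_pow_eq_zero hw hdeg hli (by omega) (by omega), smul_zero]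

theorem kummer_trace_sum (hw : w ^ d = algebraMap F L W) (hdeg : Module.finrank F L = d)
    (hli : LinearIndependent F (fun j : Fin d => w ^ (j : ℕ))) (c : Fin d → F) (k : Fin d) :
    Algebra.trace F L ((∑ j, c j • w ^ (j : ℕ)) * w ^ (d - (k : ℕ))) = c k * ((d : F) * W) := by
  rw [Finset.sum_mul, map_sum]
  simp_rw [smul_mul_assoc, map_smul, kummer_trace_pow_mul hw hdeg hli, smul_eq_mul, mul_ite,
    mul_zero]
  simp

end trace

variable (E) in
include E in
/-- extraction of the `k`-th coordinate by a trace against an element of `O_L`. -/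
theorem kummer_extract (hπ : Irreducible π) (d : ℕ) (hd : ¬ π ∣ (d : A)) (w : L) (W : F)
    (hw : w ^ d = algebraMap F L W) (hdeg : Module.finrank F L = d)
    (hli : LinearIndependent F (fun j : Fin d => w ^ (j : ℕ)))
    (hW : IsOL π W) (hW' : IsOL π W⁻¹) (k : Fin d) :
    ∃ (t : L) (u : F), IsOL π t ∧ IsOL π u⁻¹ ∧ u ≠ 0 ∧
      ∀ c : Fin d → F, Algebra.trace F L ((∑ j, c j • w ^ (j : ℕ)) * t) = c k * u := by
  have hd0 : d ≠ 0 := by have := k.2; omega
  have hcF : CharZero F := charZero_of_injective_algebraMap (algebraMap E F).injective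
  have hdF : (d : F) ≠ 0 := Nat.cast_ne_zero.2 hd0
  by_cases hW0 : W = 0
  · -- then `w = 0`, so `d = 1`
    have hw0 : w = 0 := by
      rw [hW0, map_zero] at hw
      exact pow_eq_zero_iff hd0 |>.1 hw
    have hd1 : d = 1 := by
      by_contra h
      have h2 : 1 < d := by omega
      have := hli.ne_zero ⟨1, h2⟩
      simp [hw0] at this
    subst hd1
    refine ⟨1, 1, isOL_one hπ.prime, by simpa using isOL_one hπ.prime, one_ne_zero, fun c => ?_⟩
    have hk : k = 0 := Subsingleton.elim _ _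
    subst hk
    simp only [Finset.univ_unique, Fin.default_eq_zero, Fin.isValue, Finset.sum_singleton,
      Fin.val_zero, pow_zero, mul_one, map_smul, smul_eq_mul]
    have h1 : Algebra.trace F L (1 : L) = 1 := by
      have := Algebra.trace_algebraMap (R := F) (S := L) (1 : F)
      rw [map_one, hdeg, one_smul] at this
      exact this
    rw [h1, mul_one]
  · refine ⟨w ^ (d - (k : ℕ)), (d : F) * W, (kummer_isOL_w hd0 hw hW).pow hπ.prime _, ?_,
      mul_ne_zero hdF hW0, fun c => kummer_trace_sum hw hdeg hli c k⟩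
    rw [mul_inv]
    exact IsOL.natCast_inv_mul hπ hd hW'

variable (E) in
include E in
/-- `O_L = ⊕ O_F w^j`. -/
theorem kummer_coeff (hπ : Irreducible π) (d : ℕ) (hd : ¬ π ∣ (d : A)) (w : L) (W : F)
    (hw : w ^ d = algebraMap F L W) (hdeg : Module.finrank F L = d)
    (hli : LinearIndependent F (fun j : Fin d => w ^ (j : ℕ)))
    (hW : IsOL π W) (hW' : IsOL π W⁻¹) (y : L) (hy : IsOL π y) :
    ∃ c : Fin d → F, (∀ j, IsOL π (c j)) ∧ y = ∑ j, c j • w ^ (j : ℕ) := by
  classical
  have hfd : FiniteDimensional F L := FiniteDimensional.right E F L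
  have hd0 : d ≠ 0 := by rw [← hdeg]; exact Module.finrank_pos.ne'
  have hcard : Fintype.card (Fin d) = Module.finrank F L := by simp [hdeg]
  have : Nonempty (Fin d) := ⟨⟨0, by omega⟩⟩
  let b := basisOfLinearIndependentOfCardEqFinrank hli hcard
  have hb : ∀ j, b j = w ^ (j : ℕ) := fun j => by simp [b]
  have hy' : y = ∑ j, b.repr y j • w ^ (j : ℕ) := by
    conv_lhs => rw [← b.sum_repr y]
    simp_rw [hb]
  refine ⟨fun j => b.repr y j, fun k => ?_, hy'⟩
  obtain ⟨t, u, ht, hu, hu0, htr⟩ := kummer_extract E hπ d hd w W hw hdeg hli hW hW' k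
  have h1 := htr (fun j => b.repr y j)
  rw [← hy'] at h1
  have h2 : b.repr y k = Algebra.trace F L (y * t) * u⁻¹ := by
    rw [h1, mul_assoc, mul_inv_cancel₀ hu0, mul_one]
  show IsOL π (b.repr y k)
  rw [h2]
  exact ((hy.mul hπ.prime ht).trace_FL).mul hπ.prime hu

/-- the powers `w^j`, `j < d`, are linearly independent over `F`. -/
theorem kummer_linearIndependent (d : ℕ) (w : L) (W : F)
    (hw : w ^ d = algebraMap F L W) (hdeg : Module.finrank F L = d) (hd0 : d ≠ 0)
    (hgen : ∀ y : L, ∃ c : Fin d → F, y = ∑ j, c j • w ^ (j : ℕ)) :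
    LinearIndependent F (fun j : Fin d => w ^ (j : ℕ)) := by
  apply linearIndependent_of_top_le_span_of_card_eq_finrank
  · intro y _
    obtain ⟨c, rfl⟩ := hgen y
    exact Submodule.sum_mem _ fun j _ => Submodule.smul_mem _ _ (Submodule.subset_span ⟨j, rfl⟩)
  · simp [hdeg]

/-- the powers `w^j`, `j < d = [L : F]`, are linearly independent over `F` if `L = F(w)`. -/
theorem kummer_linearIndependent_of_adjoin (d : ℕ) (w : L) (hdeg : Module.finrank F L = d)
    (hd0 : d ≠ 0) (hgen : IntermediateField.adjoin F {w} = ⊤) :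
    LinearIndependent F (fun j : Fin d => w ^ (j : ℕ)) := by
  have hfd : FiniteDimensional F L := Module.finite_of_finrank_pos (by omega)
  have hint : IsIntegral F w := IsIntegral.of_finite F w
  have hnd : (minpoly F w).natDegree = d := by
    rw [← IntermediateField.adjoin.finrank hint, hgen, IntermediateField.finrank_top', hdeg]
  have := linearIndependent_pow (K := F) w
  rw [hnd] at this
  exact this

variable (E) in
include E in
/-- coordinates of an element of `π O_L` lie in `π O_F`. -/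
theorem kummer_coeff_pi (hπ : Irreducible π) (d : ℕ) (hd : ¬ π ∣ (d : A)) (w : L) (W : F)
    (hw : w ^ d = algebraMap F L W) (hdeg : Module.finrank F L = d)
    (hli : LinearIndependent F (fun j : Fin d => w ^ (j : ℕ)))
    (hW : IsOL π W) (hW' : IsOL π W⁻¹) (a : Fin d → F)
    (hy : IsPiOL π (∑ j, a j • w ^ (j : ℕ))) (k : Fin d) : IsPiOL π (a k) := by
  obtain ⟨z, hz, hyz⟩ := hy
  obtain ⟨c, hc, rfl⟩ := kummer_coeff E hπ d hd w W hw hdeg hli hW hW' z hz
  have h1 : ∑ j, (a j - (C π : A[X]) • c j) • w ^ (j : ℕ) = 0 := by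
    simp_rw [sub_smul, Finset.sum_sub_distrib, hyz, Finset.smul_sum, smul_assoc, sub_self]
  have h2 := Fintype.linearIndependent_iff.1 hli _ h1 k
  exact ⟨c k, hc k, sub_eq_zero.1 h2⟩

/-- (H1) goes up. -/
theorem kummer_tracePerfect (hπ : Irreducible π) (d : ℕ) (hd : ¬ π ∣ (d : A)) (w : L) (W : F)
    (hw : w ^ d = algebraMap F L W) (hdeg : Module.finrank F L = d)
    (hli : LinearIndependent F (fun j : Fin d => w ^ (j : ℕ)))
    (hW : IsOL π W) (hW' : IsOL π W⁻¹) (H1 : TracePerfect π E F) :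
    TracePerfect π E L := by
  intro y hy htr
  have hfd : FiniteDimensional F L := FiniteDimensional.right E F L
  have hd0 : d ≠ 0 := by rw [← hdeg]; exact Module.finrank_pos.ne'
  obtain ⟨c, hc, rfl⟩ := kummer_coeff E hπ d hd w W hw hdeg hli hW hW' y hy
  have key : ∀ k, IsPiOL π (c k) := by
    intro k
    apply H1 (c k) (hc k)
    intro z hz
    obtain ⟨t, u, ht, hu, hu0, hext⟩ := kummer_extract E hπ d hd w W hw hdeg hli hW hW' k
    have h1 := htr (t * algebraMap F L (u⁻¹ * z))
      (ht.mul hπ.prime (hu.mul hπ.prime hz).algebraMap_FL)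
    have h2 : Algebra.trace F L ((∑ j, c j • w ^ (j : ℕ)) * (t * algebraMap F L (u⁻¹ * z)))
        = c k * z := by
      rw [← mul_assoc, mul_comm _ (algebraMap F L (u⁻¹ * z)), ← Algebra.smul_def, map_smul, hext,
        smul_eq_mul]
      field_simp
    rw [← Algebra.trace_trace (S := F), h2] at h1
    exact h1
  apply IsPiOL.sum hπ.prime
  intro j _
  rw [Algebra.smul_def]
  exact (key j).algebraMap_FL.mul_right hπ.prime ((kummer_isOL_w hd0 hw hW).pow hπ.prime _)

variable (E) in
include E in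
/-- the nontrivial idempotent modulo `π`. -/
theorem kummer_idempotent (hπ : Irreducible π) (d : ℕ) (hd2 : 2 ≤ d) (hd : ¬ π ∣ (d : A))
    (w : L) (W : F) (hw : w ^ d = algebraMap F L W) (hdeg : Module.finrank F L = d)
    (hli : LinearIndependent F (fun j : Fin d => w ^ (j : ℕ)))
    (hW : IsOL π W) (hW' : IsOL π W⁻¹) (hW1 : IsPiOL π (W - 1)) :
    IsOL π ((d : L)⁻¹ * ∑ i ∈ Finset.range d, w ^ i) ∧
    IsPiOL π (((d : L)⁻¹ * ∑ i ∈ Finset.range d, w ^ i) ^ 2
      - (d : L)⁻¹ * ∑ i ∈ Finset.range d, w ^ i) ∧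
    ¬ IsPiOL π ((d : L)⁻¹ * ∑ i ∈ Finset.range d, w ^ i) ∧
    ¬ IsPiOL π ((d : L)⁻¹ * ∑ i ∈ Finset.range d, w ^ i - 1) := by
  classical
  have hp := hπ.prime
  have hd0 : d ≠ 0 := by omega
  have hcF : CharZero F := charZero_of_injective_algebraMap (algebraMap E F).injective
  have hcL : CharZero L := charZero_of_injective_algebraMap (algebraMap E L).injective
  have hdF : (d : F) ≠ 0 := Nat.cast_ne_zero.2 hd0
  have hdL : (d : L) ≠ 0 := Nat.cast_ne_zero.2 hd0
  have hwO : IsOL π w := kummer_isOL_w hd0 hw hW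
  set S : L := ∑ i ∈ Finset.range d, w ^ i with hS
  have hSO : IsOL π S := IsOL.sum hp _ _ fun i _ => hwO.pow hp i
  have hdinv : IsOL π ((d : L)⁻¹) := by
    simpa using IsOL.natCast_inv_mul hπ hd (isOL_one (L := L) hp)
  -- `(w - 1) S = W - 1`
  have h1 : S * (w - 1) = algebraMap F L (W - 1) := by
    rw [hS, geom_sum_mul, hw, map_sub, map_one]
  have h1' : IsPiOL π (S * (w - 1)) := by rw [h1]; exact hW1.algebraMap_FL
  -- `w^i S - S ∈ π O_L`
  have h2 : ∀ i : ℕ, IsPiOL π (w ^ i * S - S) := by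
    intro i
    have : w ^ i * S - S = (∑ l ∈ Finset.range i, w ^ l) * (S * (w - 1)) := by
      have := geom_sum_mul w i
      calc w ^ i * S - S = ((∑ l ∈ Finset.range i, w ^ l) * (w - 1)) * S := by rw [this]; ring
        _ = _ := by ring
    rw [this]
    exact h1'.mul_left hp (IsOL.sum hp _ _ fun l _ => hwO.pow hp l)
  have h3 : IsPiOL π (S ^ 2 - (d : L) * S) := by
    have : S ^ 2 - (d : L) * S = ∑ i ∈ Finset.range d, (w ^ i * S - S) := by
      rw [Finset.sum_sub_distrib, ← Finset.sum_mul, ← hS, Finset.sum_const, Finset.card_range,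
        nsmul_eq_mul]
      ring
    rw [this]
    exact IsPiOL.sum hp _ _ fun i _ => h2 i
  -- coordinates
  have hcoord : (d : L)⁻¹ * S = ∑ j : Fin d, ((d : F)⁻¹) • w ^ (j : ℕ) := by
    rw [hS, ← Fin.sum_univ_eq_sum_range (fun i => w ^ i) d, Finset.mul_sum]
    refine Finset.sum_congr rfl fun j _ => ?_
    rw [Algebra.smul_def, map_inv₀, map_natCast]
  have hno : ¬ IsPiOL π ((d : F)⁻¹) := by
    intro h
    apply not_isPiOL_one (F := F) E hπ
    have := h.smul (C (d : A))
    have h4 : (C (d : A) : A[X]) • ((d : F)⁻¹) = 1 := by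
      rw [Algebra.smul_def]
      have h5 : algebraMap A[X] F (C (d : A)) = (d : F) := by simp
      rw [h5, mul_inv_cancel₀ hdF]
    rwa [h4] at this
  refine ⟨hdinv.mul hp hSO, ?_, ?_, ?_⟩
  · have : ((d : L)⁻¹ * S) ^ 2 - (d : L)⁻¹ * S = ((d : L)⁻¹ * (d : L)⁻¹) * (S ^ 2 - (d : L) * S) := by
      field_simp
    rw [this]
    exact h3.mul_left hp (hdinv.mul hp hdinv)
  · intro h
    rw [hcoord] at h
    exact hno (kummer_coeff_pi E hπ d hd w W hw hdeg hli hW hW' _ h ⟨0, by omega⟩)
  · intro h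
    have h6 : (d : L)⁻¹ * S - 1
        = ∑ j : Fin d, ((d : F)⁻¹ - if j = ⟨0, by omega⟩ then 1 else 0) • w ^ (j : ℕ) := by
      simp_rw [sub_smul, Finset.sum_sub_distrib, ← hcoord, ite_smul, zero_smul]
      simp
    rw [h6] at h
    have h7 := kummer_coeff_pi E hπ d hd w W hw hdeg hli hW hW' _ h ⟨1, by omega⟩
    rw [if_neg (by simp [Fin.ext_iff]), sub_zero] at h7
    exact hno h7

end Fermat.Agent.Crux.G
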