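import Fermat.Agent.Crux.G.Main
import Fermat.Agent.Crux.G.Kummer

/-!
# Crux / G : Theorem G + the Kummer step, packaged

`GK`: there is no field `L = F(w)`, `w^d = W`, `[L:F] = d ≥ 2`, with `W ≡ 1 mod π O_F`, `π ∤ d`,
satisfying (H0), (H2) (and (H1) for `F`).
-/

set_option autoImplicit false
set_option linter.style.haveILetI false
set_option linter.unusedSectionVars false
set_option linter.unusedVariables false

open Polynomial

namespace Fermat.Agent.Crux.G

theorem isScalarTower_algL {A E F L : Type*} [CommRing A] [Field E] [Field F] [Field L]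
    [Algebra A E] [Algebra E F] [Algebra E L] [Algebra F L] [IsScalarTower E F L] (x : E) :
    letI := algL (A := A) F x; letI := algL (A := A) L x; IsScalarTower A[X] F L := by
  letI := algL (A := A) F x
  letI := algL (A := A) L x
  refine IsScalarTower.of_algebraMap_eq fun p => ?_
  show algebraMap E L (aeval x p) = algebraMap F L (algebraMap E F (aeval x p))
  rw [← IsScalarTower.algebraMap_apply]

/-- **Theorem G + Kummer.** -/
theorem GK {A E F L : Type*} [CommRing A] [IsDomain A] [IsDiscreteValuationRing A]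
    [Field E] [Field F] [Field L] [CharZero E] [Algebra A E]
    [Algebra E F] [FiniteDimensional E F]
    [Algebra E L] [Algebra A L] [IsScalarTower A E L] [FiniteDimensional E L]
    [Algebra F L] [IsScalarTower E F L]
    (π : A) (hπ : Irreducible π) (x : E) (hx : Transcendental A x)
    (hgen : ∀ c : E, ∃ p q : A[X], q ≠ 0 ∧ c * aeval x q = aeval x p)
    (H1 : TracePerfectx F π x)
    (d : ℕ) (hd2 : 2 ≤ d) (hdπ : ¬ π ∣ (d : A))
    (W : F) (hW : IsOLx π x W) (hW' : IsOLx π x W⁻¹) (hW1 : IsPiOLx π x (W - 1))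
    (w : L) (hw : w ^ d = algebraMap F L W) (hdeg : Module.finrank F L = d)
    (hli : LinearIndependent F (fun j : Fin d => w ^ (j : ℕ)))
    (H0 : ∀ z : L, IsIntegral A z → z ∈ Set.range (algebraMap A L))
    (B0 Binf : Finset A)
    (hB0 : ∀ β ∈ B0, ∀ β' ∈ B0, π ∣ β - β' → β = β')
    (hBinf : ∀ β ∈ Binf, ∀ β' ∈ Binf, π ∣ β - β' → β = β')
    (H2 : Unramx L π x B0) (H2' : Unramx L π x⁻¹ Binf) : False := by
  have key : TracePerfectx L π x ∧
      (IsOLx π x ((d : L)⁻¹ * ∑ i ∈ Finset.range d, w ^ i) ∧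
      IsPiOLx π x (((d : L)⁻¹ * ∑ i ∈ Finset.range d, w ^ i) ^ 2
        - (d : L)⁻¹ * ∑ i ∈ Finset.range d, w ^ i) ∧
      ¬ IsPiOLx π x ((d : L)⁻¹ * ∑ i ∈ Finset.range d, w ^ i) ∧
      ¬ IsPiOLx π x ((d : L)⁻¹ * ∑ i ∈ Finset.range d, w ^ i - 1)) := by
    letI := algE (A := A) x
    letI := algL (A := A) F x
    letI := algL (A := A) L x
    haveI := isScalarTower_alg (A := A) (L := F) x
    haveI := isScalarTower_alg (A := A) (L := L) x
    haveI := isScalarTower_algL (A := A) (F := F) (L := L) x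
    haveI := isFractionRing_algE hx hgen
    exact ⟨kummer_tracePerfect hπ d hdπ w W hw hdeg hli hW hW' H1,
      kummer_idempotent E hπ d hd2 hdπ w W hw hdeg hli hW hW' hW1⟩
  obtain ⟨H1L, he, hee, hne0, hne1⟩ := key
  rcases theoremG π hπ x hx hgen H0 H1L B0 Binf hB0 hBinf H2 H2' _ he hee with h | h
  · exact hne0 h
  · exact hne1 h

end Fermat.Agent.Crux.G
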