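import Fermat.Agent.Crux.G.LatticeLB

/-!
# Crux / G : lattices modulo `π`

`R = A[X]`, `R/π = k[X]` is a PID and `O_L/π O_L` is a torsion free `k[X]`-module.  All statements
are phrased with elements of `L` (no quotient types in the interface).
-/

set_option autoImplicit false

open Polynomial

namespace Fermat.Agent.Crux.G

variable {A : Type*} [CommRing A] [IsDomain A] [IsDiscreteValuationRing A] {π : A}
variable {E : Type*} [Field E] [Algebra A[X] E] [IsFractionRing A[X] E]
variable {L : Type*} [Field L] [Algebra A[X] L] [Algebra E L] [IsScalarTower A[X] E L]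

/-- `A[X]/(π)` is a PID (it is `k[X]`, `k = A/π`). -/
theorem isPrincipalIdealRing_quotient (hπ : Irreducible π) :
    IsPrincipalIdealRing (A[X] ⧸ Ideal.span {(C π : A[X])}) :=
  isPrincipalIdealRing_quotient' hπ

/-- `A[X]/(π)` is a domain. -/
theorem isDomain_quotient (hπ : Irreducible π) :
    IsDomain (A[X] ⧸ Ideal.span {(C π : A[X])}) :=
  isDomain_quotient' hπ

variable (E) in
include E in
/-- **(LB)** A finitely generated `A[X]`-submodule `Λ ⊆ O_L` has a "basis modulo `π O_L`":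
the image of `Λ` in `O_L/π O_L` is a f.g. torsion free module over the PID `A[X]/(π)`, hence free;
lift a basis. -/
theorem exists_basis_mod (hπ : Irreducible π) (Λ : Submodule A[X] L) (hfg : Λ.FG)
    (hΛ : ∀ y ∈ Λ, IsOL π y) :
    ∃ (m : ℕ) (l : Fin m → L), (∀ j, l j ∈ Λ) ∧
      (∀ y ∈ Λ, ∃ r : Fin m → A[X], IsPiOL π (y - ∑ j, r j • l j)) ∧
      (∀ r : Fin m → A[X], IsPiOL π (∑ j, r j • l j) → ∀ j, C π ∣ r j) :=
  exists_basis_mod' E hπ Λ hfg hΛ

/-- **(COEF)** If `l` is independent modulo `π` then `∑ c_j l_j ∈ π O_L` (`c_j ∈ E`) forces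
`c_j ∈ π O_G`.  (Clear denominators `c_j = r_j / r_0`, `r_0 = π^a r_0'`, and show by induction
`π^i ∣ r_j` for `i ≤ a + 1`.) -/
theorem isPiOG_of_isPiOL_sum (hπ : Irreducible π) {m : ℕ} (l : Fin m → L)
    (hind : ∀ r : Fin m → A[X], IsPiOL π (∑ j, r j • l j) → ∀ j, C π ∣ r j)
    (c : Fin m → E) (h : IsPiOL π (∑ j, c j • l j)) : ∀ j, IsPiOG π (c j) :=
  isPiOG_of_isPiOL_sum' hπ l hind c h

/-- independence modulo `π` implies linear independence over `E`. -/
theorem linearIndependent_of_indep_mod (hπ : Irreducible π) {m : ℕ} (l : Fin m → L)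
    (hind : ∀ r : Fin m → A[X], IsPiOL π (∑ j, r j • l j) → ∀ j, C π ∣ r j) :
    LinearIndependent E l :=
  linearIndependent_of_indep_mod' hπ l hind

variable [FiniteDimensional E L] [CharZero E]

variable (E) in
include E in
/-- The integral closure `M` of `A[X]` in `L` is a finite `A[X]`-module
(`IsIntegralClosure.isNoetherian`). -/
theorem integralClosure_fg : (integralClosure A[X] L).toSubmodule.FG := by
  have h : IsNoetherian A[X] (integralClosure A[X] L) :=
    IsIntegralClosure.isNoetherian A[X] E L (integralClosure A[X] L)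
  have h2 : Module.Finite A[X] (integralClosure A[X] L) := inferInstance
  exact Module.Finite.iff_fg.mp h2

omit [IsDomain A] [IsDiscreteValuationRing A] [IsFractionRing A[X] E] [Algebra E L]
  [IsScalarTower A[X] E L] [FiniteDimensional E L] [CharZero E] in
/-- adjugate trick: if `P μ ∈ N^r` then `det P • μ_c ∈ N`. -/
theorem det_smul_mem_of_mulVec_mem {r : ℕ} (N : Submodule A[X] L)
    (P : Matrix (Fin r) (Fin r) A[X]) (μ : Fin r → L)
    (h : ∀ a, ∑ b, P a b • μ b ∈ N) (c : Fin r) : P.det • μ c ∈ N := by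
  have key : P.det • μ c = ∑ a, P.adjugate c a • ∑ b, P a b • μ b := by
    have h1 : ∀ b, (P.adjugate * P) c b = ∑ a, P.adjugate c a * P a b := fun b => by
      rw [Matrix.mul_apply]
    calc P.det • μ c = ∑ b, (P.adjugate * P) c b • μ b := by
          rw [Matrix.adjugate_mul]
          simp [Matrix.smul_apply, Matrix.one_apply, ite_smul]
      _ = ∑ b, ∑ a, (P.adjugate c a * P a b) • μ b := by
          refine Finset.sum_congr rfl fun b _ => ?_
          rw [h1, Finset.sum_smul]
      _ = ∑ a, ∑ b, (P.adjugate c a * P a b) • μ b := Finset.sum_comm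
      _ = ∑ a, P.adjugate c a • ∑ b, P a b • μ b := by
          refine Finset.sum_congr rfl fun a _ => ?_
          rw [Finset.smul_sum]
          exact Finset.sum_congr rfl fun b _ => by rw [mul_smul]
  rw [key]
  exact N.sum_mem fun a _ => N.smul_mem _ (h a)

omit [IsDomain A] [IsDiscreteValuationRing A] in
/-- `det (s₀ I - π T) ≡ s₀ ^ r mod π`. -/
theorem dvd_det_sub_pow {r : ℕ} (s₀ : A[X]) (T : Matrix (Fin r) (Fin r) A[X]) :
    C π ∣ (s₀ • (1 : Matrix (Fin r) (Fin r) A[X]) - (C π : A[X]) • T).det - s₀ ^ r := by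
  rw [← Ideal.mem_span_singleton, ← Ideal.Quotient.eq, RingHom.map_det]
  have : (Ideal.Quotient.mk (Ideal.span {(C π : A[X])})).mapMatrix
      (s₀ • (1 : Matrix (Fin r) (Fin r) A[X]) - (C π : A[X]) • T) =
      (Ideal.Quotient.mk (Ideal.span {(C π : A[X])}) s₀) • 1 := by
    have h0 : Ideal.Quotient.mk (Ideal.span {(C π : A[X])}) (C π) = 0 :=
      Ideal.Quotient.eq_zero_iff_mem.mpr (Ideal.mem_span_singleton_self _)
    ext i j
    by_cases hij : i = j <;> simp [h0, hij]
  rw [this, Matrix.det_smul, Matrix.det_one, mul_one, Fintype.card_fin, map_pow]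

variable (E) in
include E in
/-- determinant trick, common form. -/
theorem exists_smul_mem_of_le (N : Submodule A[X] L) (s₀ : A[X])
    (h : ∀ y : L, IsIntegral A[X] y → ∃ n ∈ N, ∃ z : L, IsIntegral A[X] z ∧
      s₀ • y = n + (C π : A[X]) • z) :
    ∃ (r : ℕ) (s : A[X]), C π ∣ s - s₀ ^ r ∧ ∀ y : L, IsIntegral A[X] y → s • y ∈ N := by
  obtain ⟨r, μ, hμ⟩ := Submodule.fg_iff_exists_fin_generating_family.mp
    (integralClosure_fg (A := A) E (L := L))
  have hmem : ∀ y : L, IsIntegral A[X] y ↔ y ∈ Submodule.span A[X] (Set.range μ) := fun y => by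
    rw [hμ]; rfl
  have hμi : ∀ a, IsIntegral A[X] (μ a) := fun a =>
    (hmem _).mpr (Submodule.subset_span ⟨a, rfl⟩)
  choose n hn z hz hE using fun a => h (μ a) (hμi a)
  have hT : ∀ a, ∃ t : Fin r → A[X], z a = ∑ b, t b • μ b := fun a => by
    obtain ⟨t, ht⟩ := (Submodule.mem_span_range_iff_exists_fun A[X]).mp ((hmem _).mp (hz a))
    exact ⟨t, ht.symm⟩
  choose T hT using hT
  let P : Matrix (Fin r) (Fin r) A[X] :=
    s₀ • (1 : Matrix (Fin r) (Fin r) A[X]) - (C π : A[X]) • (Matrix.of T)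
  refine ⟨r, P.det, dvd_det_sub_pow s₀ _, fun y hy => ?_⟩
  have hP : ∀ a, ∑ b, P a b • μ b ∈ N := fun a => by
    have : ∑ b, P a b • μ b = n a := by
      have e1 : ∑ b, P a b • μ b = s₀ • μ a - (C π : A[X]) • ∑ b, T a b • μ b := by
        simp only [P, Matrix.sub_apply, Matrix.smul_apply, Matrix.one_apply, Matrix.of_apply,
          sub_smul, Finset.sum_sub_distrib, smul_eq_mul, mul_ite, mul_one, mul_zero, ite_smul,
          zero_smul, Finset.sum_ite_eq, Finset.mem_univ, if_true, Finset.smul_sum, mul_smul]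
      rw [e1, ← hT, hE]; abel
    rw [this]; exact hn a
  have hc := det_smul_mem_of_mulVec_mem N P μ hP
  have hy' := (hmem y).mp hy
  clear hy
  induction hy' using Submodule.span_induction with
  | mem x hx => obtain ⟨c, rfl⟩ := hx; exact hc c
  | zero => simp
  | add x y _ _ hx hy => rw [smul_add]; exact N.add_mem hx hy
  | smul a x _ hx => rw [smul_comm]; exact N.smul_mem _ hx

variable (E) in
include E in
/-- **(NAK)** determinant trick.  If `M ⊆ ∑ R l_j + π O_L` with `l_j ∈ O_L` then `s M ⊆ ∑ R l_j`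
for some `s ∉ (π)`.  (Generators `μ_a` of `M`: `μ_a = ∑ r_aj l_j + π o_a`, `s_0 o_a = ∑ t_ab μ_b`,
so `(s_0 I - π T) μ ∈ (∑ R l_j)^r`; multiply by the adjugate; `det ≡ s_0^r mod π`.) -/
theorem exists_smul_mem_span (hπ : Irreducible π) {m : ℕ} (l : Fin m → L)
    (hl : ∀ j, IsOL π (l j))
    (hgen : ∀ y : L, IsIntegral A[X] y → ∃ r : Fin m → A[X], IsPiOL π (y - ∑ j, r j • l j)) :
    ∃ s : A[X], ¬ C π ∣ s ∧
      ∀ y : L, IsIntegral A[X] y → s • y ∈ Submodule.span A[X] (Set.range l) := by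
  have hp : Prime π := hπ.prime
  have hCp : Prime (C π : A[X]) := Polynomial.prime_C_iff.mpr hp
  -- generators of `M`, a common denominator `s₀`
  obtain ⟨r, μ, hμ⟩ := Submodule.fg_iff_exists_fin_generating_family.mp
    (integralClosure_fg (A := A) E (L := L))
  have hmem : ∀ y : L, IsIntegral A[X] y ↔ y ∈ Submodule.span A[X] (Set.range μ) := fun y => by
    rw [hμ]; rfl
  have hμi : ∀ a, IsIntegral A[X] (μ a) := fun a =>
    (hmem _).mpr (Submodule.subset_span ⟨a, rfl⟩)
  choose R hR using fun a => hgen (μ a) (hμi a)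
  choose o ho hoE using hR
  choose σ hσ hσi using ho
  let s₀ : A[X] := ∏ a, σ a
  have hs₀ : ¬ C π ∣ s₀ := by
    intro h
    obtain ⟨a, _, ha⟩ := (Prime.dvd_finsetProd_iff hCp _).mp h
    exact hσ a ha
  have hs₀i : ∀ a, IsIntegral A[X] (s₀ • o a) := fun a => by
    have : s₀ = (∏ b ∈ Finset.univ.erase a, σ b) * σ a := by
      rw [Finset.prod_erase_mul _ _ (Finset.mem_univ a)]
    rw [this, mul_smul]
    exact (hσi a).smul _
  -- the hypothesis of the determinant trick holds on generators, hence on `M`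
  have key : ∀ y : L, IsIntegral A[X] y → ∃ n ∈ Submodule.span A[X] (Set.range l), ∃ z : L,
      IsIntegral A[X] z ∧ s₀ • y = n + (C π : A[X]) • z := by
    intro y hy
    have hy' := (hmem y).mp hy
    clear hy
    induction hy' using Submodule.span_induction with
    | mem x hx =>
      obtain ⟨a, rfl⟩ := hx
      refine ⟨s₀ • ∑ j, R a j • l j, Submodule.smul_mem _ _ (Submodule.sum_mem _ fun j _ =>
        Submodule.smul_mem _ _ (Submodule.subset_span ⟨j, rfl⟩)), s₀ • o a, hs₀i a, ?_⟩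
      rw [smul_comm (C π : A[X]) s₀, ← hoE a, ← smul_add]
      congr 1; abel
    | zero => exact ⟨0, Submodule.zero_mem _, 0, isIntegral_zero, by simp⟩
    | add x y _ _ hx hy =>
      obtain ⟨n, hn, z, hz, e⟩ := hx
      obtain ⟨n', hn', z', hz', e'⟩ := hy
      refine ⟨n + n', Submodule.add_mem _ hn hn', z + z', hz.add hz', ?_⟩
      rw [smul_add, e, e', smul_add]; abel
    | smul a x _ hx =>
      obtain ⟨n, hn, z, hz, e⟩ := hx
      refine ⟨a • n, Submodule.smul_mem _ _ hn, a • z, hz.smul _, ?_⟩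
      rw [smul_comm, e, smul_add, smul_comm a (C π : A[X])]
  obtain ⟨r', s, hs, hsM⟩ := exists_smul_mem_of_le (π := π) E _ s₀ key
  refine ⟨s, fun h => hs₀ ?_, hsM⟩
  have : C π ∣ s₀ ^ r' := by
    have := dvd_sub h hs
    simpa using this
  exact hCp.dvd_of_dvd_pow this

variable (E) in
include E in
/-- **(NAK')** same with `l_j ∈ M`: then `s ≡ 1 mod π` (here `o_a ∈ M` by saturation, so this is
`Submodule.exists_sub_one_mem_and_smul_eq_zero_of_fg_of_le_smul` for `M / ∑ R l_j`). -/
theorem exists_smul_mem_span' (hπ : Irreducible π) {m : ℕ} (l : Fin m → L)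
    (hl : ∀ j, IsIntegral A[X] (l j))
    (hgen : ∀ y : L, IsIntegral A[X] y → ∃ r : Fin m → A[X], IsPiOL π (y - ∑ j, r j • l j)) :
    ∃ s : A[X], C π ∣ s - 1 ∧
      ∀ y : L, IsIntegral A[X] y → s • y ∈ Submodule.span A[X] (Set.range l) := by
  have hp : Prime π := hπ.prime
  have key : ∀ y : L, IsIntegral A[X] y → ∃ n ∈ Submodule.span A[X] (Set.range l), ∃ z : L,
      IsIntegral A[X] z ∧ (1 : A[X]) • y = n + (C π : A[X]) • z := by
    intro y hy
    obtain ⟨r, z, hz, e⟩ := hgen y hy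
    have hn : IsIntegral A[X] (∑ j, r j • l j) :=
      IsIntegral.sum _ fun j _ => (hl j).smul _
    refine ⟨∑ j, r j • l j, Submodule.sum_mem _ fun j _ =>
        Submodule.smul_mem _ _ (Submodule.subset_span ⟨j, rfl⟩), z, ?_, ?_⟩
    · refine isIntegral_of_isOL_of_isBK E hp hz ⟨1, ?_⟩
      rw [pow_one, ← e]
      exact hy.sub hn
    · rw [one_smul, ← e]; abel
  obtain ⟨r', s, hs, hsM⟩ := exists_smul_mem_of_le (π := π) E _ 1 key
  exact ⟨s, by simpa using hs, hsM⟩

/-- **(BAS)** a family in `O_L` which generates `M` modulo `π O_L` and is independent modulo `π`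
is an `E`-basis of `L`. -/
theorem exists_basis_of_gen_indep (hπ : Irreducible π) {m : ℕ} (l : Fin m → L)
    (hl : ∀ j, IsOL π (l j))
    (hgen : ∀ y : L, IsIntegral A[X] y → ∃ r : Fin m → A[X], IsPiOL π (y - ∑ j, r j • l j))
    (hind : ∀ r : Fin m → A[X], IsPiOL π (∑ j, r j • l j) → ∀ j, C π ∣ r j) :
    ∃ b : Module.Basis (Fin m) E L, ∀ j, b j = l j := by
  have hli := linearIndependent_of_indep_mod (E := E) hπ l hind
  obtain ⟨s, hs, hsM⟩ := exists_smul_mem_span E hπ l hl hgen
  have hs0 : s ≠ 0 := fun h => hs (h ▸ dvd_zero _)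
  have hinj : Function.Injective (algebraMap A[X] E) := IsFractionRing.injective A[X] E
  have hle : Submodule.span A[X] (Set.range l) ≤
      (Submodule.span E (Set.range l)).restrictScalars A[X] :=
    Submodule.span_le.mpr fun x hx => Submodule.subset_span hx
  have hsp : ⊤ ≤ Submodule.span E (Set.range l) := by
    intro y _
    have halg : IsAlgebraic A[X] y :=
      (IsFractionRing.isAlgebraic_iff A[X] E L).mpr (Algebra.IsAlgebraic.isAlgebraic y)
    obtain ⟨t, ht, hty⟩ := halg.exists_integral_multiple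
    have h1 : s • t • y ∈ Submodule.span E (Set.range l) := hle (hsM _ hty)
    have hst : algebraMap A[X] E (s * t) ≠ 0 := by
      rw [Ne, map_eq_zero_iff _ hinj]; exact mul_ne_zero hs0 ht
    have h2 : y = (algebraMap A[X] E (s * t))⁻¹ • (s • t • y) := by
      rw [← mul_smul, ← algebraMap_smul E (s * t) y, smul_smul, inv_mul_cancel₀ hst, one_smul]
    rw [h2]
    exact Submodule.smul_mem _ _ h1
  exact ⟨Module.Basis.mk hli hsp, fun j => Module.Basis.mk_apply hli hsp j⟩

/-- **(PKG)** the basis package for `M`: an `E`-basis `b` of `L` inside `M`, independent mod `π`,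
and `s ≡ 1 mod π` with `s M ⊆ ∑ R b_i`. -/
theorem exists_pkg (hπ : Irreducible π) :
    ∃ (n : ℕ) (b : Module.Basis (Fin n) E L) (s : A[X]),
      (∀ i, IsIntegral A[X] (b i)) ∧ C π ∣ s - 1 ∧
      (∀ y : L, IsIntegral A[X] y → s • y ∈ Submodule.span A[X] (Set.range b)) ∧
      (∀ r : Fin n → A[X], IsPiOL π (∑ j, r j • b j) → ∀ j, C π ∣ r j) := by
  have hp : Prime π := hπ.prime
  obtain ⟨m, l, hlM, hgen, hind⟩ := exists_basis_mod E hπ (integralClosure A[X] L).toSubmodule
    (integralClosure_fg E) (fun y hy => IsOL.of_isIntegral hp hy)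
  have hl : ∀ j, IsIntegral A[X] (l j) := hlM
  have hgen' : ∀ y : L, IsIntegral A[X] y → ∃ r : Fin m → A[X], IsPiOL π (y - ∑ j, r j • l j) :=
    fun y hy => hgen y hy
  obtain ⟨b, hb⟩ := exists_basis_of_gen_indep (E := E) hπ l
    (fun j => IsOL.of_isIntegral hp (hl j)) hgen' hind
  obtain ⟨s, hs, hsM⟩ := exists_smul_mem_span' E hπ l hl hgen'
  have hbl : (b : Fin m → L) = l := funext hb
  refine ⟨m, b, s, fun i => by rw [hb]; exact hl i, hs, ?_, ?_⟩
  · rw [hbl]; exact hsM
  · simp only [hb]; exact hind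

end Fermat.Agent.Crux.G
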