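import Fermat.Agent.Crux.G.Sat

/-!
# Crux / G : lattices modulo `π` -- (LB) and (COEF)

Proofs of the statements `isPrincipalIdealRing_quotient`, `isDomain_quotient`, `exists_basis_mod`,
`isPiOG_of_isPiOL_sum`, `linearIndependent_of_indep_mod` of `Crux/G/Lattice.lean`
(here with primed names).
-/

set_option autoImplicit false

open Polynomial

namespace Fermat.Agent.Crux.G

/-! ### Abstract module theory -/

/-- Abstract form of (LB): `Λ` f.g., `p Λ ⊆ P`, `Λ / (Λ ∩ P)` torsion free over the PID `R/p`. -/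
theorem exists_basis_mod_aux {R : Type*} [CommRing R] {M : Type*} [AddCommGroup M] [Module R M]
    (p : R) [IsDomain (R ⧸ Ideal.span {p})] [IsPrincipalIdealRing (R ⧸ Ideal.span {p})]
    (Λ P : Submodule R M) (hfg : Λ.FG)
    (hp : ∀ y ∈ Λ, p • y ∈ P)
    (htf : ∀ (s : R) (y : M), y ∈ Λ → ¬ p ∣ s → s • y ∈ P → y ∈ P) :
    ∃ (m : ℕ) (l : Fin m → M), (∀ j, l j ∈ Λ) ∧
      (∀ y ∈ Λ, ∃ r : Fin m → R, y - ∑ j, r j • l j ∈ P) ∧
      (∀ r : Fin m → R, ∑ j, r j • l j ∈ P → ∀ j, p ∣ r j) := by
  classical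
  set N : Submodule R Λ := P.comap Λ.subtype with hN
  have htors : Module.IsTorsionBy R (Λ ⧸ N) p := by
    rw [Module.isTorsionBy_quotient_iff]
    intro x
    exact hp x x.2
  let _ : Module (R ⧸ Ideal.span {p}) (Λ ⧸ N) := htors.module
  have hsm : ∀ (b : R) (x : Λ ⧸ N), Ideal.Quotient.mk (Ideal.span {p}) b • x = b • x :=
    fun b x => rfl
  have : Module.Finite R Λ := Module.Finite.iff_fg.mpr hfg
  have : Module.Finite R (Λ ⧸ N) := inferInstance
  have : IsScalarTower R (R ⧸ Ideal.span {p}) (Λ ⧸ N) := by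
    refine ⟨fun a b x => ?_⟩
    obtain ⟨b, rfl⟩ := Ideal.Quotient.mk_surjective b
    rw [hsm, Algebra.smul_def, Ideal.Quotient.algebraMap_eq, ← map_mul, hsm, mul_smul]
  have : Module.Finite (R ⧸ Ideal.span {p}) (Λ ⧸ N) := Module.Finite.of_restrictScalars_finite R _ _
  have : Module.IsTorsionFree (R ⧸ Ideal.span {p}) (Λ ⧸ N) := by
    refine Module.IsTorsionFree.of_smul_eq_zero fun s x h => ?_
    obtain ⟨s, rfl⟩ := Ideal.Quotient.mk_surjective s
    obtain ⟨x, rfl⟩ := Submodule.Quotient.mk_surjective N x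
    by_cases hs : p ∣ s
    · left
      rwa [Ideal.Quotient.eq_zero_iff_mem, Ideal.mem_span_singleton]
    · right
      rw [hsm, ← Submodule.Quotient.mk_smul, Submodule.Quotient.mk_eq_zero] at h
      rw [Submodule.Quotient.mk_eq_zero]
      exact htf s x x.2 hs h
  obtain ⟨m, b⟩ := Module.basisOfFiniteTypeTorsionFree' (R := R ⧸ Ideal.span {p}) (M := Λ ⧸ N)
  choose l hl using fun j => Submodule.Quotient.mk_surjective N (b j)
  have key : ∀ r : Fin m → R, Submodule.Quotient.mk (p := N) (∑ j, r j • l j)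
      = ∑ j, Ideal.Quotient.mk (Ideal.span {p}) (r j) • b j := by
    intro r
    have : Submodule.Quotient.mk (p := N) (∑ j, r j • l j) = N.mkQ (∑ j, r j • l j) := rfl
    rw [this, map_sum]
    refine Finset.sum_congr rfl fun j _ => ?_
    rw [map_smul, hsm, ← hl j]
    rfl
  refine ⟨m, fun j => (l j : M), fun j => (l j).2, ?_, ?_⟩
  · intro y hy
    choose r hr using fun j => Ideal.Quotient.mk_surjective (b.repr (Submodule.Quotient.mk ⟨y, hy⟩) j)
    refine ⟨r, ?_⟩
    have h1 : Submodule.Quotient.mk (p := N) (⟨y, hy⟩ - ∑ j, r j • l j) = 0 := by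
      rw [Submodule.Quotient.mk_sub, key, sub_eq_zero]
      simp_rw [hr]
      exact (b.sum_repr _).symm
    rw [Submodule.Quotient.mk_eq_zero] at h1
    have h2 : ((⟨y, hy⟩ - ∑ j, r j • l j : Λ) : M) ∈ P := h1
    simpa using h2
  · intro r hr j
    have h1 : Submodule.Quotient.mk (p := N) (∑ j, r j • l j) = 0 := by
      rw [Submodule.Quotient.mk_eq_zero]
      change ((∑ j, r j • l j : Λ) : M) ∈ P
      simpa using hr
    rw [key] at h1
    have h2 := (Fintype.linearIndependent_iff.mp b.linearIndependent) _ h1 j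
    rwa [Ideal.Quotient.eq_zero_iff_mem, Ideal.mem_span_singleton] at h2

/-! ### The chart -/

variable {A : Type*} [CommRing A] [IsDomain A] [IsDiscreteValuationRing A] {π : A}
variable {E : Type*} [Field E] [Algebra A[X] E] [IsFractionRing A[X] E]
variable {L : Type*} [Field L] [Algebra A[X] L] [Algebra E L] [IsScalarTower A[X] E L]

/-- `A[X]/(π)` is a domain. -/
theorem isDomain_quotient' (hπ : Irreducible π) :
    IsDomain (A[X] ⧸ Ideal.span {(C π : A[X])}) := by
  have h1 : Prime (C π : A[X]) := Polynomial.prime_C_iff.mpr hπ.prime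
  rw [Ideal.Quotient.isDomain_iff_prime]
  exact (Ideal.span_singleton_prime h1.ne_zero).mpr h1

/-- `A[X]/(π)` is a PID (it is `k[X]`, `k = A/π`). -/
theorem isPrincipalIdealRing_quotient' (hπ : Irreducible π) :
    IsPrincipalIdealRing (A[X] ⧸ Ideal.span {(C π : A[X])}) := by
  have hmax : (Ideal.span {π} : Ideal A).IsMaximal := by
    rw [← (IsDiscreteValuationRing.irreducible_iff_uniformizer π).mp hπ]
    infer_instance
  let _ : Field (A ⧸ (Ideal.span {π} : Ideal A)) := Ideal.Quotient.field _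
  have hmap : (Ideal.span {π} : Ideal A).map (C : A →+* A[X]) = Ideal.span {(C π : A[X])} := by
    rw [Ideal.map_span, Set.image_singleton]
  rw [← hmap]
  exact IsPrincipalIdealRing.of_surjective
    (Ideal.polynomialQuotientEquivQuotientPolynomial (Ideal.span {π} : Ideal A)).toRingHom
    (Ideal.polynomialQuotientEquivQuotientPolynomial (Ideal.span {π} : Ideal A)).surjective

variable (E) in
include E in
omit [IsDomain A] [IsDiscreteValuationRing A] in
/-- the structure map `A[X] → L` is injective -/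
theorem faithfulSMul_L : FaithfulSMul A[X] L := by
  rw [faithfulSMul_iff_algebraMap_injective, IsScalarTower.algebraMap_eq A[X] E L]
  exact (algebraMap E L).injective.comp (IsFractionRing.injective A[X] E)

/-- `π O_L` as a submodule. -/
def piOLSubmodule (hπ : Prime π) : Submodule A[X] L where
  carrier := {y | IsPiOL π y}
  add_mem' := fun ha hb => IsPiOL.add hπ ha hb
  zero_mem' := isPiOL_zero hπ
  smul_mem' := fun r _ hy => IsPiOL.smul hy r

variable (E) in
include E in
/-- **(LB)** -/
theorem exists_basis_mod' (hπ : Irreducible π) (Λ : Submodule A[X] L) (hfg : Λ.FG)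
    (hΛ : ∀ y ∈ Λ, IsOL π y) :
    ∃ (m : ℕ) (l : Fin m → L), (∀ j, l j ∈ Λ) ∧
      (∀ y ∈ Λ, ∃ r : Fin m → A[X], IsPiOL π (y - ∑ j, r j • l j)) ∧
      (∀ r : Fin m → A[X], IsPiOL π (∑ j, r j • l j) → ∀ j, C π ∣ r j) := by
  have := isDomain_quotient' hπ
  have := isPrincipalIdealRing_quotient' hπ
  have := faithfulSMul_L (A := A) E (L := L)
  exact exists_basis_mod_aux (C π : A[X]) Λ (piOLSubmodule hπ.prime) hfg
    (fun y hy => (hΛ y hy).C_smul)
    (fun s y _ hs h => IsPiOL.of_smul hπ.prime hs h)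

/-- **(COEF)** -/
theorem isPiOG_of_isPiOL_sum' (hπ : Irreducible π) {m : ℕ} (l : Fin m → L)
    (hind : ∀ r : Fin m → A[X], IsPiOL π (∑ j, r j • l j) → ∀ j, C π ∣ r j)
    (c : Fin m → E) (h : IsPiOL π (∑ j, c j • l j)) : ∀ j, IsPiOG π (c j) := by
  classical
  have hfL := faithfulSMul_L (A := A) E (L := L)
  have hinjL : Function.Injective (algebraMap A[X] L) :=
    (faithfulSMul_iff_algebraMap_injective A[X] L).mp hfL
  have hinjE : Function.Injective (algebraMap A[X] E) := IsFractionRing.injective A[X] E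
  have hP : Prime (C π : A[X]) := Polynomial.prime_C_iff.mpr hπ.prime
  -- common denominator
  obtain ⟨⟨r0, hr0⟩, hr⟩ :=
    IsLocalization.exist_integer_multiples_of_finite (nonZeroDivisors A[X]) c
  choose r hr using hr
  replace hr : ∀ j, algebraMap A[X] E (r j) = r0 • c j := hr
  have hr0ne : r0 ≠ 0 := nonZeroDivisors.ne_zero hr0
  obtain ⟨a, r0', hr0', rfl⟩ := WfDvdMonoid.max_power_factor hr0ne hP.irreducible
  obtain ⟨z, hz, hzeq⟩ := h
  have hsum : ∑ j, r j • l j = (C π ^ (a + 1) * r0') • z := by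
    have h1 : ∀ j, r j • l j = (C π ^ a * r0') • (c j • l j) := by
      intro j
      rw [← algebraMap_smul E (r j) (l j), hr j, smul_assoc]
    rw [Finset.sum_congr rfl fun j _ => h1 j, ← Finset.smul_sum, hzeq, smul_smul]
    congr 1
    ring
  have hcancel : ∀ (s : A[X]) (u v : L), s ≠ 0 → s • u = s • v → u = v := by
    intro s u v hs huv
    rw [Algebra.smul_def, Algebra.smul_def] at huv
    exact mul_left_cancel₀ (by rwa [Ne, map_eq_zero_iff _ hinjL]) huv
  have hdiv : ∀ i, i ≤ a + 1 → ∀ j, C π ^ i ∣ r j := by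
    intro i
    induction i with
    | zero => intro _ j; simp
    | succ i ih =>
      intro hi j
      choose t ht using ih (by omega)
      have h2 : IsPiOL π (∑ j, t j • l j) := by
        have h3 : ∑ j, t j • l j = (C π : A[X]) • ((C π ^ (a - i) * r0') • z) := by
          apply hcancel (C π ^ i) _ _ (pow_ne_zero i hP.ne_zero)
          rw [Finset.smul_sum, smul_smul, smul_smul]
          have h4 : ∀ j, (C π : A[X]) ^ i • t j • l j = r j • l j := by
            intro j
            rw [smul_smul, ← ht j]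
          rw [Finset.sum_congr rfl fun j _ => h4 j, hsum]
          congr 1
          have h5 : a + 1 = i + 1 + (a - i) := by omega
          rw [h5, pow_add, pow_succ]
          have h6 : i + 1 + (a - i) - i = 1 + (a - i) := by omega
          ring_nf
          try simp [h6]
          try ring
        rw [h3]
        exact (hz.smul _).C_smul
      obtain ⟨u, hu⟩ := hind t h2 j
      exact ⟨u, by rw [ht j, hu, pow_succ, mul_assoc]⟩
  intro j
  obtain ⟨t, ht⟩ := hdiv (a + 1) le_rfl j
  have hPE : algebraMap A[X] E (C π) ≠ 0 := by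
    rw [Ne, map_eq_zero_iff _ hinjE]; exact hP.ne_zero
  have hQE : algebraMap A[X] E r0' ≠ 0 := by
    rw [Ne, map_eq_zero_iff _ hinjE]; rintro rfl; exact hr0' (dvd_zero _)
  refine ⟨(algebraMap A[X] E r0')⁻¹ * algebraMap A[X] E t, ⟨r0', t, hr0', ?_⟩, ?_⟩
  · rw [Algebra.smul_def, mul_inv_cancel_left₀ hQE]
  · have h7 := hr j
    rw [ht, Algebra.smul_def, map_mul, map_mul, map_pow, map_pow, pow_succ] at h7
    rw [Algebra.smul_def]
    have h8 : algebraMap A[X] E (C π) ^ a ≠ 0 := pow_ne_zero _ hPE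
    field_simp
    field_simp at h7
    linear_combination -h7

/-- independence modulo `π` implies linear independence over `E`. -/
theorem linearIndependent_of_indep_mod' (hπ : Irreducible π) {m : ℕ} (l : Fin m → L)
    (hind : ∀ r : Fin m → A[X], IsPiOL π (∑ j, r j • l j) → ∀ j, C π ∣ r j) :
    LinearIndependent E l := by
  rw [Fintype.linearIndependent_iff]
  intro c hc j
  by_contra hj
  have h1 : IsPiOL π (∑ i, ((c j)⁻¹ * c i) • l i) := by
    have : ∑ i, ((c j)⁻¹ * c i) • l i = 0 := by
      simp_rw [mul_smul]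
      rw [← Finset.smul_sum, hc, smul_zero]
    rw [this]
    exact isPiOL_zero hπ.prime
  have h2 := isPiOG_of_isPiOL_sum' hπ l hind _ h1 j
  rw [inv_mul_cancel₀ hj, ← map_one (algebraMap A[X] E)] at h2
  have : FaithfulSMul A[X] E :=
    (faithfulSMul_iff_algebraMap_injective A[X] E).mpr (IsFractionRing.injective A[X] E)
  have h3 := (isPiOG_algebraMap_iff hπ.prime 1).mp h2
  exact (Polynomial.prime_C_iff.mpr hπ.prime).not_isUnit (isUnit_of_dvd_one h3)

end Fermat.Agent.Crux.G
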