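import Fermat.Agent.Crux.G.GK

/-!
# Crux / G : connectedness and the Kummer engine from explicit lifts

`conn_of_lifts`  : the second half of the proof of Theorem G: an idempotent `e` of `O_L/π` which lifts
to `M₀` (chart `x`) and to `M_∞` (chart `1/x`) is trivial.  No (H1), no (H2).
`engine_of_lifts`: `GK` with (H1), (H2) replaced by explicit elements `Y0`, `Yinf ≡ 1 mod π` with
`Y^d W` integral in the respective chart.
-/

set_option autoImplicit false
set_option linter.style.haveILetI false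
set_option linter.unusedSectionVars false
set_option linter.unusedVariables false

open Polynomial

namespace Fermat.Agent.Crux.G

/-- **Connectedness from lifts.** -/
theorem conn_of_lifts {A E L : Type*} [CommRing A] [IsDomain A] [IsDiscreteValuationRing A]
    [Field E] [Field L] [CharZero E] [Algebra A E] [Algebra E L] [Algebra A L]
    [IsScalarTower A E L] [FiniteDimensional E L]
    (π : A) (hπ : Irreducible π) (x : E) (hx : Transcendental A x)
    (hgen : ∀ c : E, ∃ p q : A[X], q ≠ 0 ∧ c * aeval x q = aeval x p)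
    (H0 : ∀ z : L, IsIntegral A z → z ∈ Set.range (algebraMap A L))
    (e : L) (he : IsOLx π x e) (hee : IsPiOLx π x (e ^ 2 - e))
    (a b : L) (ha : IntX A x a) (hb : IntX A x⁻¹ b)
    (hae : IsPiOLx π x (a - e)) (hbe : IsPiOLx π x (b - e)) :
    IsPiOLx π x e ∨ IsPiOLx π x (e - 1) := by
  have hx0 : x ≠ 0 := by
    rintro rfl
    exact hx (isAlgebraic_zero)
  have hxi := transcendental_inv hx
  have hgeni := hgen_inv hx hgen
  have hxL : algebraMap E L x ≠ 0 := by simpa using hx0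
  have hbe' : IsPiOLx π x⁻¹ (b - e) := (isPiOLx_inv_iff hπ.prime hx0 _).mpr hbe
  have hπsmul : ∀ u : L, algebraMap E L (algebraMap A E π) * u = π • u := by
    intro u
    rw [Algebra.smul_def, ← IsScalarTower.algebraMap_apply]
  -- hypotheses of `connected_core`
  obtain ⟨r0, μ, -, hμ⟩ := exists_generators (L := L) hx hgen
  obtain ⟨ri, ν, hν, hν'⟩ := exists_generators (L := L) hxi hgeni
  have haa : ∃ a' ∈ Mx A L x, a ^ 2 - a = π • a' := by
    obtain ⟨z, hz, h⟩ := intX_of_smul hπ hx hgen (y := a ^ 2 - a)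
      ((Mx A L x).sub_mem ((Mx A L x).pow_mem ha 2) ha)
      (isPiOLx_sq_sub hπ (IntX.isOLx hπ ha) he hae hee)
    exact ⟨z, hz, by rw [h, hπsmul]⟩
  have hbb : ∃ b' ∈ Mx A L x⁻¹, b ^ 2 - b = π • b' := by
    obtain ⟨z, hz, h⟩ := intX_of_smul hπ hxi hgeni (y := b ^ 2 - b)
      ((Mx A L x⁻¹).sub_mem ((Mx A L x⁻¹).pow_mem hb 2) hb)
      (isPiOLx_sq_sub hπ (IntX.isOLx hπ hb) ((isOLx_inv_iff hπ.prime hx0 e).mpr he) hbe'
        ((isPiOLx_inv_iff hπ.prime hx0 _).mpr hee))
    exact ⟨z, hz, by rw [h, hπsmul]⟩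
  have h0inf : ∀ y ∈ Mx A L x, ∃ N : ℕ, (algebraMap E L x)⁻¹ ^ N * y ∈ Mx A L x⁻¹ := by
    intro y hy
    obtain ⟨N, hN⟩ := exists_intX_inv_pow_mul hx0 (A := A) (y := y) hy
    exact ⟨N, by rw [← map_inv₀]; exact hN⟩
  have hinf0 : ∀ y ∈ Mx A L x⁻¹, ∃ N : ℕ, (algebraMap E L x) ^ N * y ∈ Mx A L x := by
    intro y hy
    obtain ⟨N, hN⟩ := exists_intX_inv_pow_mul (inv_ne_zero hx0) (A := A) (y := y) hy
    rw [inv_inv] at hN
    exact ⟨N, hN⟩
  have hab : ∃ (c : L) (N : ℕ), (algebraMap E L x) ^ N * c ∈ Mx A L x ∧ a - b = π • c := by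
    obtain ⟨N, hN⟩ := hinf0 b hb
    have h1 : IntX A x (algebraMap E L x ^ N * (a - b)) := by
      rw [mul_sub]
      exact (Mx A L x).sub_mem ((Mx A L x).mul_mem ((Mx A L x).pow_mem (intX_self x) N) ha) hN
    have h2 : IsPiOLx π x (a - b) := by
      have : a - b = (a - e) - (b - e) := by ring
      rw [this]
      exact IsPiOLx.sub hπ hae hbe
    obtain ⟨c, hc, h⟩ := intX_of_smul' hπ hx hgen N h1 h2
    exact ⟨c, N, hc, by rw [h, hπsmul]⟩
  obtain ⟨z, hz0, hzinf, a'', ha'', hza⟩ := connected_core π (algebraMap E L x) hxL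
    (Mx A L x) (Mx A L x⁻¹) (intX_self x) (by rw [← map_inv₀]; exact intX_self x⁻¹)
    ⟨r0, μ, hμ⟩ ⟨ri, ν, hν, by rw [← map_inv₀]; exact hν'⟩ h0inf hinf0 a b ha hb haa hbb hab
  -- `z` is a constant
  obtain ⟨c0, rfl⟩ := H0 z (isIntegral_of_intX_of_intX_inv hx hgen hz0 hzinf)
  have hze : IsPiOLx π x (algebraMap A L c0 - e) := by
    have : algebraMap A L c0 - e = (algebraMap A L c0 - a) + (a - e) := by ring
    rw [this, hza]
    exact IsPiOLx.add hπ (isPiOLx_smul (IntX.isOLx hπ ha'')) hae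
  have hzz := isPiOLx_sq_sub hπ (IntX.isOLx hπ hz0) he hze hee
  have h3 : algebraMap A L c0 ^ 2 - algebraMap A L c0 = algebraMap A L (c0 * (c0 - 1)) := by
    rw [map_mul, map_sub, map_one]; ring
  rw [h3] at hzz
  have hmem : ∀ t : A, IsOLx π x (algebraMap A L t) := fun t =>
    IntX.isOLx hπ ((Mx A L x).algebraMap_mem t)
  rcases hπ.prime.dvd_or_dvd (dvd_of_isPiOLx_algebraMap hπ hx hgen hzz) with ⟨c', hc'⟩ | ⟨c', hc'⟩
  · left
    have h4 : IsPiOLx π x (algebraMap A L c0) := by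
      rw [hc', map_mul, ← Algebra.smul_def]
      exact isPiOLx_smul (hmem c')
    have : e = algebraMap A L c0 - (algebraMap A L c0 - e) := by ring
    rw [this]
    exact IsPiOLx.sub hπ h4 hze
  · right
    have h4 : IsPiOLx π x (algebraMap A L c0 - 1) := by
      rw [← map_one (algebraMap A L), ← map_sub, hc', map_mul, ← Algebra.smul_def]
      exact isPiOLx_smul (hmem c')
    have : e - 1 = (algebraMap A L c0 - 1) - (algebraMap A L c0 - e) := by ring
    rw [this]
    exact IsPiOLx.sub hπ h4 hze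

section chart

variable {A : Type*} [CommRing A] [IsDomain A] [IsDiscreteValuationRing A] {π : A}
variable {F L : Type*} [Field F] [Field L]
  [Algebra A[X] F] [Algebra A[X] L] [Algebra F L] [IsScalarTower A[X] F L]

/-- `(d : L)⁻¹` comes from `A`. -/
theorem exists_natCast_inv (hπ : Irreducible π) {d : ℕ} (hd : ¬ π ∣ (d : A)) :
    ∃ u : A, u * (d : A) = 1 := by
  have h1 : (d : A) ∉ IsLocalRing.maximalIdeal A := by
    rw [hπ.maximalIdeal_eq, Ideal.mem_span_singleton]
    exact hd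
  have h2 : IsUnit (d : A) := by
    by_contra h
    exact h1 ((IsLocalRing.mem_maximalIdeal _).2 h)
  obtain ⟨u, hu⟩ := h2.exists_left_inv
  exact ⟨u, hu⟩

theorem natCast_inv_eq {d : ℕ} {u : A} (hu : u * (d : A) = 1) :
    (d : L)⁻¹ = algebraMap A[X] L (C u) := by
  have h1 : algebraMap A[X] L (C u) * (d : L) = 1 := by
    have h2 : (d : L) = algebraMap A[X] L (C (d : A)) := by simp
    rw [h2, ← map_mul, ← C_mul, hu, C_1, map_one]
  exact (eq_inv_of_mul_eq_one_left h1).symm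

/-- the explicit lift of the Kummer idempotent in one chart. -/
theorem kummer_lift (hπ : Irreducible π) (d : ℕ) (hd0 : d ≠ 0) (hd : ¬ π ∣ (d : A))
    (w : L) (W : F) (hw : w ^ d = algebraMap F L W) (hW : IsOL π W)
    (Y : F) (hY : IsIntegral A[X] (Y ^ d * W)) (hY1 : IsPiOL π (Y - 1)) :
    IsIntegral A[X] ((d : L)⁻¹ * ∑ i ∈ Finset.range d, (algebraMap F L Y * w) ^ i) ∧
    IsPiOL π ((d : L)⁻¹ * ∑ i ∈ Finset.range d, (algebraMap F L Y * w) ^ i
      - (d : L)⁻¹ * ∑ i ∈ Finset.range d, w ^ i) := by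
  have hp := hπ.prime
  obtain ⟨u, hu⟩ := exists_natCast_inv hπ hd
  rw [natCast_inv_eq (L := L) hu]
  have hYw : IsIntegral A[X] (algebraMap F L Y * w) := by
    apply IsIntegral.of_pow (Nat.pos_of_ne_zero hd0)
    rw [mul_pow, hw, ← map_pow, ← map_mul]
    exact hY.algebraMap
  have hYOL : IsOL π Y := by
    have : Y = (Y - 1) + 1 := by ring
    rw [this]
    exact hY1.isOL.add hp (isOL_one hp)
  have hYi : ∀ i : ℕ, IsPiOL π (Y ^ i - 1) := by
    intro i
    induction i with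
    | zero => simpa using isPiOL_zero hp
    | succ i ih =>
      have : Y ^ (i + 1) - 1 = Y * (Y ^ i - 1) + (Y - 1) := by ring
      rw [this]
      exact (ih.mul_left hp hYOL).add hp hY1
  have hwOL : IsOL π w := kummer_isOL_w hd0 hw hW
  refine ⟨isIntegral_algebraMap.mul (IsIntegral.sum _ fun i _ => hYw.pow i), ?_⟩
  rw [← mul_sub, ← Finset.sum_sub_distrib]
  refine IsPiOL.mul_left hp (isOL_algebraMap hp _) (IsPiOL.sum hp _ _ fun i _ => ?_)
  have : (algebraMap F L Y * w) ^ i - w ^ i = algebraMap F L (Y ^ i - 1) * w ^ i := by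
    rw [map_sub, map_pow, map_one, mul_pow]; ring
  rw [this]
  exact (hYi i).algebraMap_FL.mul_right hp (hwOL.pow hp i)

end chart

/-- **The Kummer engine from lifts.**  Same as `GK`, with (H1), (H2) replaced by the explicit
elements `Y0`, `Yinf`. -/
theorem engine_of_lifts {A E F L : Type*} [CommRing A] [IsDomain A] [IsDiscreteValuationRing A]
    [Field E] [Field F] [Field L] [CharZero E] [Algebra A E]
    [Algebra E F] [FiniteDimensional E F]
    [Algebra E L] [Algebra A L] [IsScalarTower A E L] [FiniteDimensional E L]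
    [Algebra F L] [IsScalarTower E F L]
    (π : A) (hπ : Irreducible π) (x : E) (hx : Transcendental A x)
    (hgen : ∀ c : E, ∃ p q : A[X], q ≠ 0 ∧ c * aeval x q = aeval x p)
    (d : ℕ) (hd2 : 2 ≤ d) (hdπ : ¬ π ∣ (d : A))
    (W : F) (hW : IsOLx π x W) (hW' : IsOLx π x W⁻¹) (hW1 : IsPiOLx π x (W - 1))
    (w : L) (hw : w ^ d = algebraMap F L W) (hdeg : Module.finrank F L = d)
    (hli : LinearIndependent F (fun j : Fin d => w ^ (j : ℕ)))
    (H0 : ∀ z : L, IsIntegral A z → z ∈ Set.range (algebraMap A L))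
    (Y0 Yinf : F) (h0 : IntX A x (Y0 ^ d * W)) (hinf : IntX A x⁻¹ (Yinf ^ d * W))
    (h01 : IsPiOLx π x (Y0 - 1)) (hinf1 : IsPiOLx π x (Yinf - 1)) : False := by
  have hx0 : x ≠ 0 := by
    rintro rfl
    exact hx (isAlgebraic_zero)
  have hd0 : d ≠ 0 := by omega
  have key : (IsOLx π x ((d : L)⁻¹ * ∑ i ∈ Finset.range d, w ^ i) ∧
      IsPiOLx π x (((d : L)⁻¹ * ∑ i ∈ Finset.range d, w ^ i) ^ 2
        - (d : L)⁻¹ * ∑ i ∈ Finset.range d, w ^ i) ∧
      ¬ IsPiOLx π x ((d : L)⁻¹ * ∑ i ∈ Finset.range d, w ^ i) ∧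
      ¬ IsPiOLx π x ((d : L)⁻¹ * ∑ i ∈ Finset.range d, w ^ i - 1)) := by
    letI := algE (A := A) x
    letI := algL (A := A) F x
    letI := algL (A := A) L x
    haveI := isScalarTower_alg (A := A) (L := F) x
    haveI := isScalarTower_alg (A := A) (L := L) x
    haveI := isScalarTower_algL (A := A) (F := F) (L := L) x
    haveI := isFractionRing_algE hx hgen
    exact kummer_idempotent E hπ d hd2 hdπ w W hw hdeg hli hW hW' hW1
  obtain ⟨he, hee, hne0, hne1⟩ := key
  have l0 : IntX A x ((d : L)⁻¹ * ∑ i ∈ Finset.range d, (algebraMap F L Y0 * w) ^ i) ∧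
      IsPiOLx π x ((d : L)⁻¹ * ∑ i ∈ Finset.range d, (algebraMap F L Y0 * w) ^ i
        - (d : L)⁻¹ * ∑ i ∈ Finset.range d, w ^ i) := by
    letI := algL (A := A) F x
    letI := algL (A := A) L x
    haveI := isScalarTower_algL (A := A) (F := F) (L := L) x
    exact kummer_lift hπ d hd0 hdπ w W hw hW Y0 h0 h01
  have linf : IntX A x⁻¹ ((d : L)⁻¹ * ∑ i ∈ Finset.range d, (algebraMap F L Yinf * w) ^ i) ∧
      IsPiOLx π x⁻¹ ((d : L)⁻¹ * ∑ i ∈ Finset.range d, (algebraMap F L Yinf * w) ^ i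
        - (d : L)⁻¹ * ∑ i ∈ Finset.range d, w ^ i) := by
    have hWi : IsOLx π x⁻¹ W := (isOLx_inv_iff hπ.prime hx0 W).mpr hW
    have hYi : IsPiOLx π x⁻¹ (Yinf - 1) := (isPiOLx_inv_iff hπ.prime hx0 _).mpr hinf1
    letI := algL (A := A) F x⁻¹
    letI := algL (A := A) L x⁻¹
    haveI := isScalarTower_algL (A := A) (F := F) (L := L) x⁻¹
    exact kummer_lift hπ d hd0 hdπ w W hw hWi Yinf hinf hYi
  rcases conn_of_lifts π hπ x hx hgen H0 _ he hee _ _ l0.1 linf.1 l0.2
    ((isPiOLx_inv_iff hπ.prime hx0 _).mp linf.2) with h | h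
  · exact hne0 h
  · exact hne1 h

end Fermat.Agent.Crux.G
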