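import Fermat.Agent.Crux.G.Lifts

/-!
# Crux / G : the Kummer engine from *local* lifts

`exists_lift_of_local` : partition of unity over `M = Mx A F x` (integral closure of `A[x]` in `F`):
if for every maximal ideal `n ∋ π` of `M` there are `s ∈ M \ n` and `y ∈ F` with `y^d W ∈ M`,
`y ≡ s mod π O_F`, then there is `Y` with `Y^d W ∈ M`, `Y ≡ 1 mod π O_F`.

`engine_of_local` : `engine_of_lifts` with the two global lifts replaced by such local data in the
two charts `x`, `x⁻¹`.
-/

set_option autoImplicit false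
set_option linter.style.haveILetI false
set_option linter.unusedSectionVars false
set_option linter.unusedVariables false

open Polynomial

namespace Fermat.Agent.Crux.G

section chart

variable {A : Type*} [CommRing A]
variable {F L : Type*} [Field F] [Field L]
  [Algebra A[X] F] [Algebra A[X] L] [Algebra F L] [IsScalarTower A[X] F L]

/-- the `w`-trick: `{y : y^d W ∈ M}` is stable under addition. -/
theorem isIntegral_add_pow_mul {d : ℕ} (hd : d ≠ 0) {W : F} {w : L}
    (hw : w ^ d = algebraMap F L W) {y₁ y₂ : F} (h₁ : IsIntegral A[X] (y₁ ^ d * W))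
    (h₂ : IsIntegral A[X] (y₂ ^ d * W)) : IsIntegral A[X] ((y₁ + y₂) ^ d * W) := by
  have key : ∀ y : F, IsIntegral A[X] (y ^ d * W) → IsIntegral A[X] (algebraMap F L y * w) := by
    intro y hy
    apply IsIntegral.of_pow (Nat.pos_of_ne_zero hd)
    rw [mul_pow, hw, ← map_pow, ← map_mul]
    exact hy.algebraMap
  have h3 : IsIntegral A[X] ((algebraMap F L y₁ * w + algebraMap F L y₂ * w) ^ d) :=
    ((key y₁ h₁).add (key y₂ h₂)).pow d
  have h4 : (algebraMap F L y₁ * w + algebraMap F L y₂ * w) ^ d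
      = algebraMap F L ((y₁ + y₂) ^ d * W) := by
    rw [← add_mul, mul_pow, hw, ← map_add, ← map_pow, ← map_mul]
  rw [h4] at h3
  exact (isIntegral_algebraMap_iff (algebraMap F L).injective).mp h3

end chart

/-- **Partition of unity**: local lifts give a global lift (one chart). -/
theorem exists_lift_of_local {A E F L : Type*} [CommRing A] [IsDomain A]
    [IsDiscreteValuationRing A] [Field E] [Field F] [Field L] [CharZero E] [Algebra A E]
    [Algebra E F] [FiniteDimensional E F] [Algebra A F] [IsScalarTower A E F]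
    [Algebra E L] [Algebra F L] [IsScalarTower E F L]
    (π : A) (hπ : Irreducible π) (x : E)
    (d : ℕ) (hd : d ≠ 0) (W : F) (w : L) (hw : w ^ d = algebraMap F L W)
    (hloc : ∀ n : Ideal (Mx A F x), n.IsMaximal → algebraMap A (Mx A F x) π ∈ n →
      ∃ (s : Mx A F x) (y : F), s ∉ n ∧ IntX A x (y ^ d * W) ∧ IsPiOLx π x (y - (s : F))) :
    ∃ Y : F, IntX A x (Y ^ d * W) ∧ IsPiOLx π x (Y - 1) := by
  have hzero : IsPiOLx π x (0 : F) := by
    letI := algL (A := A) F x
    exact isPiOL_zero hπ.prime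
  have hint0 : IntX A x ((0 : F) ^ d * W) := by
    rw [zero_pow hd, zero_mul]
    exact (Mx A F x).zero_mem
  let J : Ideal (Mx A F x) :=
    { carrier := {s | ∃ y : F, IntX A x (y ^ d * W) ∧ IsPiOLx π x (y - (s : F))}
      add_mem' := by
        rintro s₁ s₂ ⟨y₁, h₁, h₁'⟩ ⟨y₂, h₂, h₂'⟩
        refine ⟨y₁ + y₂, ?_, ?_⟩
        · letI := algL (A := A) F x
          letI := algL (A := A) L x
          haveI := isScalarTower_algL (A := A) (F := F) (L := L) x
          exact isIntegral_add_pow_mul hd hw h₁ h₂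
        · have : y₁ + y₂ - ((s₁ + s₂ : Mx A F x) : F) = (y₁ - (s₁ : F)) + (y₂ - (s₂ : F)) := by
            push_cast; ring
          rw [this]
          exact IsPiOLx.add hπ h₁' h₂'
      zero_mem' := ⟨0, hint0, by simpa using hzero⟩
      smul_mem' := by
        rintro c s ⟨y, h, h'⟩
        refine ⟨(c : F) * y, ?_, ?_⟩
        · have : ((c : F) * y) ^ d * W = (c : F) ^ d * (y ^ d * W) := by ring
          rw [this]
          exact (Mx A F x).mul_mem ((Mx A F x).pow_mem c.2 d) h
        · have : (c : F) * y - ((c • s : Mx A F x) : F) = (c : F) * (y - (s : F)) := by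
            rw [smul_eq_mul]; push_cast; ring
          rw [this]
          exact IsPiOLx.mul_left hπ (IntX.isOLx hπ c.2) h' }
  have hπJ : algebraMap A (Mx A F x) π ∈ J := by
    refine ⟨0, hint0, ?_⟩
    have h1 : (0 : F) - ((algebraMap A (Mx A F x) π : Mx A F x) : F) = π • (-1 : F) := by
      rw [Algebra.smul_def]
      have : ((algebraMap A (Mx A F x) π : Mx A F x) : F) = algebraMap A F π := rfl
      rw [this]; ring
    rw [h1]
    apply isPiOLx_smul
    have : (-1 : F) = 0 - 1 := by ring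
    rw [this]
    exact IsOLx.sub hπ (IntX.isOLx hπ (Mx A F x).zero_mem) (isOLx_one hπ)
  have htop : J = ⊤ := by
    by_contra hne
    obtain ⟨n, hn, hJn⟩ := Ideal.exists_le_maximal J hne
    obtain ⟨s, y, hs, h, h'⟩ := hloc n hn (hJn hπJ)
    exact hs (hJn ⟨y, h, h'⟩)
  have h1 : (1 : Mx A F x) ∈ J := by rw [htop]; trivial
  obtain ⟨Y, h, h'⟩ := h1
  exact ⟨Y, h, by simpa using h'⟩

/-- **The Kummer engine from local lifts.**  `engine_of_lifts` with the global elements `Y0`, `Yinf`
replaced by local data at the maximal ideals over `π` of the two charts. -/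
theorem engine_of_local {A E F L : Type*} [CommRing A] [IsDomain A] [IsDiscreteValuationRing A]
    [Field E] [Field F] [Field L] [CharZero E] [Algebra A E]
    [Algebra E F] [FiniteDimensional E F] [Algebra A F] [IsScalarTower A E F]
    [Algebra E L] [Algebra A L] [IsScalarTower A E L] [FiniteDimensional E L]
    [Algebra F L] [IsScalarTower E F L]
    (π : A) (hπ : Irreducible π) (x : E) (hx : Transcendental A x)
    (hgen : ∀ c : E, ∃ p q : A[X], q ≠ 0 ∧ c * aeval x q = aeval x p)
    (d : ℕ) (hd2 : 2 ≤ d) (hdπ : ¬ π ∣ (d : A))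
    (W : F) (hW : IsOLx π x W) (hW' : IsOLx π x W⁻¹) (hW1 : IsPiOLx π x (W - 1))
    (w : L) (hw : w ^ d = algebraMap F L W) (hdeg : Module.finrank F L = d)
    (hli : LinearIndependent F (fun j : Fin d => w ^ (j : ℕ)))
    (H0 : ∀ z : L, IsIntegral A z → z ∈ Set.range (algebraMap A L))
    (hloc0 : ∀ n : Ideal (Mx A F x), n.IsMaximal → algebraMap A (Mx A F x) π ∈ n →
      ∃ (s : Mx A F x) (y : F), s ∉ n ∧ IntX A x (y ^ d * W) ∧ IsPiOLx π x (y - (s : F)))
    (hlocinf : ∀ n : Ideal (Mx A F x⁻¹), n.IsMaximal → algebraMap A (Mx A F x⁻¹) π ∈ n →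
      ∃ (s : Mx A F x⁻¹) (y : F), s ∉ n ∧ IntX A x⁻¹ (y ^ d * W) ∧
        IsPiOLx π x⁻¹ (y - (s : F))) : False := by
  have hx0 : x ≠ 0 := by
    rintro rfl
    exact hx (isAlgebraic_zero)
  have hd0 : d ≠ 0 := by omega
  obtain ⟨Y0, h0, h01⟩ := exists_lift_of_local π hπ x d hd0 W w hw hloc0
  obtain ⟨Yinf, hinf, hinf1⟩ := exists_lift_of_local π hπ x⁻¹ d hd0 W w hw hlocinf
  exact engine_of_lifts π hπ x hx hgen d hd2 hdπ W hW hW' hW1 w hw hdeg hli H0 Y0 Yinf h0 hinf h01
    ((isPiOLx_inv_iff hπ.prime hx0 _).mp hinf1)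

end Fermat.Agent.Crux.G
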