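import Mathlib

/-!
# Crux / G : the tame bound for the different, generic Dedekind part

`A ⊆ B` Dedekind domains (AKLB set-up), all residue fields of `A` of characteristic `0`.
* `not_dvd_differentIdeal_of_charZero` : if `p B = P * Q` with `P`, `Q` coprime, `P ≠ ⊤`, then
  `¬ P ∣ differentIdeal A B`  (trace of the CRT idempotent is a non-zero natural number).
* `exists_pow_not_mem_differentIdeal` : for each non-zero prime `P` of `B` there is `n` with
  `(P ∩ A) B ⊆ P ^ n` and `differentIdeal A B ⊄ P ^ n`.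
* `tame_dedekind` : `ε · (B^∨) ⊆ rad(ε B)` if `B / A` is unramified outside `ε`.
* `not_mem_sq_of_reduced` : `B / G B` reduced implies `G ∉ P ^ 2`.
-/

set_option autoImplicit false

namespace Fermat.Agent.Crux.G

open Ideal

section T1
variable (A B : Type*) [CommRing A] [CommRing B] [Algebra A B] [IsDedekindDomain A]
  [IsDedekindDomain B] [Module.IsTorsionFree A B] [Module.Finite A B]

attribute [local instance] FractionRing.liftAlgebra FractionRing.isScalarTower_liftAlgebra
  Ideal.Quotient.field

theorem not_dvd_differentIdeal_of_charZero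
    [Algebra.IsSeparable (FractionRing A) (FractionRing B)]
    {p : Ideal A} [p.IsMaximal] [CharZero (A ⧸ p)] (P Q : Ideal B) (hPQ : IsCoprime P Q)
    (hP : P * Q = Ideal.map (algebraMap A B) p) (hP1 : P ≠ ⊤) :
    ¬ P ∣ differentIdeal A B := by
  obtain ⟨a, ha, x, hxQ, hax⟩ := Ideal.isCoprime_iff_exists.mp hPQ
  refine not_dvd_differentIdeal_of_intTrace_not_mem A P Q hP x hxQ ?_
  rw [← Ideal.Quotient.eq_zero_iff_mem, ← Algebra.trace_quotient_eq_of_isDedekindDomain]
  have hidem : IsIdempotentElem (Ideal.Quotient.mk (p.map (algebraMap A B)) x) := by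
    unfold IsIdempotentElem
    rw [← map_mul, Ideal.Quotient.eq, ← hP]
    have : x * x - x = - (a * x) := by
      have : a = 1 - x := by rw [← hax]; ring
      rw [this]; ring
    rw [this]
    exact neg_mem (Ideal.mul_mem_mul ha hxQ)
  have hne : Ideal.Quotient.mk (p.map (algebraMap A B)) x ≠ 0 := by
    rw [Ne, Ideal.Quotient.eq_zero_iff_mem, ← hP]
    intro h
    apply hP1
    rw [Ideal.eq_top_iff_one, ← hax]
    exact add_mem ha (Ideal.mul_le_left h)
  rw [Algebra.trace_apply]
  have hidem' : IsIdempotentElem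
      (Algebra.lmul (A ⧸ p) (B ⧸ p.map (algebraMap A B)) (Ideal.Quotient.mk _ x)) := by
    unfold IsIdempotentElem
    rw [← map_mul, hidem.eq]
  rw [LinearMap.IsIdempotentElem.trace_eq_zero_iff hidem']
  intro h
  apply hne
  have := congrArg (fun f => f 1) h
  simpa using this

end T1

section T1b
variable (A B : Type*) [CommRing A] [CommRing B] [Algebra A B] [IsDedekindDomain A]
  [IsDedekindDomain B] [Module.IsTorsionFree A B] [Module.Finite A B]

attribute [local instance] FractionRing.liftAlgebra FractionRing.isScalarTower_liftAlgebra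
  Ideal.Quotient.field

theorem exists_pow_not_mem_differentIdeal
    [Algebra.IsSeparable (FractionRing A) (FractionRing B)]
    (hchar : ∀ p : Ideal A, p.IsMaximal → CharZero (A ⧸ p))
    (P : Ideal B) (hPp : P.IsPrime) (hP0 : P ≠ ⊥) :
    ∃ n : ℕ, (∀ a : A, algebraMap A B a ∈ P → algebraMap A B a ∈ P ^ n) ∧
      ∃ δ ∈ differentIdeal A B, δ ∉ P ^ n := by
  have hPmax : P.IsMaximal := hPp.isMaximal hP0
  have hint : Algebra.IsIntegral A B := inferInstance
  set p : Ideal A := P.comap (algebraMap A B) with hp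
  have hpmax : p.IsMaximal := Ideal.isMaximal_comap_of_isIntegral_of_isMaximal P
  have hp0 : p ≠ ⊥ := fun h => hP0 (Ideal.eq_bot_of_comap_eq_bot h)
  have hmap0 : p.map (algebraMap A B) ≠ ⊥ := by
    rw [Ne, Ideal.map_eq_bot_iff_of_injective (FaithfulSMul.algebraMap_injective A B)]
    exact hp0
  have hfin : FiniteMultiplicity P (p.map (algebraMap A B)) :=
    FiniteMultiplicity.of_not_isUnit (by rw [Ideal.isUnit_iff]; exact hPp.ne_top) hmap0
  obtain ⟨Q, hQ, hPQ⟩ := hfin.exists_eq_pow_mul_and_not_dvd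
  set n := multiplicity P (p.map (algebraMap A B)) with hn
  have hn0 : n ≠ 0 := by
    intro h0
    rw [h0, pow_zero, one_mul] at hQ
    apply hPQ
    rw [← hQ, Ideal.dvd_iff_le, Ideal.map_le_iff_le_comap]
  have hcop : IsCoprime (P ^ n) Q := by
    apply IsCoprime.pow_left
    rw [Ideal.isCoprime_iff_sup_eq]
    by_contra hne
    apply hPQ
    rw [Ideal.dvd_iff_le]
    have := hPmax.eq_of_le hne le_sup_left
    calc Q ≤ P ⊔ Q := le_sup_right
      _ = P := this.symm
  have := hchar p hpmax
  have hnd := not_dvd_differentIdeal_of_charZero A B (p := p) (P ^ n) Q hcop hQ.symm (by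
    intro h
    exact hPp.ne_top (by
      rw [Ideal.eq_top_iff_one] at h ⊢
      exact Ideal.pow_le_self hn0 h))
  refine ⟨n, fun a ha => ?_, ?_⟩
  · have : algebraMap A B a ∈ p.map (algebraMap A B) := Ideal.mem_map_of_mem _ ha
    rw [hQ] at this
    exact Ideal.mul_le_left this
  · rw [Ideal.dvd_iff_le] at hnd
    obtain ⟨δ, hδ, hδ'⟩ := SetLike.not_le_iff_exists.mp hnd
    exact ⟨δ, hδ, hδ'⟩

end T1b

section T2

open nonZeroDivisors IsDedekindDomain

variable (A K L B : Type*) [CommRing A] [Field K] [CommRing B] [Field L]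
  [Algebra A K] [Algebra B L] [Algebra A B] [Algebra K L] [Algebra A L]
  [IsScalarTower A K L] [IsScalarTower A B L]
  [IsDedekindDomain A] [IsDedekindDomain B] [IsFractionRing A K] [IsFractionRing B L]
  [FiniteDimensional K L] [Algebra.IsSeparable K L] [IsIntegralClosure B A L]
  [Module.IsTorsionFree A B] [Module.Finite A B]

attribute [local instance] FractionRing.liftAlgebra FractionRing.isScalarTower_liftAlgebra

omit [FiniteDimensional K L] [IsIntegralClosure B A L] in
include K L in
theorem isSeparable_fractionRing_aux :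
    Algebra.IsSeparable (FractionRing A) (FractionRing B) := by
  have H : RingHom.comp (algebraMap (FractionRing A) (FractionRing B))
      ↑(FractionRing.algEquiv A K).symm.toRingEquiv =
        RingHom.comp ↑(FractionRing.algEquiv B L).symm.toRingEquiv (algebraMap K L) := by
    apply IsLocalization.ringHom_ext A⁰
    ext
    simp only [RingHom.coe_comp, RingHom.coe_coe,
      AlgEquiv.coe_ringEquiv, Function.comp_apply, AlgEquiv.commutes,
      ← IsScalarTower.algebraMap_apply]
    rw [IsScalarTower.algebraMap_apply A B L, AlgEquiv.commutes, ← IsScalarTower.algebraMap_apply]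
  exact Algebra.IsSeparable.of_equiv_equiv _ _ H

theorem tame_dedekind
    (hchar : ∀ p : Ideal A, p.IsMaximal → CharZero (A ⧸ p))
    (ε : A)
    (hunr : ∀ P : Ideal B, P.IsPrime → P ≠ ⊥ → algebraMap A B ε ∉ P →
       ∃ g : A, algebraMap A B g ∈ P ∧ algebraMap A B g ∉ P ^ 2)
    (y : L) (hy : ∀ z : B, Algebra.trace K L (y * algebraMap B L z) ∈ (algebraMap A K).range) :
    ∃ w : B, algebraMap B L w = ε • y ∧
      ∀ P : Ideal B, P.IsPrime → algebraMap A B ε ∈ P → w ∈ P := by
  have hsep : Algebra.IsSeparable (FractionRing A) (FractionRing B) :=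
    isSeparable_fractionRing_aux A K L B
  -- Step 1
  have h1 : y ∈ Submodule.traceDual A K (1 : Submodule B L) := by
    rw [Submodule.mem_traceDual]
    intro a ha
    obtain ⟨z, rfl⟩ := Submodule.mem_one.mp ha
    exact hy z
  -- Step 2
  have h2 : ∀ δ ∈ differentIdeal A B, ∃ b : B, algebraMap B L b = algebraMap B L δ * y := by
    intro δ hδ
    have hmem : algebraMap B L δ ∈ IsLocalization.coeSubmodule L (differentIdeal A B) :=
      (IsLocalization.mem_coeSubmodule _ _).mpr ⟨δ, hδ, rfl⟩
    rw [coeSubmodule_differentIdeal A K, Submodule.mem_div_iff_forall_mul_mem] at hmem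
    exact Submodule.mem_one.mp (hmem y h1)
  have hεy : ε • y = algebraMap B L (algebraMap A B ε) * y := by
    rw [Algebra.smul_def, IsScalarTower.algebraMap_apply A B L]
  -- Step 3
  have h3 : ∀ v : HeightOneSpectrum B, v.valuation L (ε • y) ≤ 1 ∧
      (algebraMap A B ε ∈ v.asIdeal → v.valuation L (ε • y) < 1) := by
    intro v
    obtain ⟨n, hn, δ, hδ, hδn⟩ :=
      exists_pow_not_mem_differentIdeal A B hchar v.asIdeal v.isPrime v.ne_bot
    obtain ⟨b, hb⟩ := h2 δ hδ
    have hvb : v.valuation L (algebraMap B L δ) * v.valuation L y ≤ 1 := by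
      rw [← map_mul, ← hb]; exact v.valuation_le_one b
    have hvδ : WithZero.exp (-(n : ℤ)) < v.valuation L (algebraMap B L δ) := by
      rw [HeightOneSpectrum.valuation_of_algebraMap, ← not_le,
        HeightOneSpectrum.intValuation_le_pow_iff_mem]
      exact hδn
    have key : algebraMap A B ε ∈ v.asIdeal → v.valuation L (ε • y) < 1 := by
      intro hε
      have hvε : v.valuation L (algebraMap B L (algebraMap A B ε)) ≤ WithZero.exp (-(n : ℤ)) := by
        rw [HeightOneSpectrum.valuation_of_algebraMap,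
          HeightOneSpectrum.intValuation_le_pow_iff_mem]
        exact hn ε hε
      rw [hεy, map_mul]
      by_cases hy0 : v.valuation L y = 0
      · rw [hy0, mul_zero]; exact zero_lt_one
      · refine lt_of_lt_of_le ?_ hvb
        exact mul_lt_mul_of_pos_right (lt_of_le_of_lt hvε hvδ) (zero_lt_iff.mpr hy0)
    refine ⟨?_, key⟩
    by_cases hε : algebraMap A B ε ∈ v.asIdeal
    · exact (key hε).le
    · obtain ⟨g, hg, hg2⟩ := hunr v.asIdeal v.isPrime v.ne_bot hε
      have hgn := hn g hg
      have hn1 : n ≤ 1 := by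
        by_contra hlt
        exact hg2 (Ideal.pow_le_pow_right (by omega) hgn)
      have hδP : δ ∉ v.asIdeal := by
        intro h
        apply hδn
        interval_cases n
        · simp
        · simpa using h
      have hvδ1 : v.valuation L (algebraMap B L δ) = 1 := by
        apply le_antisymm (v.valuation_le_one δ)
        rw [← not_lt, HeightOneSpectrum.valuation_lt_one_iff_mem]
        exact hδP
      rw [hvδ1, one_mul] at hvb
      rw [hεy, map_mul]
      exact mul_le_one' (v.valuation_le_one _) hvb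
  obtain ⟨w, hw⟩ := HeightOneSpectrum.mem_integers_of_valuation_le_one L (ε • y)
    (fun v => (h3 v).1)
  refine ⟨w, hw, fun P hP hε => ?_⟩
  by_cases hP0 : P = ⊥
  · subst hP0
    have h0 : algebraMap A B ε = 0 := by simpa using hε
    rw [hεy, h0, map_zero, zero_mul] at hw
    have : w = 0 := (map_eq_zero_iff _ (IsFractionRing.injective B L)).mp hw
    rw [this]; exact zero_mem _
  · have := (h3 ⟨P, hP, hP0⟩).2 hε
    rw [← hw] at this
    exact (HeightOneSpectrum.valuation_lt_one_iff_mem (K := L) ⟨P, hP, hP0⟩ w).mp this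

end T2

theorem not_mem_sq_of_reduced {B : Type*} [CommRing B] [IsDedekindDomain B] (P : Ideal B)
    (hP : P.IsPrime) (hP0 : P ≠ ⊥) (G : B) (hG : G ≠ 0)
    (hred : ∀ y z : B, y ^ 2 = G * z → ∃ y', y = G * y') : G ∉ P ^ 2 := by
  intro hmem
  have hdvd : P ^ 2 ∣ Ideal.span {G} := by
    rw [Ideal.dvd_iff_le, Ideal.span_singleton_le_iff_mem]; exact hmem
  obtain ⟨J, hJ⟩ := hdvd
  have hspan0 : Ideal.span {G} ≠ ⊥ := by
    rw [Ne, Ideal.span_singleton_eq_bot]; exact hG
  have hJ0 : J ≠ ⊥ := by
    rintro rfl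
    apply hspan0
    rw [hJ, Ideal.mul_bot]
  have hPJ0 : P * J ≠ 0 := mul_ne_zero hP0 hJ0
  have hex : ¬ (P * J ≤ P ^ 2 * J) := by
    intro hle
    rw [← Ideal.dvd_iff_le] at hle
    have h1 : P * (P * J) ∣ 1 * (P * J) := by
      rw [one_mul]
      convert hle using 1
      ring
    rw [mul_dvd_mul_iff_right hPJ0] at h1
    exact hP.ne_top (Ideal.isUnit_iff.mp (isUnit_of_dvd_one h1))
  obtain ⟨y, hy, hy'⟩ := SetLike.not_le_iff_exists.mp hex
  have hy2 : y ^ 2 ∈ Ideal.span {G} := by
    rw [hJ]
    have h2 : y ^ 2 ∈ (P * J) ^ 2 := Ideal.pow_mem_pow hy 2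
    have h3 : (P * J) ^ 2 = (P ^ 2 * J) * J := by ring
    rw [h3] at h2
    exact Ideal.mul_le_left h2
  obtain ⟨z, hz⟩ := Ideal.mem_span_singleton'.mp hy2
  obtain ⟨y', hy''⟩ := hred y z (by rw [← hz, mul_comm])
  apply hy'
  rw [← hJ, hy'']
  exact Ideal.mul_mem_right _ _ (Ideal.mem_span_singleton_self G)

end Fermat.Agent.Crux.G
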