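import Fermat.Agent.Crux.G.Sat
import Fermat.Agent.Crux.G.TameDed

/-!
# Crux / G : the tame bound for the different in characteristic 0  ((H2) ⇒ (HT))

`K = Frac A`, `A' = K[X]` (a PID, localisation of `A[X]`), `B' =` integral closure of `A'` in `L`
(a Dedekind domain), `IsBK π y ↔ y ∈ B'`.
* T1: for every maximal `𝔓` of `B'` over `p = (g)`, with `p B' = 𝔓^e Q`, `𝔓 ∤ Q`:
  `¬ 𝔓^e ∣ differentIdeal A' B'`.  (Mathlib `not_dvd_differentIdeal_of_intTrace_not_mem` applied to
  the ideals `𝔓^e`, `Q` and the CRT idempotent `x ≡ (1,0)`, whose trace mod `p` is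
  `dim (B'/𝔓^e) ≠ 0` in the char. 0 field `A'/p`.)
* (H2) says `e = 1` for `𝔓 ∤ ε`.
* T2: `y ∈ M^∨` ⇒ `y ∈ (B')^∨ = 𝔇⁻¹`.  For each `𝔓` choose `δ ∈ 𝔇 \ 𝔓^e`; `y δ ∈ B'`;
  with `v = 𝔓`-adic valuation: `v(ε y) = v(ε) v(y δ) / v(δ)` is `< 1` if `𝔓 ∣ ε`, `≤ 1` otherwise.
  So `ε y ∈ B'` and `ε y ∈ 𝔓` for all `𝔓 ∋ X - β`, i.e. `ε y ∈ rad((X - β) B')`.

The generic Dedekind part (T1, T2) is in `TameDed.lean`; here is the dictionary.
-/

set_option autoImplicit false

namespace Fermat.Agent.Crux.G

section Dict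

open Polynomial

variable {A : Type*} [CommRing A] {π : A}
variable {L : Type*} [Field L] [Algebra A[X] L]
variable (A' : Type*) [CommRing A'] [Algebra A[X] A'] (M : Submonoid A[X]) [IsLocalization M A']
  [Algebra A' L] [IsScalarTower A[X] A' L]

theorem isBK_iff_isIntegral (hM : ∀ m ∈ M, ∃ (u : A[X]) (j : ℕ), u * m = (C π) ^ j)
    (hπM : IsUnit (algebraMap A[X] A' (C π))) (y : L) : IsBK π y ↔ IsIntegral A' y := by
  constructor
  · rintro ⟨j, hj⟩
    have h1 : IsIntegral A' ((C π : A[X]) ^ j • y) := hj.tower_top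
    obtain ⟨u, hu⟩ := hπM
    have h2 : y = ((u⁻¹ : A'ˣ) : A') ^ j • ((C π : A[X]) ^ j • y) := by
      rw [← algebraMap_smul A' ((C π : A[X]) ^ j) y, smul_smul, map_pow, ← hu, ← mul_pow]
      simp
    rw [h2]
    exact h1.smul _
  · intro hy
    obtain ⟨m, hm⟩ := IsIntegral.exists_multiple_integral_of_isLocalization M y hy
    obtain ⟨u, j, huj⟩ := hM m m.2
    refine ⟨j, ?_⟩
    rw [← huj, mul_smul]
    exact IsIntegral.smul u hm

end Dict

section Aux

open Polynomial

variable {A : Type*} [CommRing A] [IsDomain A] [UniqueFactorizationMonoid A] {π : A}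
variable {E : Type*} [Field E] [Algebra A[X] E] [IsFractionRing A[X] E] [CharZero E]
variable {L : Type*} [Field L] [Algebra A[X] L] [Algebra E L] [IsScalarTower A[X] E L]
  [FiniteDimensional E L]
variable (A' : Type*) [CommRing A'] [IsDedekindDomain A'] [Algebra A[X] A'] (M : Submonoid A[X])
  [IsLocalization M A'] [Algebra A' E] [IsScalarTower A[X] A' E] [IsFractionRing A' E]
  [Algebra A' L] [IsScalarTower A' E L] [IsScalarTower A[X] A' L]

theorem tame_of_unram_aux (hchar : ∀ p : Ideal A', p.IsMaximal → CharZero (A' ⧸ p))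
    (hM : ∀ m ∈ M, ∃ (u : A[X]) (j : ℕ), u * m = (C π) ^ j)
    (hπM : IsUnit (algebraMap A[X] A' (C π))) (B : Finset A) (H2 : Unram π L B) :
    Tame π E L B := by
  have hBK : ∀ y : L, IsBK π y ↔ IsIntegral A' y := isBK_iff_isIntegral A' M hM hπM
  let B' := integralClosure A' L
  have hsep : Algebra.IsSeparable E L := inferInstance
  have hinjL : Function.Injective (algebraMap A' L) := by
    rw [IsScalarTower.algebraMap_eq A' E L]
    exact (algebraMap E L).injective.comp (IsFractionRing.injective A' E)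
  have hTFL : Module.IsTorsionFree A' L := Module.isTorsionFree_iff_algebraMap_injective.mpr hinjL
  have hDed : IsDedekindDomain B' := integralClosure.isDedekindDomain A' E L
  have hFr : IsFractionRing B' L := integralClosure.isFractionRing_of_finite_extension E L
  have hFin : Module.Finite A' B' := IsIntegralClosure.finite A' E L B'
  have hTF : Module.IsTorsionFree A' B' := inferInstance
  have hinjR : Function.Injective (algebraMap A[X] A') := by
    have : Function.Injective (algebraMap A[X] E) := IsFractionRing.injective A[X] E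
    rw [IsScalarTower.algebraMap_eq A[X] A' E] at this
    exact Function.Injective.of_comp this
  -- the coercion of the image of `r : A[X]` in `B'`
  have hcoe : ∀ (r : A[X]) (t : L), algebraMap B' L (algebraMap A' B' (algebraMap A[X] A' r)) * t
      = r • t := by
    intro r t
    rw [← IsScalarTower.algebraMap_apply A' B' L, ← IsScalarTower.algebraMap_apply A[X] A' L,
      Algebra.smul_def]
  set ε : A[X] := ∏ β ∈ B, (X - C β) with hε
  intro y hy
  -- the trace hypothesis over `B'`
  have hy' : ∀ z : B', Algebra.trace E L (y * algebraMap B' L z) ∈ (algebraMap A' E).range := by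
    intro z
    obtain ⟨j, hj⟩ := (hBK (algebraMap B' L z)).mpr z.2
    obtain ⟨r, hr⟩ := hy _ hj
    rw [mul_smul_comm, LinearMap.map_smul_of_tower] at hr
    obtain ⟨u, hu⟩ := hπM
    refine ⟨((u⁻¹ : A'ˣ) : A') ^ j * algebraMap A[X] A' r, ?_⟩
    rw [map_mul, ← IsScalarTower.algebraMap_apply A[X] A' E, ← hr, Algebra.smul_def,
      IsScalarTower.algebraMap_apply A[X] A' E, ← mul_assoc, ← map_mul, map_pow, ← hu, ← mul_pow]
    simp
  -- unramifiedness
  have hunr : ∀ P : Ideal B', P.IsPrime → P ≠ ⊥ →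
      algebraMap A' B' (algebraMap A[X] A' ε) ∉ P →
      ∃ g : A', algebraMap A' B' g ∈ P ∧ algebraMap A' B' g ∉ P ^ 2 := by
    intro P hP hP0 hεP
    set p : Ideal A' := P.comap (algebraMap A' B') with hp
    have hpp : p.IsPrime := Ideal.comap_isPrime _ _
    have hp0 : p ≠ ⊥ := fun h => hP0 (Ideal.eq_bot_of_comap_eq_bot h)
    set q : Ideal A[X] := p.comap (algebraMap A[X] A') with hq
    have hqp : q.IsPrime := Ideal.comap_isPrime _ _
    have hq0 : q ≠ ⊥ := by
      obtain ⟨a, ha, ha0⟩ := Submodule.exists_mem_ne_zero_of_ne_bot hp0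
      obtain ⟨⟨r, m⟩, hrm⟩ := IsLocalization.surj M a
      intro hbot
      have hr : r ∈ q := by
        rw [hq, Ideal.mem_comap, ← hrm]
        exact Ideal.mul_mem_right _ _ ha
      rw [hbot, Ideal.mem_bot] at hr
      rw [hr, map_zero] at hrm
      rcases mul_eq_zero.mp hrm with h | h
      · exact ha0 h
      · exact (IsLocalization.map_units A' m).ne_zero h
    obtain ⟨g, hgq, hgp⟩ := hqp.exists_mem_prime_of_ne_bot hq0
    refine ⟨algebraMap A[X] A' g, hgq, ?_⟩
    have hg1 : ¬ Associated g (C π) := by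
      rintro ⟨u, hu⟩
      apply hpp.ne_top
      apply Ideal.eq_top_of_isUnit_mem _ _ hπM
      rw [← hu, map_mul]
      exact Ideal.mul_mem_right _ _ hgq
    have hg2 : ∀ β ∈ B, ¬ Associated g (X - C β) := by
      rintro β hβ ⟨u, hu⟩
      apply hεP
      have h1 : (X - C β : A[X]) ∈ q := by
        rw [← hu]; exact Ideal.mul_mem_right _ _ hgq
      have h2 : ε ∈ q := Ideal.mem_of_dvd _ (Finset.dvd_prod_of_mem (fun β => (X - C β : A[X])) hβ) h1
      exact h2
    apply not_mem_sq_of_reduced P hP hP0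
    · rw [Ne, map_eq_zero_iff _ (FaithfulSMul.algebraMap_injective A' B'),
        map_eq_zero_iff _ hinjR]
      exact hgp.ne_zero
    · intro y₁ z₁ hyz
      have h3 : (algebraMap B' L y₁) ^ 2 = g • (algebraMap B' L z₁) := by
        rw [← map_pow, hyz, map_mul, hcoe]
      obtain ⟨y', hy'BK, hy'eq⟩ := H2 g hgp.irreducible hg1 hg2 _ _
        ((hBK _).mpr y₁.2) ((hBK _).mpr z₁.2) h3
      refine ⟨⟨y', (hBK _).mp hy'BK⟩, ?_⟩
      apply IsFractionRing.injective B' L
      rw [map_mul, hcoe]
      exact hy'eq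
  obtain ⟨w, hw, hwP⟩ := tame_dedekind A' E L B' hchar (algebraMap A[X] A' ε) hunr y hy'
  rw [algebraMap_smul] at hw
  refine ⟨?_, ?_⟩
  · rw [← hw]
    exact (hBK _).mpr w.2
  · intro β hβ
    have hrad : w ∈ (Ideal.span {algebraMap A' B' (algebraMap A[X] A' (X - C β))}).radical := by
      rw [Ideal.radical_eq_sInf, Ideal.mem_sInf]
      rintro J ⟨hJ, hJp⟩
      apply hwP J hJp
      rw [Ideal.span_singleton_le_iff_mem] at hJ
      refine Ideal.mem_of_dvd _ ?_ hJ
      exact map_dvd _ (map_dvd _ (Finset.dvd_prod_of_mem (fun β => (X - C β : A[X])) hβ))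
    obtain ⟨m, hm⟩ := hrad
    obtain ⟨z, hz⟩ := Ideal.mem_span_singleton'.mp hm
    refine ⟨m, algebraMap B' L z, (hBK _).mpr z.2, ?_⟩
    rw [← hw, ← map_pow, ← hz, mul_comm, map_mul, hcoe]

end Aux

section Final

open Polynomial nonZeroDivisors

variable {A : Type*} [CommRing A] [IsDomain A] [IsDiscreteValuationRing A] {π : A}
variable {E : Type*} [Field E] [Algebra A[X] E] [IsFractionRing A[X] E] [CharZero E]
variable {L : Type*} [Field L] [Algebra A[X] L] [Algebra E L] [IsScalarTower A[X] E L]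
  [FiniteDimensional E L]

attribute [local instance] Polynomial.algebra

/-- **(H2) ⇒ (HT).** -/
theorem tame_of_unram (hπ : Irreducible π) (B : Finset A) (H2 : Unram π L B) :
    Tame π E L B := by
  let K := FractionRing A
  let M : Submonoid A[X] := Submonoid.map (C : A →+* A[X]) A⁰
  have hloc : IsLocalization M K[X] := Polynomial.isLocalization A⁰ K
  have hunits : ∀ m : M, IsUnit (algebraMap A[X] E m) := by
    rintro ⟨_, a, ha, rfl⟩
    apply IsUnit.mk0
    rw [Ne, map_eq_zero_iff _ (IsFractionRing.injective A[X] E)]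
    exact C_ne_zero.mpr (nonZeroDivisors.ne_zero ha)
  let algE : Algebra K[X] E := (IsLocalization.lift (M := M) (S := K[X]) hunits).toAlgebra
  have tw1 : IsScalarTower A[X] K[X] E :=
    IsScalarTower.of_algebraMap_eq (fun r => (IsLocalization.lift_eq hunits r).symm)
  have : IsFractionRing K[X] E :=
    IsFractionRing.isFractionRing_of_isDomain_of_isLocalization M K[X] E
  let algL : Algebra K[X] L := ((algebraMap E L).comp (algebraMap K[X] E)).toAlgebra
  have tw2 : IsScalarTower K[X] E L := IsScalarTower.of_algebraMap_eq (fun _ => rfl)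
  have tw3 : IsScalarTower A[X] K[X] L := IsScalarTower.of_algebraMap_eq (fun r => by
    rw [IsScalarTower.algebraMap_apply A[X] E L, IsScalarTower.algebraMap_apply A[X] K[X] E]
    rfl)
  have hcharA : CharZero A := ((algebraMap A[X] E).comp (C : A →+* A[X])).charZero
  have hcharK : CharZero K := inferInstance
  refine tame_of_unram_aux (π := π) K[X] M ?_ ?_ ?_ B H2
  · intro p hp
    let : Algebra ℚ K := DivisionRing.toRatAlgebra
    have : Nontrivial (K[X] ⧸ p) := Ideal.Quotient.nontrivial_iff.mpr hp.ne_top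
    exact algebraRat.charZero (K[X] ⧸ p)
  · rintro _ ⟨a, ha, rfl⟩
    obtain ⟨j, u, hu⟩ := IsDiscreteValuationRing.eq_unit_mul_pow_irreducible
      (nonZeroDivisors.ne_zero ha) hπ
    refine ⟨C ((u⁻¹ : Aˣ) : A), j, ?_⟩
    rw [hu]
    show C ((u⁻¹ : Aˣ) : A) * C ((u : A) * π ^ j) = C π ^ j
    rw [← C_mul, ← mul_assoc, Units.inv_mul, one_mul, C_pow]
  · have h1 : algebraMap A[X] K[X] (C π) = C (algebraMap A K π) := by
      simp [Polynomial.algebraMap_def]
    rw [h1]
    apply Polynomial.isUnit_C.mpr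
    apply IsUnit.mk0
    rw [Ne, map_eq_zero_iff _ (IsFractionRing.injective A K)]
    exact hπ.ne_zero

end Final

end Fermat.Agent.Crux.G
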