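import Fermat.Agent.Crux.G.Sat

/-!
# Crux / G : comparison of the charts `X ↦ x` and `X ↦ x⁻¹`

Key tool: `Polynomial.eval₂_reverse_mul_pow` : `s(x) = (reverse s)(x⁻¹) * x ^ natDegree s`, and
`C π ∣ p ↔ ∀ n, π ∣ p.coeff n` (`Polynomial.C_dvd_iff_dvd_coeff`).
-/

set_option autoImplicit false
set_option linter.style.haveILetI false
set_option linter.unusedSectionVars false
set_option linter.unusedVariables false

open Polynomial

namespace Fermat.Agent.Crux.G

variable {A : Type*} [CommRing A] [IsDomain A]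
variable {E : Type*} [Field E] [Algebra A E]
variable {L : Type*} [Field L] [Algebra E L]

/-! ### auxiliary lemmas -/

omit [IsDomain A] in
/-- `s(x) = (reflect N s)(x⁻¹) * x ^ N` for `N ≥ deg s`. -/
theorem aeval_eq_aeval_inv_reflect {x : E} (hx0 : x ≠ 0) {N : ℕ} {s : A[X]}
    (hs : s.natDegree ≤ N) : aeval x s = aeval x⁻¹ (reflect N s) * x ^ N := by
  letI := invertibleOfNonzero hx0
  have := eval₂_reflect_mul_pow (algebraMap A E) x N s hs
  rw [invOf_eq_inv] at this
  simp only [aeval_def]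
  exact this.symm

omit [IsDomain A] in
/-- `s(x) * x⁻¹ ^ N = (reflect N s)(x⁻¹)` for `N ≥ deg s`. -/
theorem aeval_mul_inv_pow {x : E} (hx0 : x ≠ 0) {N : ℕ} {s : A[X]}
    (hs : s.natDegree ≤ N) : aeval x s * x⁻¹ ^ N = aeval x⁻¹ (reflect N s) := by
  rw [aeval_eq_aeval_inv_reflect hx0 hs, mul_assoc, ← mul_pow, mul_inv_cancel₀ hx0, one_pow,
    mul_one]

omit [IsDomain A] in
theorem C_dvd_reflect_iff (π : A) (N : ℕ) (s : A[X]) : C π ∣ reflect N s ↔ C π ∣ s := by
  constructor
  · rintro ⟨t, ht⟩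
    refine ⟨reflect N t, ?_⟩
    rw [← reflect_C_mul, ← ht, reflect_reflect]
  · rintro ⟨t, rfl⟩
    exact ⟨reflect N t, reflect_C_mul _ _ _⟩

omit [IsDomain A] in
theorem intX_iff (x : E) (y : L) :
    IntX A x y ↔ ∃ p : A[X][X], p.Monic ∧
      eval₂ ((algebraMap E L).comp ((aeval x : A[X] →ₐ[A] E) : A[X] →+* E)) y p = 0 :=
  Iff.rfl

omit [IsDomain A] in
theorem algL_smul_def (x : E) (s : A[X]) (y : L) :
    (letI := algL (A := A) L x; s • y) = algebraMap E L (aeval x s) * y := by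
  letI := algL (A := A) L x
  rw [Algebra.smul_def]
  rfl

omit [IsDomain A] in
theorem algE_smul_def (x : E) (s : A[X]) (c : E) :
    (letI := algE (A := A) x; s • c) = aeval x s * c := by
  letI := algE (A := A) x
  rw [Algebra.smul_def]
  rfl

omit [IsDomain A] in
theorem isOLx_iff (π : A) (x : E) (y : L) :
    IsOLx π x y ↔ ∃ s : A[X], ¬ C π ∣ s ∧ IntX A x (algebraMap E L (aeval x s) * y) := by
  unfold IsOLx IsOL IntX
  simp only [algL_smul_def]

omit [IsDomain A] in
theorem isPiOLx_iff (π : A) (x : E) (y : L) :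
    IsPiOLx π x y ↔ ∃ z : L, IsOLx π x z ∧ y = algebraMap E L (algebraMap A E π) * z := by
  unfold IsPiOLx IsPiOL IsOLx
  simp only [algL_smul_def, aeval_C]

omit [IsDomain A] in
theorem isOGx_iff (π : A) (x : E) (c : E) :
    IsOGx π x c ↔ ∃ s r : A[X], ¬ C π ∣ s ∧ aeval x s * c = aeval x r := by
  unfold IsOGx IsOG
  simp only [algE_smul_def]
  rfl

omit [IsDomain A] in
theorem isPiOGx_iff (π : A) (x : E) (c : E) :
    IsPiOGx π x c ↔ ∃ c' : E, IsOGx π x c' ∧ c = algebraMap A E π * c' := by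
  unfold IsPiOGx IsPiOG IsOGx
  simp only [algE_smul_def, aeval_C]

omit [IsDomain A] in
theorem IntX.mul {x : E} {y z : L} (hy : IntX A x y) (hz : IntX A x z) : IntX A x (y * z) := by
  letI := algL (A := A) L x
  exact IsIntegral.mul hy hz

omit [IsDomain A] in
theorem IntX.pow {x : E} {y : L} (hy : IntX A x y) (n : ℕ) : IntX A x (y ^ n) := by
  letI := algL (A := A) L x
  exact IsIntegral.pow hy n

/-! ### (a) instances for a chart -/

theorem isScalarTower_alg (x : E) :
    letI := algE (A := A) x; letI := algL (A := A) L x; IsScalarTower A[X] E L := by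
  letI := algE (A := A) x
  letI := algL (A := A) L x
  exact IsScalarTower.of_algebraMap_eq (fun _ => rfl)

theorem isFractionRing_algE {x : E} (hx : Transcendental A x)
    (hgen : ∀ c : E, ∃ p q : A[X], q ≠ 0 ∧ c * aeval x q = aeval x p) :
    letI := algE (A := A) x; IsFractionRing A[X] E := by
  letI := algE (A := A) x
  have hinj : Function.Injective (algebraMap A[X] E) :=
    transcendental_iff_injective.mp hx
  refine ⟨?_, ?_, ?_⟩
  · rintro ⟨q, hq⟩
    have hq0 : q ≠ 0 := nonZeroDivisors.ne_zero hq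
    exact isUnit_iff_ne_zero.mpr (fun h => hq0 (hinj (by rw [h, map_zero])))
  · intro c
    obtain ⟨p, q, hq, h⟩ := hgen c
    exact ⟨(p, ⟨q, mem_nonZeroDivisors_of_ne_zero hq⟩), h⟩
  · intro a b hab
    exact ⟨1, by rw [hinj hab]⟩

theorem transcendental_inv {x : E} (hx : Transcendental A x) : Transcendental A x⁻¹ :=
  fun h => hx (IsAlgebraic.inv_iff.mp h)

theorem hgen_inv {x : E} (hx : Transcendental A x)
    (hgen : ∀ c : E, ∃ p q : A[X], q ≠ 0 ∧ c * aeval x q = aeval x p) :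
    ∀ c : E, ∃ p q : A[X], q ≠ 0 ∧ c * aeval x⁻¹ q = aeval x⁻¹ p := by
  intro c
  have hx0 : x ≠ 0 := fun h => hx (h ▸ isAlgebraic_zero)
  obtain ⟨p, q, hq, h⟩ := hgen c
  refine ⟨reflect (max p.natDegree q.natDegree) p, reflect (max p.natDegree q.natDegree) q,
    by simpa using hq, ?_⟩
  rw [← aeval_mul_inv_pow hx0 (le_max_left _ _), ← aeval_mul_inv_pow hx0 (le_max_right _ _),
    ← mul_assoc, h]

/-! ### (b) `M0 → Minf`: `y` integral over `A[x]` ⇒ `x⁻ᴺ y` integral over `A[x⁻¹]` -/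

/-- (e.g. `IsIntegral.exists_multiple_integral_of_isLocalization` for `A[T;T⁻¹]` over `A[X]`,
or directly: multiply the integral equation by `x^(-N r)`.) -/
theorem exists_intX_inv_pow_mul {x : E} (hx0 : x ≠ 0) {y : L} (hy : IntX A x y) :
    ∃ N : ℕ, IntX A x⁻¹ (algebraMap E L x⁻¹ ^ N * y) := by
  obtain ⟨p, hp, hpy⟩ := (intX_iff x y).mp hy
  set N : ℕ := p.support.sup (fun i => (p.coeff i).natDegree) with hN
  have hNle : ∀ i, (p.coeff i).natDegree ≤ N := by
    intro i
    by_cases hi : i ∈ p.support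
    · exact Finset.le_sup (f := fun i => (p.coeff i).natDegree) hi
    · rw [notMem_support_iff.mp hi]; simp
  refine ⟨N, ?_⟩
  set f0 : A[X] →+* E := ((aeval x : A[X] →ₐ[A] E) : A[X] →+* E) with hf0
  set finf : A[X] →+* E := ((aeval x⁻¹ : A[X] →ₐ[A] E) : A[X] →+* E) with hfinf
  set pE : E[X] := p.map f0 with hpE
  have hpEm : pE.Monic := hp.map _
  have hpEy : eval₂ (algebraMap E L) y pE = 0 := by
    rw [hpE, eval₂_map]; exact hpy
  set q : E[X] := scaleRoots pE (x⁻¹ ^ N) with hq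
  have hqm : q.Monic := (monic_scaleRoots_iff _).mpr hpEm
  have hqy : eval₂ (algebraMap E L) (algebraMap E L (x⁻¹ ^ N) * y) q = 0 :=
    scaleRoots_eval₂_eq_zero _ hpEy
  have hlift : q ∈ lifts finf := by
    rw [lifts_iff_coeff_lifts]
    intro i
    rw [hq, coeff_scaleRoots]
    rcases lt_trichotomy i pE.natDegree with hi | hi | hi
    · refine ⟨reflect N (p.coeff i) * X ^ (N * (pE.natDegree - i - 1)), ?_⟩
      have h1 : pE.natDegree - i = 1 + (pE.natDegree - i - 1) := by omega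
      have h2 : pE.coeff i = aeval x (p.coeff i) := by rw [hpE, coeff_map]; rfl
      rw [h2]
      show aeval x⁻¹ (reflect N (p.coeff i) * X ^ (N * (pE.natDegree - i - 1))) = _
      rw [map_mul, ← aeval_mul_inv_pow hx0 (hNle i), map_pow, aeval_X]
      conv_rhs => rw [h1, pow_add, pow_one, ← pow_mul]
      ring
    · refine ⟨1, ?_⟩
      rw [hi, Nat.sub_self, pow_zero, mul_one, map_one]
      exact hpEm.coeff_natDegree.symm
    · refine ⟨0, ?_⟩
      rw [coeff_eq_zero_of_natDegree_lt hi, zero_mul, map_zero]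
  obtain ⟨q', hq', -, hq'm⟩ := lifts_and_natDegree_eq_and_monic hlift hqm
  rw [intX_iff]
  refine ⟨q', hq'm, ?_⟩
  rw [← eval₂_map, hq', ← map_pow]
  exact hqy

theorem intX_self (x : E) : IntX A x (algebraMap E L x) := by
  letI := algL (A := A) L x
  have h : algebraMap A[X] L X = algebraMap E L x := by
    show algebraMap E L (aeval x X) = _
    rw [aeval_X]
  show IsIntegral A[X] (algebraMap E L x)
  rw [← h]
  exact isIntegral_algebraMap

/-! ### (c) `O_L`, `O_G` do not depend on the chart -/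

theorem isOLx_inv_of {π : A} (hπ : Prime π) {x : E} (hx0 : x ≠ 0) {y : L}
    (h : IsOLx π x y) : IsOLx π x⁻¹ y := by
  obtain ⟨s, hs, hint⟩ := (isOLx_iff π x y).mp h
  obtain ⟨N, hN⟩ := exists_intX_inv_pow_mul hx0 hint
  rw [isOLx_iff]
  refine ⟨X ^ N * reflect s.natDegree s, ?_, ?_⟩
  · have hCπ : Prime (C π : A[X]) := prime_C_iff.mpr hπ
    intro hd
    rcases hCπ.dvd_or_dvd hd with h1 | h1
    · have h2 := hCπ.dvd_of_dvd_pow h1
      have h3 := (C_dvd_iff_dvd_coeff _ _).mp h2 1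
      rw [coeff_X_one] at h3
      exact hπ.not_isUnit (isUnit_of_dvd_one h3)
    · exact hs ((C_dvd_reflect_iff _ _ _).mp h1)
  · have h1 := ((intX_self (A := A) (L := L) x⁻¹).pow s.natDegree).mul hN
    have h2 : algebraMap E L (aeval x⁻¹ (X ^ N * reflect s.natDegree s)) * y =
        algebraMap E L x⁻¹ ^ s.natDegree *
          (algebraMap E L x⁻¹ ^ N * (algebraMap E L (aeval x s) * y)) := by
      rw [map_mul, ← aeval_mul_inv_pow hx0 le_rfl, map_pow, aeval_X]
      simp only [map_mul, map_pow]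
      ring
    rw [h2]
    exact h1

theorem isOLx_inv_iff {π : A} (hπ : Prime π) {x : E} (hx0 : x ≠ 0) (y : L) :
    IsOLx π x⁻¹ y ↔ IsOLx π x y := by
  constructor
  · intro h
    have := isOLx_inv_of hπ (inv_ne_zero hx0) h
    rwa [inv_inv] at this
  · exact isOLx_inv_of hπ hx0

theorem isPiOLx_inv_iff {π : A} (hπ : Prime π) {x : E} (hx0 : x ≠ 0) (y : L) :
    IsPiOLx π x⁻¹ y ↔ IsPiOLx π x y := by
  simp only [isPiOLx_iff, isOLx_inv_iff hπ hx0]

omit [IsDomain A] in
theorem isOGx_inv_of {π : A} {x : E} (hx0 : x ≠ 0) {c : E}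
    (h : IsOGx π x c) : IsOGx π x⁻¹ c := by
  obtain ⟨s, r, hs, hsr⟩ := (isOGx_iff π x c).mp h
  rw [isOGx_iff]
  refine ⟨reflect (max s.natDegree r.natDegree) s, reflect (max s.natDegree r.natDegree) r,
    fun hd => hs ((C_dvd_reflect_iff _ _ _).mp hd), ?_⟩
  rw [← aeval_mul_inv_pow hx0 (le_max_left _ _), ← aeval_mul_inv_pow hx0 (le_max_right _ _),
    ← hsr]
  ring

theorem isOGx_inv_iff {π : A} (hπ : Prime π) {x : E} (hx0 : x ≠ 0) (c : E) :
    IsOGx π x⁻¹ c ↔ IsOGx π x c := by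
  constructor
  · intro h
    have := isOGx_inv_of (inv_ne_zero hx0) h
    rwa [inv_inv] at this
  · exact isOGx_inv_of hx0

theorem isPiOGx_inv_iff {π : A} (hπ : Prime π) {x : E} (hx0 : x ≠ 0) (c : E) :
    IsPiOGx π x⁻¹ c ↔ IsPiOGx π x c := by
  simp only [isPiOGx_iff, isOGx_inv_iff hπ hx0]

omit [IsDomain A] in
theorem tracePerfectx_iff (π : A) (x : E) :
    TracePerfectx L π x ↔ ∀ y : L, IsOLx π x y →
      (∀ z : L, IsOLx π x z → IsPiOGx π x (Algebra.trace E L (y * z))) → IsPiOLx π x y :=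
  Iff.rfl

theorem tracePerfectx_inv {π : A} (hπ : Prime π) {x : E} (hx0 : x ≠ 0)
    (h : TracePerfectx L π x) : TracePerfectx L π x⁻¹ := by
  rw [tracePerfectx_iff] at h ⊢
  simpa only [isOLx_inv_iff hπ hx0, isPiOLx_inv_iff hπ hx0, isPiOGx_inv_iff hπ hx0] using h

/-! ### (d) `M0 ∩ Minf` is integral over `A` -/

/-- `A[x] ∩ A[x⁻¹] = A`. -/
theorem eq_C_of_aeval_eq_aeval_inv {x : E} (hx : Transcendental A x) {p q : A[X]}
    (h : aeval x p = aeval x⁻¹ q) : ∃ a : A, p = C a ∧ q = C a := by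
  have hx0 : x ≠ 0 := fun h => hx (h ▸ isAlgebraic_zero)
  have hinj : Function.Injective (aeval x : A[X] →ₐ[A] E) := transcendental_iff_injective.mp hx
  have hinj' : Function.Injective (aeval x⁻¹ : A[X] →ₐ[A] E) :=
    transcendental_iff_injective.mp (transcendental_inv hx)
  set d := q.natDegree with hd
  have h1 : p * X ^ d = reflect d q := by
    apply hinj
    have h2 := aeval_mul_inv_pow (A := A) (inv_ne_zero hx0) (N := d) (s := q) le_rfl
    rw [inv_inv] at h2
    rw [map_mul, map_pow, aeval_X, h, h2]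
  have hp : p = C (p.coeff 0) := by
    ext i
    rcases Nat.eq_zero_or_pos i with rfl | hi
    · simp
    · have h3 : (p * X ^ d).coeff (i + d) = p.coeff i := coeff_mul_X_pow p d i
      rw [h1, coeff_reflect, revAt_eq_self_of_lt (by omega),
        coeff_eq_zero_of_natDegree_lt (by omega)] at h3
      rw [← h3, coeff_C, if_neg hi.ne']
  refine ⟨p.coeff 0, hp, ?_⟩
  apply hinj'
  rw [← h, aeval_C]
  conv_lhs => rw [hp]
  rw [aeval_C]

/-- The minimal polynomial of `z` over `E` has coefficients in `A[x] ∩ A[x⁻¹] = A`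
(`minpoly.isIntegrallyClosed_eq_field_fractions` in both charts). -/
theorem isIntegral_of_intX_of_intX_inv [IsIntegrallyClosed A] [Algebra A L] [IsScalarTower A E L]
    [FiniteDimensional E L] {x : E} (hx : Transcendental A x)
    (hgen : ∀ c : E, ∃ p q : A[X], q ≠ 0 ∧ c * aeval x q = aeval x p)
    {z : L} (h0 : IntX A x z) (hinf : IntX A x⁻¹ z) : IsIntegral A z := by
  -- a general statement for one chart
  have key : ∀ {x : E} (_ : Transcendental A x)
      (_ : ∀ c : E, ∃ p q : A[X], q ≠ 0 ∧ c * aeval x q = aeval x p) (_ : IntX A x z),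
      ∀ i, ∃ r : A[X], (minpoly E z).coeff i = aeval x r := by
    intro x hx hgen h0 i
    letI := algE (A := A) x
    letI := algL (A := A) L x
    haveI := isScalarTower_alg (A := A) (L := L) x
    haveI := isFractionRing_algE hx hgen
    have h0' : IsIntegral A[X] z := h0
    have := minpoly.isIntegrallyClosed_eq_field_fractions' E h0'
    refine ⟨(minpoly A[X] z).coeff i, ?_⟩
    rw [this, coeff_map]
    rfl
  have hlift : minpoly E z ∈ lifts (algebraMap A E) := by
    rw [lifts_iff_coeff_lifts]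
    intro i
    obtain ⟨r, hr⟩ := key hx hgen h0 i
    obtain ⟨r', hr'⟩ := key (transcendental_inv hx) (hgen_inv hx hgen) hinf i
    obtain ⟨a, ha, -⟩ := eq_C_of_aeval_eq_aeval_inv hx (hr.symm.trans hr')
    exact ⟨a, by rw [hr, ha, aeval_C]⟩
  have hzE : IsIntegral E z := Algebra.IsIntegral.isIntegral z
  obtain ⟨P, hP, -, hPm⟩ := lifts_and_natDegree_eq_and_monic hlift (minpoly.monic hzE)
  refine ⟨P, hPm, ?_⟩
  have h1 : eval₂ (algebraMap E L) z (P.map (algebraMap A E)) = 0 := by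
    rw [hP]; exact minpoly.aeval E z
  rw [eval₂_map, ← IsScalarTower.algebraMap_eq] at h1
  exact h1

end Fermat.Agent.Crux.G
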