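import Fermat.Agent.Crux.G.Chart
import Fermat.Agent.Crux.G.Tame
import Fermat.Agent.Crux.G.Conn
import Fermat.Agent.Crux.G.TwoCharts

set_option autoImplicit false
set_option linter.style.haveILetI false
set_option linter.unusedSectionVars false
set_option linter.unusedVariables false

open Polynomial

namespace Fermat.Agent.Crux.G

section wrappers

variable {A E L : Type*} [CommRing A] [IsDomain A] [IsDiscreteValuationRing A]
    [Field E] [Field L] [CharZero E] [Algebra A E] [Algebra E L]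
    [FiniteDimensional E L]

/-- chart theorem in the chart `X ↦ x`. -/
theorem chartx {π : A} (hπ : Irreducible π) {x : E} (hx : Transcendental A x)
    (hgen : ∀ c : E, ∃ p q : A[X], q ≠ 0 ∧ c * aeval x q = aeval x p)
    (H1 : TracePerfectx L π x) (B : Finset A)
    (hB : ∀ β ∈ B, ∀ β' ∈ B, π ∣ β - β' → β = β') (H2 : Unramx L π x B)
    (e : L) (he : IsOLx π x e) (hee : IsPiOLx π x (e ^ 2 - e)) :
    ∃ a : L, IntX A x a ∧ IsPiOLx π x (a - e) := by
  letI := algE (A := A) x
  letI := algL (A := A) L x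
  haveI := isScalarTower_alg (A := A) (L := L) x
  haveI := isFractionRing_algE hx hgen
  exact chart hπ B hB H1 (tame_of_unram hπ B H2) e he hee

theorem smul_eq_x (x : E) (p : A[X]) (y : L) :
    (letI := algL (A := A) L x; p • y) = algebraMap E L (aeval x p) * y := by
  letI := algL (A := A) L x
  rw [Algebra.smul_def]
  rfl

/-- saturation in the chart `X ↦ x`: `y ∈ M ∩ π O_L` ⇒ `y ∈ π M`. -/
theorem intX_of_smul {π : A} (hπ : Irreducible π) {x : E} (hx : Transcendental A x)
    (hgen : ∀ c : E, ∃ p q : A[X], q ≠ 0 ∧ c * aeval x q = aeval x p)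
    {y : L} (hy : IntX A x y) (hy' : IsPiOLx π x y) :
    ∃ z : L, IntX A x z ∧ y = algebraMap E L (algebraMap A E π) * z := by
  letI := algE (A := A) x
  letI := algL (A := A) L x
  haveI := isScalarTower_alg (A := A) (L := L) x
  haveI := isFractionRing_algE hx hgen
  obtain ⟨z, hz, rfl⟩ := hy'
  refine ⟨z, isIntegral_of_isOL_of_isBK E hπ.prime hz ⟨1, by rw [pow_one]; exact hy⟩, ?_⟩
  rw [smul_eq_x, aeval_C]

/-- `y ∈ π O_L`, `x^N y ∈ M` ⇒ `y = π c`, `x^N c ∈ M`. -/
theorem intX_of_smul' {π : A} (hπ : Irreducible π) {x : E} (hx : Transcendental A x)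
    (hgen : ∀ c : E, ∃ p q : A[X], q ≠ 0 ∧ c * aeval x q = aeval x p)
    {y : L} (N : ℕ) (hy : IntX A x (algebraMap E L x ^ N * y)) (hy' : IsPiOLx π x y) :
    ∃ c : L, IntX A x (algebraMap E L x ^ N * c) ∧ y = algebraMap E L (algebraMap A E π) * c := by
  letI := algE (A := A) x
  letI := algL (A := A) L x
  haveI := isScalarTower_alg (A := A) (L := L) x
  haveI := isFractionRing_algE hx hgen
  obtain ⟨z, hz, rfl⟩ := hy'
  have hXN : ∀ u : L, algebraMap E L x ^ N * u = (X ^ N : A[X]) • u := by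
    intro u
    rw [smul_eq_x, map_pow, aeval_X, map_pow]
  refine ⟨z, ?_, by rw [smul_eq_x, aeval_C]⟩
  rw [hXN]
  refine isIntegral_of_isOL_of_isBK E hπ.prime (hz.smul _) ⟨1, ?_⟩
  rw [pow_one, smul_comm, ← hXN]
  exact hy

theorem IsPiOLx.add {π : A} (hπ : Irreducible π) {x : E} {y z : L} (hy : IsPiOLx π x y)
    (hz : IsPiOLx π x z) : IsPiOLx π x (y + z) := by
  letI := algL (A := A) L x
  exact IsPiOL.add hπ.prime hy hz

theorem IsPiOLx.sub {π : A} (hπ : Irreducible π) {x : E} {y z : L} (hy : IsPiOLx π x y)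
    (hz : IsPiOLx π x z) : IsPiOLx π x (y - z) := by
  letI := algL (A := A) L x
  exact IsPiOL.sub hπ.prime hy hz

theorem IsPiOLx.mul_left {π : A} (hπ : Irreducible π) {x : E} {y z : L} (hz : IsOLx π x z)
    (hy : IsPiOLx π x y) : IsPiOLx π x (z * y) := by
  letI := algL (A := A) L x
  exact IsPiOL.mul_left hπ.prime hz hy

theorem IsOLx.add {π : A} (hπ : Irreducible π) {x : E} {y z : L} (hy : IsOLx π x y)
    (hz : IsOLx π x z) : IsOLx π x (y + z) := by
  letI := algL (A := A) L x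
  exact IsOL.add hπ.prime hy hz

theorem IsOLx.sub {π : A} (hπ : Irreducible π) {x : E} {y z : L} (hy : IsOLx π x y)
    (hz : IsOLx π x z) : IsOLx π x (y - z) := by
  letI := algL (A := A) L x
  exact IsOL.sub hπ.prime hy hz

theorem IntX.isOLx {π : A} (hπ : Irreducible π) {x : E} {y : L} (hy : IntX A x y) :
    IsOLx π x y := by
  letI := algL (A := A) L x
  exact IsOL.of_isIntegral hπ.prime hy

theorem isOLx_one {π : A} (hπ : Irreducible π) {x : E} : IsOLx π x (1 : L) := by
  letI := algL (A := A) L x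
  exact isOL_one hπ.prime

/-- if `a ≡ e` and `e² ≡ e` then `a² ≡ a` (mod `π O_L`). -/
theorem isPiOLx_sq_sub {π : A} (hπ : Irreducible π) {x : E} {a e : L} (ha : IsOLx π x a)
    (he : IsOLx π x e) (hae : IsPiOLx π x (a - e)) (hee : IsPiOLx π x (e ^ 2 - e)) :
    IsPiOLx π x (a ^ 2 - a) := by
  have h1 : a ^ 2 - a = (a + e - 1) * (a - e) + (e ^ 2 - e) := by ring
  rw [h1]
  exact IsPiOLx.add hπ (IsPiOLx.mul_left hπ (IsOLx.sub hπ (IsOLx.add hπ ha he) (isOLx_one hπ)) hae)
    hee

theorem isPiOLx_smul [Algebra A L] [IsScalarTower A E L] {π : A} {x : E} {u : L}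
    (hu : IsOLx π x u) : IsPiOLx π x (π • u) := by
  refine ⟨u, hu, ?_⟩
  rw [smul_eq_x, aeval_C, Algebra.smul_def, ← IsScalarTower.algebraMap_apply]

theorem dvd_of_isPiOLx_algebraMap [Algebra A L] [IsScalarTower A E L] {π : A}
    (hπ : Irreducible π) {x : E} (hx : Transcendental A x)
    (hgen : ∀ c : E, ∃ p q : A[X], q ≠ 0 ∧ c * aeval x q = aeval x p) {t : A}
    (h : IsPiOLx π x (algebraMap A L t)) : π ∣ t := by
  letI := algE (A := A) x
  letI := algL (A := A) L x
  haveI := isScalarTower_alg (A := A) (L := L) x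
  haveI := isFractionRing_algE hx hgen
  have h1 : algebraMap A L t = algebraMap A[X] L (C t) := by
    show _ = algebraMap E L (aeval x (C t))
    rw [aeval_C, ← IsScalarTower.algebraMap_apply]
  rw [h1] at h
  have h2 := (isPiOL_algebraMap_iff E hπ.prime (C t)).mp h
  simpa using (C_dvd_iff_dvd_coeff _ _).mp h2 0

/-- The subalgebra `M(x)` of elements of `L` integral over `A[x]`. -/
def Mx (A : Type*) {E : Type*} (L : Type*) [CommRing A] [Field E] [Field L] [Algebra A E]
    [Algebra E L] [Algebra A L] [IsScalarTower A E L] (x : E) : Subalgebra A L :=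
  letI := algL (A := A) L x
  { carrier := {y | IsIntegral A[X] y}
    mul_mem' := fun ha hb => IsIntegral.mul ha hb
    add_mem' := fun ha hb => IsIntegral.add ha hb
    algebraMap_mem' := fun r => by
      have : algebraMap A L r = algebraMap A[X] L (C r) := by
        show _ = algebraMap E L (aeval x (C r))
        rw [aeval_C, ← IsScalarTower.algebraMap_apply]
      rw [Set.mem_ofPred_eq, this]
      exact isIntegral_algebraMap }

theorem mem_Mx [Algebra A L] [IsScalarTower A E L] {x : E} {y : L} :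
    y ∈ Mx A L x ↔ IntX A x y := Iff.rfl

/-- finite generation of `M(x)` over `A[x]`. -/
theorem exists_generators [Algebra A L] [IsScalarTower A E L] {x : E} (hx : Transcendental A x)
    (hgen : ∀ c : E, ∃ p q : A[X], q ≠ 0 ∧ c * aeval x q = aeval x p) :
    ∃ (r : ℕ) (μ : Fin r → L), (∀ c, μ c ∈ Mx A L x) ∧
      ∀ y ∈ Mx A L x, ∃ p : Fin r → A[X], y = ∑ a, aeval (algebraMap E L x) (p a) * μ a := by
  letI := algE (A := A) x
  letI := algL (A := A) L x
  haveI := isScalarTower_alg (A := A) (L := L) x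
  haveI := isFractionRing_algE hx hgen
  obtain ⟨S, hS⟩ := integralClosure_fg (A := A) E (L := L)
  classical
  refine ⟨S.card, fun i => (S.equivFin.symm i : L), ?_, ?_⟩
  · intro c
    have : ((S.equivFin.symm c : S) : L) ∈ Submodule.span A[X] (S : Set L) :=
      Submodule.subset_span (S.equivFin.symm c).2
    rw [hS] at this
    exact this
  · intro y hy
    have hy' : y ∈ Submodule.span A[X] (S : Set L) := by
      rw [hS]; exact hy
    have hr : (S : Set L) = Set.range (fun i : Fin S.card => ((S.equivFin.symm i : S) : L)) := by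
      ext u
      constructor
      · intro hu
        exact ⟨S.equivFin ⟨u, hu⟩, by simp⟩
      · rintro ⟨i, rfl⟩
        exact (S.equivFin.symm i).2
    rw [hr, Submodule.mem_span_range_iff_exists_fun] at hy'
    obtain ⟨p, hp⟩ := hy'
    refine ⟨p, ?_⟩
    rw [← hp]
    refine Finset.sum_congr rfl fun i _ => ?_
    rw [smul_eq_x, aeval_algebraMap_apply]

end wrappers

/-- **Theorem G.**  `A` a DVR with uniformiser `π`, `E = Frac A[x]` a rational function field,
`L/E` finite, char. 0.  Assume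
(H0) `A` is integrally closed in `L`;
(H1) the trace form of `O_L` is nondegenerate mod `π`;
(H2) `L/E` is unramified outside `B0 ∪ {1/β : β ∈ Binf}`, and the elements of `B0`
  (resp. `Binf`) are pairwise incongruent mod `π`.
Then `O_L / π O_L` has no idempotents except `0` and `1`. -/
theorem theoremG {A E L : Type*} [CommRing A] [IsDomain A] [IsDiscreteValuationRing A]
    [Field E] [Field L] [CharZero E] [Algebra A E] [Algebra E L] [Algebra A L]
    [IsScalarTower A E L] [FiniteDimensional E L]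
    (π : A) (hπ : Irreducible π) (x : E) (hx : Transcendental A x)
    (hgen : ∀ c : E, ∃ p q : A[X], q ≠ 0 ∧ c * aeval x q = aeval x p)
    (H0 : ∀ z : L, IsIntegral A z → z ∈ Set.range (algebraMap A L))
    (H1 : TracePerfectx L π x)
    (B0 Binf : Finset A)
    (hB0 : ∀ β ∈ B0, ∀ β' ∈ B0, π ∣ β - β' → β = β')
    (hBinf : ∀ β ∈ Binf, ∀ β' ∈ Binf, π ∣ β - β' → β = β')
    (H2 : Unramx L π x B0) (H2' : Unramx L π x⁻¹ Binf)
    (e : L) (he : IsOLx π x e) (hee : IsPiOLx π x (e ^ 2 - e)) :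
    IsPiOLx π x e ∨ IsPiOLx π x (e - 1) := by
  have hx0 : x ≠ 0 := by
    rintro rfl
    exact hx (isAlgebraic_zero)
  have hxi := transcendental_inv hx
  have hgeni := hgen_inv hx hgen
  have hxL : algebraMap E L x ≠ 0 := by simpa using hx0
  -- the two charts
  obtain ⟨a, ha, hae⟩ := chartx hπ hx hgen H1 B0 hB0 H2 e he hee
  obtain ⟨b, hb, hbe'⟩ := chartx hπ hxi hgeni (tracePerfectx_inv hπ.prime hx0 H1) Binf hBinf H2' e
    ((isOLx_inv_iff hπ.prime hx0 e).mpr he) ((isPiOLx_inv_iff hπ.prime hx0 _).mpr hee)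
  have hbe : IsPiOLx π x (b - e) := (isPiOLx_inv_iff hπ.prime hx0 _).mp hbe'
  have hπsmul : ∀ u : L, algebraMap E L (algebraMap A E π) * u = π • u := by
    intro u
    rw [Algebra.smul_def, ← IsScalarTower.algebraMap_apply]
  -- hypotheses of `connected_core`
  obtain ⟨r0, μ, -, hμ⟩ := exists_generators (L := L) hx hgen
  obtain ⟨ri, ν, hν, hν'⟩ := exists_generators (L := L) hxi hgeni
  have haa : ∃ a' ∈ Mx A L x, a ^ 2 - a = π • a' := by
    obtain ⟨z, hz, h⟩ := intX_of_smul hπ hx hgen (y := a ^ 2 - a)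
      ((Mx A L x).sub_mem ((Mx A L x).pow_mem ha 2) ha)
      (isPiOLx_sq_sub hπ (IntX.isOLx hπ ha) he hae hee)
    exact ⟨z, hz, by rw [h, hπsmul]⟩
  have hbb : ∃ b' ∈ Mx A L x⁻¹, b ^ 2 - b = π • b' := by
    obtain ⟨z, hz, h⟩ := intX_of_smul hπ hxi hgeni (y := b ^ 2 - b)
      ((Mx A L x⁻¹).sub_mem ((Mx A L x⁻¹).pow_mem hb 2) hb)
      (isPiOLx_sq_sub hπ (IntX.isOLx hπ hb) ((isOLx_inv_iff hπ.prime hx0 e).mpr he) hbe'
        ((isPiOLx_inv_iff hπ.prime hx0 _).mpr hee))
    exact ⟨z, hz, by rw [h, hπsmul]⟩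
  have h0inf : ∀ y ∈ Mx A L x, ∃ N : ℕ, (algebraMap E L x)⁻¹ ^ N * y ∈ Mx A L x⁻¹ := by
    intro y hy
    obtain ⟨N, hN⟩ := exists_intX_inv_pow_mul hx0 (A := A) (y := y) hy
    exact ⟨N, by rw [← map_inv₀]; exact hN⟩
  have hinf0 : ∀ y ∈ Mx A L x⁻¹, ∃ N : ℕ, (algebraMap E L x) ^ N * y ∈ Mx A L x := by
    intro y hy
    obtain ⟨N, hN⟩ := exists_intX_inv_pow_mul (inv_ne_zero hx0) (A := A) (y := y) hy
    rw [inv_inv] at hN
    exact ⟨N, hN⟩
  have hab : ∃ (c : L) (N : ℕ), (algebraMap E L x) ^ N * c ∈ Mx A L x ∧ a - b = π • c := by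
    obtain ⟨N, hN⟩ := hinf0 b hb
    have h1 : IntX A x (algebraMap E L x ^ N * (a - b)) := by
      rw [mul_sub]
      exact (Mx A L x).sub_mem ((Mx A L x).mul_mem ((Mx A L x).pow_mem (intX_self x) N) ha) hN
    have h2 : IsPiOLx π x (a - b) := by
      have : a - b = (a - e) - (b - e) := by ring
      rw [this]
      exact IsPiOLx.sub hπ hae hbe
    obtain ⟨c, hc, h⟩ := intX_of_smul' hπ hx hgen N h1 h2
    exact ⟨c, N, hc, by rw [h, hπsmul]⟩
  obtain ⟨z, hz0, hzinf, a'', ha'', hza⟩ := connected_core π (algebraMap E L x) hxL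
    (Mx A L x) (Mx A L x⁻¹) (intX_self x) (by rw [← map_inv₀]; exact intX_self x⁻¹)
    ⟨r0, μ, hμ⟩ ⟨ri, ν, hν, by rw [← map_inv₀]; exact hν'⟩ h0inf hinf0 a b ha hb haa hbb hab
  -- `z` is a constant
  obtain ⟨c0, rfl⟩ := H0 z (isIntegral_of_intX_of_intX_inv hx hgen hz0 hzinf)
  have hze : IsPiOLx π x (algebraMap A L c0 - e) := by
    have : algebraMap A L c0 - e = (algebraMap A L c0 - a) + (a - e) := by ring
    rw [this, hza]
    exact IsPiOLx.add hπ (isPiOLx_smul (IntX.isOLx hπ ha'')) hae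
  have hzz := isPiOLx_sq_sub hπ (IntX.isOLx hπ hz0) he hze hee
  have h3 : algebraMap A L c0 ^ 2 - algebraMap A L c0 = algebraMap A L (c0 * (c0 - 1)) := by
    rw [map_mul, map_sub, map_one]; ring
  rw [h3] at hzz
  have hmem : ∀ t : A, IsOLx π x (algebraMap A L t) := fun t =>
    IntX.isOLx hπ ((Mx A L x).algebraMap_mem t)
  rcases hπ.prime.dvd_or_dvd (dvd_of_isPiOLx_algebraMap hπ hx hgen hzz) with ⟨c', hc'⟩ | ⟨c', hc'⟩
  · left
    have h4 : IsPiOLx π x (algebraMap A L c0) := by
      rw [hc', map_mul, ← Algebra.smul_def]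
      exact isPiOLx_smul (hmem c')
    have : e = algebraMap A L c0 - (algebraMap A L c0 - e) := by ring
    rw [this]
    exact IsPiOLx.sub hπ h4 hze
  · right
    have h4 : IsPiOLx π x (algebraMap A L c0 - 1) := by
      rw [← map_one (algebraMap A L), ← map_sub, hc', map_mul, ← Algebra.smul_def]
      exact isPiOLx_smul (hmem c')
    have : e - 1 = (algebraMap A L c0 - 1) - (algebraMap A L c0 - e) := by ring
    rw [this]
    exact IsPiOLx.sub hπ h4 hze

end Fermat.Agent.Crux.G
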