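import Fermat.Agent.Crux.G.GK

/-!
# Crux / G : (P6) the `q`-link from connectedness

Chart level.  `O_L/π O_L` is reduced by (H1); if it has no nontrivial idempotents then every element
of `O_L` is either in `π O_L` or a unit modulo `π`  (`isPiOL_or_exists_unit`).
Consequently any ring homomorphism `τ : L → Ω` which is compatible with a "reduction"
`red : O → κ`, `inc : O ↪ Ω` on `A[X]` detects `O_L` and `π O_L`:
`τ y ∈ V' = {g/h : red h ≠ 0}  ⇒  y ∈ O_L`, and `τ y ∈ m_{V'} ⇒ y ∈ π O_L`.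
-/

set_option autoImplicit false
set_option linter.unusedSectionVars false
set_option linter.unusedVariables false
set_option linter.style.haveILetI false

open Polynomial

namespace Fermat.Agent.Crux.G

namespace QLink

section chart

variable {A : Type*} [CommRing A] [IsDomain A] [IsDiscreteValuationRing A] {π : A}
variable {E : Type*} [Field E] [Algebra A[X] E] [IsFractionRing A[X] E] [CharZero E]
variable {L : Type*} [Field L] [Algebra A[X] L] [Algebra E L] [IsScalarTower A[X] E L]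
  [FiniteDimensional E L]

/-- a matrix over `A[X]` which is nilpotent modulo `π` has trace divisible by `π`. -/
theorem C_dvd_trace_of_pow (hπ : Irreducible π) {n : ℕ} (Z : Matrix (Fin n) (Fin n) A[X]) (N : ℕ)
    (h : ∀ j k, C π ∣ (Z ^ N) j k) : C π ∣ Z.trace := by
  haveI := isDomain_quotient (A := A) hπ
  set φ : A[X] →+* A[X] ⧸ Ideal.span {(C π : A[X])} := Ideal.Quotient.mk _ with hφ
  have hpow : (φ.mapMatrix Z) ^ N = 0 := by
    rw [← map_pow]
    ext j k
    simp only [RingHom.mapMatrix_apply, Matrix.map_apply, Matrix.zero_apply]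
    exact Ideal.Quotient.eq_zero_iff_mem.2 (Ideal.mem_span_singleton.2 (h j k))
  have hnil : IsNilpotent (φ.mapMatrix Z).trace :=
    Matrix.isNilpotent_trace_of_isNilpotent ⟨N, hpow⟩
  have h0 : (φ.mapMatrix Z).trace = 0 := hnil.eq_zero
  have h1 : φ Z.trace = 0 := by
    rw [← h0]
    simp [Matrix.trace, RingHom.mapMatrix_apply, map_sum]
  exact Ideal.mem_span_singleton.1 (Ideal.Quotient.eq_zero_iff_mem.1 h1)

/-- the trace of an element of `O_L` which is nilpotent modulo `π` lies in `π O_G`. -/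
theorem isPiOG_trace_of_pow (hπ : Irreducible π) {w : L} (hw : IsOL π w) (N : ℕ)
    (hN : IsPiOL π (w ^ N)) : IsPiOG π (Algebra.trace E L w) := by
  have hp : Prime π := hπ.prime
  haveI : FaithfulSMul A[X] E := (faithfulSMul_iff_algebraMap_injective _ _).2
    (IsFractionRing.injective A[X] E)
  obtain ⟨n, b, s, hb, hs, hspan, hind⟩ := exists_pkg (E := E) (L := L) hπ
  obtain ⟨s0, hs0, hint⟩ := hw
  have hs' : ¬ C π ∣ s := fun h => Sat.not_dvd_one hp (by
    have := dvd_sub h hs
    simpa using this)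
  have hss : ¬ C π ∣ s * s0 := Sat.not_dvd_mul hp hs' hs0
  set w' : L := (s * s0) • w with hw'
  have hw'OL : IsOL π w' := by
    rw [hw', mul_smul]
    exact (IsOL.of_isIntegral hp hint).smul s
  have hex : ∀ j, ∃ r : Fin n → A[X], ∑ k, r k • b k = w' * b j := by
    intro j
    have h1 := hspan _ (hint.mul (hb j))
    obtain ⟨r, hr⟩ := (Submodule.mem_span_range_iff_exists_fun A[X]).mp h1
    refine ⟨r, ?_⟩
    rw [hr, hw', mul_smul, smul_mul_assoc, smul_mul_assoc, smul_mul_assoc]
  choose Z hZ using hex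
  let Zm : Matrix (Fin n) (Fin n) A[X] := Matrix.of Z
  have hZ' : ∀ j, IsPiOL π (w' * b j - ∑ k, Zm j k • b k) := by
    intro j
    have : w' * b j - ∑ k, Zm j k • b k = 0 := by
      rw [sub_eq_zero]
      exact (hZ j).symm
    rw [this]
    exact isPiOL_zero hp
  have hw'N : IsPiOL π (w' ^ N) := by
    rw [hw', _root_.smul_pow]
    exact hN.smul _
  have hdvd : ∀ j k, C π ∣ (Zm ^ N) j k := by
    intro j
    apply hind
    have h1 := isPiOL_pow_mul_sub hp b w' hw'OL Zm hZ' N j
    have h2 : IsPiOL π (w' ^ N * b j) := hw'N.mul_right hp (IsOL.of_isIntegral hp (hb j))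
    have := h2.sub hp h1
    simpa using this
  have htr : C π ∣ Zm.trace := C_dvd_trace_of_pow hπ Zm N hdvd
  have h3 := isPiOG_trace_sub hπ b hind w' Zm hZ'
  have h4 : IsPiOG π (algebraMap A[X] E Zm.trace) := (isPiOG_algebraMap_iff hp _).2 htr
  have h5 : IsPiOG π (Algebra.trace E L w') := by
    have := h3.add hp h4
    simpa using this
  rw [hw', Sat.trace_smul] at h5
  exact h5.of_smul hp hss

/-- (H1) implies that `O_L / π O_L` is reduced. -/
theorem isPiOL_of_pow (hπ : Irreducible π) (H1 : TracePerfect π E L) {z : L} (hz : IsOL π z)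
    (N : ℕ) (hN : IsPiOL π (z ^ N)) : IsPiOL π z := by
  have hp : Prime π := hπ.prime
  refine H1 z hz fun w hw => ?_
  refine isPiOG_trace_of_pow hπ (hz.mul hp hw) N ?_
  rw [mul_pow]
  exact hN.mul_right hp (hw.pow hp N)

theorem isOL_aeval (hπ : Prime π) {z : L} (hz : IsOL π z) (Q : A[X][X]) : IsOL π (aeval z Q) := by
  rw [aeval_eq_sum_range]
  exact IsOL.sum hπ _ _ fun i _ => (hz.pow hπ i).smul _

variable (E) in
include E in
/-- from a polynomial relation modulo `π` with a coefficient prime to `π`. -/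
theorem exists_pow_rel (hπ : Prime π) {z : L} (hz : IsOL π z) :
    ∀ (i : ℕ) (Q : A[X][X]) (j : ℕ), ¬ C π ∣ Q.coeff i → IsPiOL π (z ^ j * aeval z Q) →
      ∃ (m : ℕ) (u : L), IsOL π u ∧ IsPiOL π (z ^ m - z ^ (m + 1) * u) := by
  haveI hF : FaithfulSMul A[X] L := s1_faithfulSMul E
  have hsplit : ∀ Q : A[X][X], aeval z Q = aeval z Q.divX * z + algebraMap A[X] L (Q.coeff 0) := by
    intro Q
    conv_lhs => rw [← divX_mul_X_add Q]
    simp
  have base : ∀ (Q : A[X][X]) (j : ℕ), ¬ C π ∣ Q.coeff 0 → IsPiOL π (z ^ j * aeval z Q) →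
      ∃ (m : ℕ) (u : L), IsOL π u ∧ IsPiOL π (z ^ m - z ^ (m + 1) * u) := by
    intro Q j h0 h
    have hα : algebraMap A[X] L (Q.coeff 0) ≠ 0 := by
      rw [Ne, map_eq_zero_iff _ (FaithfulSMul.algebraMap_injective A[X] L)]
      exact Sat.ne_zero_of_not_dvd h0
    refine ⟨j, -((algebraMap A[X] L (Q.coeff 0))⁻¹ * aeval z Q.divX), ?_, ?_⟩
    · refine IsOL.of_smul hπ h0 ?_
      have : Q.coeff 0 • -((algebraMap A[X] L (Q.coeff 0))⁻¹ * aeval z Q.divX)
          = -aeval z Q.divX := by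
        rw [Algebra.smul_def]
        field_simp
      rw [this]
      exact (isOL_aeval hπ hz _).neg
    · refine IsPiOL.of_smul hπ h0 ?_
      have : Q.coeff 0 • (z ^ j - z ^ (j + 1) *
          -((algebraMap A[X] L (Q.coeff 0))⁻¹ * aeval z Q.divX)) = z ^ j * aeval z Q := by
        rw [Algebra.smul_def, hsplit Q]
        field_simp
        ring
      rw [this]
      exact h
  intro i
  induction i with
  | zero => exact base
  | succ i ih =>
    intro Q j hi h
    by_cases h0 : C π ∣ Q.coeff 0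
    · refine ih Q.divX (j + 1) (by rwa [coeff_divX]) ?_
      obtain ⟨a, ha⟩ := h0
      have h1 : IsPiOL π (z ^ j * algebraMap A[X] L (Q.coeff 0)) := by
        refine IsPiOL.mul_left hπ (hz.pow hπ j) ⟨algebraMap A[X] L a, isOL_algebraMap hπ a, ?_⟩
        rw [ha, map_mul, Algebra.smul_def]
      have h2 := h.sub hπ h1
      have : z ^ j * aeval z Q - z ^ j * algebraMap A[X] L (Q.coeff 0)
          = z ^ (j + 1) * aeval z Q.divX := by
        rw [hsplit Q]; ring
      rwa [this] at h2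
    · exact base Q j h0 h

/-- **Dichotomy.** If `O_L/π` is connected (and (H1) holds), every element of `O_L` is `0` or a unit
modulo `π`. -/
theorem isPiOL_or_exists_unit (hπ : Irreducible π) (H1 : TracePerfect π E L)
    (hconn : ∀ e : L, IsOL π e → IsPiOL π (e ^ 2 - e) → IsPiOL π e ∨ IsPiOL π (e - 1))
    {z : L} (hz : IsOL π z) : IsPiOL π z ∨ ∃ u : L, IsOL π u ∧ IsPiOL π (z * u - 1) := by
  have hp : Prime π := hπ.prime
  obtain ⟨m, u, hu, hrel⟩ : ∃ (m : ℕ) (u : L), IsOL π u ∧ IsPiOL π (z ^ m - z ^ (m + 1) * u) := by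
    obtain ⟨s, hs, p, hmonic, hp0⟩ := id hz
    refine exists_pow_rel E hp hz p.natDegree (p.comp (C s * X)) 0 ?_ ?_
    · rw [comp_C_mul_X_coeff, hmonic.coeff_natDegree, one_mul]
      exact Sat.not_dvd_pow hp hs _
    · have : aeval z (p.comp (C s * X)) = 0 := by
        rw [aeval_comp]
        have h1 : aeval z (C s * X : A[X][X]) = s • z := by
          simp [Algebra.smul_def]
        rw [h1]
        exact hp0
      rw [this, mul_zero]
      exact isPiOL_zero hp
  set t : L := z * u with ht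
  have htOL : IsOL π t := hz.mul hp hu
  have hk : ∀ k : ℕ, IsPiOL π (z ^ m - z ^ m * t ^ k) := by
    intro k
    induction k with
    | zero => simpa using isPiOL_zero hp
    | succ k ih =>
      have : z ^ m - z ^ m * t ^ (k + 1)
          = (z ^ m - z ^ (m + 1) * u) + t * (z ^ m - z ^ m * t ^ k) := by
        rw [ht]; ring
      rw [this]
      exact hrel.add hp (ih.mul_left hp htOL)
  have hee : IsPiOL π ((t ^ m) ^ 2 - t ^ m) := by
    have : (t ^ m) ^ 2 - t ^ m = -(u ^ m * (z ^ m - z ^ m * t ^ m)) := by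
      rw [ht]; ring
    rw [this]
    exact ((hk m).mul_left hp (hu.pow hp m)).neg
  rcases hconn (t ^ m) (htOL.pow hp m) hee with h | h
  · left
    refine isPiOL_of_pow hπ H1 hz m ?_
    have : z ^ m = (z ^ m - z ^ m * t ^ m) + z ^ m * t ^ m := by ring
    rw [this]
    exact (hk m).add hp (h.mul_left hp (hz.pow hp m))
  · right
    cases m with
    | zero =>
      refine ⟨u, hu, ?_⟩
      have : z * u - 1 = -(z ^ 0 - z ^ (0 + 1) * u) := by ring
      rw [this]
      exact hrel.neg
    | succ m =>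
      refine ⟨u * t ^ m, hu.mul hp (htOL.pow hp m), ?_⟩
      have : z * (u * t ^ m) - 1 = t ^ (m + 1) - 1 := by
        rw [ht]; ring
      rw [this]
      exact h

end chart

/-! ### The local ring `V' = {g/h : red h ≠ 0}` -/

section val

variable {Ω O κ : Type*} [Field Ω] [CommRing O] [Field κ] (inc : O →+* Ω) (red : O →+* κ)

/-- `a ∈ V'`. -/
def InV (a : Ω) : Prop := ∃ g h : O, red h ≠ 0 ∧ a * inc h = inc g

/-- `a ∈ m_{V'}`. -/
def InM (a : Ω) : Prop := ∃ g h : O, red h ≠ 0 ∧ red g = 0 ∧ a * inc h = inc g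

variable {inc red}

theorem InM.inV {a : Ω} (h : InM inc red a) : InV inc red a := by
  obtain ⟨g, h, h1, -, h2⟩ := h
  exact ⟨g, h, h1, h2⟩

theorem inV_inc (g : O) : InV inc red (inc g) := ⟨g, 1, by simp, by simp⟩

theorem inM_inc {g : O} (hg : red g = 0) : InM inc red (inc g) := ⟨g, 1, by simp, hg, by simp⟩

theorem InV.mul {a b : Ω} (ha : InV inc red a) (hb : InV inc red b) : InV inc red (a * b) := by
  obtain ⟨g, h, h1, h2⟩ := ha
  obtain ⟨g', h', h1', h2'⟩ := hb
  refine ⟨g * g', h * h', by rw [map_mul]; exact mul_ne_zero h1 h1', ?_⟩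
  rw [map_mul, map_mul, ← h2, ← h2']; ring

theorem InV.add {a b : Ω} (ha : InV inc red a) (hb : InV inc red b) : InV inc red (a + b) := by
  obtain ⟨g, h, h1, h2⟩ := ha
  obtain ⟨g', h', h1', h2'⟩ := hb
  refine ⟨g * h' + g' * h, h * h', by rw [map_mul]; exact mul_ne_zero h1 h1', ?_⟩
  rw [map_mul, map_add, map_mul, map_mul, ← h2, ← h2']; ring

theorem InV.neg {a : Ω} (ha : InV inc red a) : InV inc red (-a) := by
  obtain ⟨g, h, h1, h2⟩ := ha
  exact ⟨-g, h, h1, by rw [map_neg, ← h2]; ring⟩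

variable (inc red) in
/-- `V'` as a subring of `Ω`. -/
def vSubring : Subring Ω where
  carrier := {a | InV inc red a}
  mul_mem' := InV.mul
  one_mem' := by simpa using inV_inc (inc := inc) (red := red) 1
  add_mem' := InV.add
  zero_mem' := by simpa using inV_inc (inc := inc) (red := red) 0
  neg_mem' := InV.neg

theorem InM.mul_inV {a b : Ω} (ha : InM inc red a) (hb : InV inc red b) :
    InM inc red (a * b) := by
  obtain ⟨g, h, h1, h0, h2⟩ := ha
  obtain ⟨g', h', h1', h2'⟩ := hb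
  refine ⟨g * g', h * h', by rw [map_mul]; exact mul_ne_zero h1 h1', by rw [map_mul, h0, zero_mul],
    ?_⟩
  rw [map_mul, map_mul, ← h2, ← h2']; ring

theorem InM.add {a b : Ω} (ha : InM inc red a) (hb : InM inc red b) : InM inc red (a + b) := by
  obtain ⟨g, h, h1, h0, h2⟩ := ha
  obtain ⟨g', h', h1', h0', h2'⟩ := hb
  refine ⟨g * h' + g' * h, h * h', by rw [map_mul]; exact mul_ne_zero h1 h1',
    by rw [map_add, map_mul, map_mul, h0, h0']; ring, ?_⟩
  rw [map_mul, map_add, map_mul, map_mul, ← h2, ← h2']; ring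

theorem InM.neg {a : Ω} (ha : InM inc red a) : InM inc red (-a) := by
  obtain ⟨g, h, h1, h0, h2⟩ := ha
  exact ⟨-g, h, h1, by rw [map_neg, h0, neg_zero], by rw [map_neg, ← h2]; ring⟩

theorem not_inM_one (hinc : Function.Injective inc) : ¬ InM inc red (1 : Ω) := by
  rintro ⟨g, h, h1, h0, h2⟩
  rw [one_mul] at h2
  rw [hinc h2] at h1
  exact h1 h0

/-- polynomials with coefficients in `O` take values in `V'` on `V'`. -/
theorem inV_eval₂ {R : Type*} [CommRing R] (f : R →+* O) {a : Ω} (ha : InV inc red a)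
    (p : R[X]) : InV inc red (p.eval₂ (inc.comp f) a) := by
  rw [eval₂_eq_sum_range]
  refine (vSubring inc red).sum_mem fun i _ => ?_
  exact (vSubring inc red).mul_mem (inV_inc _) ((vSubring inc red).pow_mem ha i)

/-- the valuation dichotomy on `Frac O`. -/
theorem inV_or_inM_inv (hinc : Function.Injective inc) (ϖ : O) (hϖ : red ϖ = 0)
    (hO : ∀ g : O, g ≠ 0 → ∃ (k : ℕ) (g' : O), g = ϖ ^ k * g' ∧ red g' ≠ 0)
    {a : Ω} (ha : ∃ g h : O, h ≠ 0 ∧ a * inc h = inc g) :
    InV inc red a ∨ (a ≠ 0 ∧ InM inc red a⁻¹) := by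
  obtain ⟨g, h, hh, e⟩ := ha
  have hih : inc h ≠ 0 := fun h0 => hh (hinc (by rw [h0, map_zero]))
  by_cases hg : g = 0
  · left
    have : a = 0 := by
      rw [hg, map_zero] at e
      exact (mul_eq_zero.mp e).resolve_right hih
    rw [this]
    simpa using inV_inc (inc := inc) (red := red) 0
  obtain ⟨k, g', rfl, hg'⟩ := hO g hg
  obtain ⟨l, h', rfl, hh'⟩ := hO h hh
  have hig : inc (ϖ ^ k * g') ≠ 0 := fun h0 => hg (hinc (by rw [h0, map_zero]))
  rw [map_mul] at hih hig
  have hl0 : inc (ϖ ^ l) ≠ 0 := left_ne_zero_of_mul hih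
  have hk0 : inc (ϖ ^ k) ≠ 0 := left_ne_zero_of_mul hig
  have hg0 : inc g' ≠ 0 := right_ne_zero_of_mul hig
  rcases le_total l k with hlk | hkl
  · left
    refine ⟨ϖ ^ (k - l) * g', h', hh', ?_⟩
    apply mul_left_cancel₀ hl0
    have e2 : ϖ ^ k = ϖ ^ l * ϖ ^ (k - l) := by rw [← pow_add, Nat.add_sub_cancel' hlk]
    rw [e2] at e
    simp only [map_mul] at e ⊢
    linear_combination e
  · rcases hkl.eq_or_lt with rfl | hkl
    · left
      refine ⟨g', h', hh', ?_⟩
      apply mul_left_cancel₀ hl0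
      simp only [map_mul] at e ⊢
      linear_combination e
    right
    have e3 : a * inc (ϖ ^ (l - k) * h') = inc g' := by
      apply mul_left_cancel₀ hk0
      have e2 : ϖ ^ l = ϖ ^ k * ϖ ^ (l - k) := by rw [← pow_add, Nat.add_sub_cancel' hkl.le]
      rw [e2] at e
      simp only [map_mul] at e ⊢
      linear_combination e
    have ha0 : a ≠ 0 := by
      rintro rfl
      rw [zero_mul] at e3
      exact hg0 e3.symm
    refine ⟨ha0, ϖ ^ (l - k) * h', g', hg', ?_, ?_⟩
    · rw [map_mul, map_pow, hϖ, zero_pow (by omega), zero_mul]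
    · rw [← e3]
      field_simp

end val

/-! ### The link, chart level -/

section link

variable {A : Type*} [CommRing A] [IsDomain A] [IsDiscreteValuationRing A] {π : A}
variable {E : Type*} [Field E] [Algebra A[X] E] [IsFractionRing A[X] E] [CharZero E]
variable {L : Type*} [Field L] [Algebra A[X] L] [Algebra E L] [IsScalarTower A[X] E L]
  [FiniteDimensional E L]
variable {Ω O κ : Type*} [Field Ω] [CommRing O] [Field κ] {inc : O →+* Ω} {red : O →+* κ}

/-- `τ(O_L) ⊆ V'`  (`V'` is integrally closed in `Frac O`). -/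
theorem inV_of_isOL (hinc : Function.Injective inc)
    (θ : A[X] →+* O) (hθ : ∀ r : A[X], red (θ r) = 0 ↔ C π ∣ r)
    (hO : ∀ g : O, g ≠ 0 → ∃ (k : ℕ) (g' : O), g = θ (C π) ^ k * g' ∧ red g' ≠ 0)
    (τ : L →+* Ω) (hτ : ∀ r : A[X], τ (algebraMap A[X] L r) = inc (θ r))
    (hfrac : ∀ y : L, ∃ g h : O, h ≠ 0 ∧ τ y * inc h = inc g)
    {z : L} (hz : IsOL π z) : InV inc red (τ z) := by
  obtain ⟨s, hs, p, hmonic, hp0⟩ := hz
  have hf : τ.comp (algebraMap A[X] L) = inc.comp θ := RingHom.ext hτ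
  have h1 : p.eval₂ (inc.comp θ) (τ (s • z)) = 0 := by
    rw [← hf, ← Polynomial.hom_eval₂, hp0, map_zero]
  have hy : InV inc red (τ (s • z)) := by
    rcases inV_or_inM_inv hinc (θ (C π)) ((hθ _).2 dvd_rfl) hO (hfrac (s • z)) with h | ⟨h0, hM⟩
    · exact h
    · exfalso
      letI := invertibleOfNonzero h0
      have h2 : eval₂ (inc.comp θ) (⅟(τ (s • z))) (reverse p) = 0 :=
        (eval₂_reverse_eq_zero_iff _ _ _).2 h1
      rw [invOf_eq_inv, ← divX_mul_X_add (reverse p), eval₂_add, eval₂_mul, eval₂_X, eval₂_C,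
        coeff_zero_reverse, hmonic.leadingCoeff, map_one] at h2
      apply not_inM_one (red := red) hinc
      have h3 : (1 : Ω) = -((τ (s • z))⁻¹ * eval₂ (inc.comp θ) (τ (s • z))⁻¹ (reverse p).divX) := by
        linear_combination h2
      rw [h3]
      exact (hM.mul_inV (inV_eval₂ θ hM.inV _)).neg
  obtain ⟨g, h, hh, e⟩ := hy
  refine ⟨g, θ s * h, ?_, ?_⟩
  · rw [map_mul]
    exact mul_ne_zero (fun h0 => hs ((hθ s).1 h0)) hh
  · rw [← e, Algebra.smul_def, map_mul, map_mul, hτ]
    ring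

/-- **(P6), chart level.** -/
theorem link (hπ : Irreducible π) (H1 : TracePerfect π E L)
    (hconn : ∀ e : L, IsOL π e → IsPiOL π (e ^ 2 - e) → IsPiOL π e ∨ IsPiOL π (e - 1))
    (hinc : Function.Injective inc)
    (θ : A[X] →+* O) (hθ : ∀ r : A[X], red (θ r) = 0 ↔ C π ∣ r)
    (hO : ∀ g : O, g ≠ 0 → ∃ (k : ℕ) (g' : O), g = θ (C π) ^ k * g' ∧ red g' ≠ 0)
    (τ : L →+* Ω) (hτ : ∀ r : A[X], τ (algebraMap A[X] L r) = inc (θ r))
    (hfrac : ∀ y : L, ∃ g h : O, h ≠ 0 ∧ τ y * inc h = inc g) :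
    (∀ y : L, InV inc red (τ y) → IsOL π y) ∧ (∀ y : L, InM inc red (τ y) → IsPiOL π y) := by
  have hp : Prime π := hπ.prime
  have hV : ∀ z : L, IsOL π z → InV inc red (τ z) := fun z hz =>
    inV_of_isOL hinc θ hθ hO τ hτ hfrac hz
  have hϖ : red (θ (C π)) = 0 := (hθ _).2 dvd_rfl
  have key : ∀ z : L, IsOL π z → InM inc red (τ z) → IsPiOL π z := by
    intro z hz hM
    rcases isPiOL_or_exists_unit hπ H1 hconn hz with h | ⟨u, hu, v, hv, e⟩
    · exact h
    · exfalso
      apply not_inM_one (red := red) hinc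
      have h1 : (1 : Ω) = τ z * τ u + -(inc (θ (C π)) * τ v) := by
        have := congrArg τ e
        rw [map_sub, map_mul, map_one, Algebra.smul_def, map_mul, hτ] at this
        linear_combination -this
      rw [h1]
      exact (hM.mul_inV (hV u hu)).add ((inM_inc hϖ).mul_inV (hV v hv)).neg
  have hB : ∀ y : L, InV inc red (τ y) → IsOL π y := by
    intro y hy
    have hF : FaithfulSMul A[X] L := s1_faithfulSMul E
    have hT : Module.IsTorsionFree A[X] L := inferInstance
    obtain ⟨k, hk⟩ := exists_pow_smul_isOL E hp y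
    induction k with
    | zero => simpa using hk
    | succ k ih =>
      apply ih
      have hM : InM inc red (τ ((C π : A[X]) ^ (k + 1) • y)) := by
        rw [Algebra.smul_def, map_mul, hτ]
        refine (inM_inc ?_).mul_inV hy
        rw [map_pow, map_pow, hϖ, zero_pow (Nat.succ_ne_zero k)]
      obtain ⟨z', hz', e⟩ := key _ hk hM
      rw [pow_succ', mul_smul] at e
      have hC : (C π : A[X]) ≠ 0 := by simpa using hp.ne_zero
      have := smul_right_injective L hC e
      rwa [this]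
  exact ⟨hB, fun y hy => key y (hB y hy.inV) hy⟩

end link

/-! ### (H2) and (H0) descend to subextensions -/

section tower

variable {A : Type*} [CommRing A] {π : A}
variable {F : Type*} [Field F] [Algebra A[X] F]
variable {L : Type*} [Field L] [Algebra A[X] L] [Algebra F L] [IsScalarTower A[X] F L]

theorem isBK_algebraMap_iff (y : F) : IsBK π (algebraMap F L y) ↔ IsBK π y := by
  constructor
  · rintro ⟨j, hj⟩
    refine ⟨j, ?_⟩
    rw [← algebraMap.coe_smul] at hj
    exact (isIntegral_algebraMap_iff (algebraMap F L).injective).1 hj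
  · rintro ⟨j, hj⟩
    refine ⟨j, ?_⟩
    rw [← algebraMap.coe_smul]
    exact (isIntegral_algebraMap_iff (algebraMap F L).injective).2 hj

theorem unram_of_tower [FaithfulSMul A[X] F] (B : Finset A) (h : Unram π L B) : Unram π F B := by
  intro g hg hgπ hgB y z hy hz hyz
  obtain ⟨y', hy', e⟩ := h g hg hgπ hgB (algebraMap F L y) (algebraMap F L z)
    ((isBK_algebraMap_iff y).2 hy) ((isBK_algebraMap_iff z).2 hz)
    (by rw [← map_pow, hyz]; exact algebraMap.coe_smul _ _ _)
  have hγ : algebraMap A[X] F g ≠ 0 := by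
    rw [Ne, map_eq_zero_iff _ (FaithfulSMul.algebraMap_injective A[X] F)]
    exact hg.ne_zero
  have e2 : y = g • ((algebraMap A[X] F g)⁻¹ * y) := by
    rw [Algebra.smul_def, mul_inv_cancel_left₀ hγ]
  refine ⟨(algebraMap A[X] F g)⁻¹ * y, ?_, e2⟩
  rw [← isBK_algebraMap_iff (L := L)]
  have : algebraMap F L ((algebraMap A[X] F g)⁻¹ * y) = y' := by
    have hγL : algebraMap A[X] L g ≠ 0 := by
      rw [IsScalarTower.algebraMap_apply A[X] F L, Ne, map_eq_zero]
      exact hγ
    rw [map_mul, e, map_inv₀, ← IsScalarTower.algebraMap_apply, Algebra.smul_def,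
      inv_mul_cancel_left₀ hγL]
  rwa [this]

end tower

end QLink

open QLink

/-- **(P6)** the `q`-link: under the hypotheses of Theorem G, a ring homomorphism `τ : L → Ω`
compatible with a reduction `red : O → κ` detects `O_L` and `π O_L`. -/
theorem qlink {A E L : Type*} [CommRing A] [IsDomain A] [IsDiscreteValuationRing A]
    [Field E] [Field L] [CharZero E] [Algebra A E] [Algebra E L] [Algebra A L]
    [IsScalarTower A E L] [FiniteDimensional E L]
    (π : A) (hπ : Irreducible π) (x : E) (hx : Transcendental A x)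
    (hgen : ∀ c : E, ∃ p q : A[X], q ≠ 0 ∧ c * aeval x q = aeval x p)
    (H0 : ∀ z : L, IsIntegral A z → z ∈ Set.range (algebraMap A L))
    (H1 : TracePerfectx L π x)
    (B0 Binf : Finset A)
    (hB0 : ∀ β ∈ B0, ∀ β' ∈ B0, π ∣ β - β' → β = β')
    (hBinf : ∀ β ∈ Binf, ∀ β' ∈ Binf, π ∣ β - β' → β = β')
    (H2 : Unramx L π x B0) (H2' : Unramx L π x⁻¹ Binf)
    {Ω O κ : Type*} [Field Ω] [CommRing O] [Field κ]
    (inc : O →+* Ω) (hinc : Function.Injective inc) (red : O →+* κ)
    (θ : A[X] →+* O) (hθ : ∀ r : A[X], red (θ r) = 0 ↔ C π ∣ r)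
    (hO : ∀ g : O, g ≠ 0 → ∃ (k : ℕ) (g' : O), g = θ (C π) ^ k * g' ∧ red g' ≠ 0)
    (τ : L →+* Ω) (hτ : ∀ r : A[X], τ (algebraMap E L (aeval x r)) = inc (θ r))
    (hfrac : ∀ y : L, ∃ g h : O, h ≠ 0 ∧ τ y * inc h = inc g) :
    (∀ (y : L) (g h : O), red h ≠ 0 → τ y * inc h = inc g → IsOLx π x y) ∧
    (∀ (y : L) (g h : O), red h ≠ 0 → red g = 0 → τ y * inc h = inc g → IsPiOLx π x y) := by
  have hconn := theoremG π hπ x hx hgen H0 H1 B0 Binf hB0 hBinf H2 H2'
  letI := algE (A := A) x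
  letI := algL (A := A) L x
  haveI := isScalarTower_alg (A := A) (L := L) x
  haveI := isFractionRing_algE hx hgen
  obtain ⟨h1, h2⟩ := link (E := E) (L := L) (inc := inc) (red := red) hπ H1 hconn hinc θ hθ hO τ hτ
    hfrac
  exact ⟨fun y g h hh e => h1 y ⟨g, h, hh, e⟩, fun y g h hh hg e => h2 y ⟨g, h, hh, hg, e⟩⟩


theorem faithfulSMul_algL {A E F : Type*} [CommRing A] [Field E] [Field F]
    [Algebra A E] [Algebra E F] {x : E} (hx : Transcendental A x) :
    letI := algL (A := A) F x; FaithfulSMul A[X] F := by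
  letI := algL (A := A) F x
  refine (faithfulSMul_iff_algebraMap_injective _ _).2 ?_
  show Function.Injective fun p : A[X] => algebraMap E F (aeval x p)
  exact (algebraMap E F).injective.comp (transcendental_iff_injective.1 hx)

theorem unramx_of_tower {A E F L : Type*} [CommRing A] [Field E] [Field F] [Field L]
    [Algebra A E] [Algebra E F] [Algebra E L] [Algebra F L] [IsScalarTower E F L]
    {π : A} {x : E} (hx : Transcendental A x) (B : Finset A) (h : Unramx L π x B) :
    Unramx F π x B := by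
  letI := algL (A := A) F x
  letI := algL (A := A) L x
  haveI := isScalarTower_algL (A := A) (F := F) (L := L) x
  haveI := faithfulSMul_algL (A := A) (F := F) hx
  exact unram_of_tower B h

/-- **Theorem G + Kummer + `q`-link.**  `W ∈ F` is given through one embedding `τ : F → Ω` as a
quotient `y₁/y₂` of two elements of `O` with the same nonzero reduction. -/
theorem GKq {A E F L : Type*} [CommRing A] [IsDomain A] [IsDiscreteValuationRing A]
    [Field E] [Field F] [Field L] [CharZero E] [Algebra A E]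
    [Algebra E F] [FiniteDimensional E F]
    [Algebra E L] [Algebra A L] [IsScalarTower A E L] [FiniteDimensional E L]
    [Algebra F L] [IsScalarTower E F L]
    (π : A) (hπ : Irreducible π) (x : E) (hx : Transcendental A x)
    (hgen : ∀ c : E, ∃ p q : A[X], q ≠ 0 ∧ c * aeval x q = aeval x p)
    (H1 : TracePerfectx F π x)
    (d : ℕ) (hd2 : 2 ≤ d) (hdπ : ¬ π ∣ (d : A))
    (W : F) (w : L) (hw : w ^ d = algebraMap F L W) (hdeg : Module.finrank F L = d)
    (hli : LinearIndependent F (fun j : Fin d => w ^ (j : ℕ)))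
    (H0 : ∀ z : L, IsIntegral A z → z ∈ Set.range (algebraMap A L))
    (B0 Binf : Finset A)
    (hB0 : ∀ β ∈ B0, ∀ β' ∈ B0, π ∣ β - β' → β = β')
    (hBinf : ∀ β ∈ Binf, ∀ β' ∈ Binf, π ∣ β - β' → β = β')
    (H2 : Unramx L π x B0) (H2' : Unramx L π x⁻¹ Binf)
    {Ω O κ : Type*} [Field Ω] [CommRing O] [Field κ]
    (inc : O →+* Ω) (hinc : Function.Injective inc) (red : O →+* κ)
    (θ : A[X] →+* O) (hθ : ∀ r : A[X], red (θ r) = 0 ↔ C π ∣ r)
    (hO : ∀ g : O, g ≠ 0 → ∃ (k : ℕ) (g' : O), g = θ (C π) ^ k * g' ∧ red g' ≠ 0)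
    (τ : F →+* Ω) (hτ : ∀ r : A[X], τ (algebraMap E F (aeval x r)) = inc (θ r))
    (hfrac : ∀ y : F, ∃ g h : O, h ≠ 0 ∧ τ y * inc h = inc g)
    (y₁ y₂ : O) (hred : red y₁ = red y₂) (hne : red y₂ ≠ 0) (hW : τ W * inc y₂ = inc y₁) :
    False := by
  letI : Algebra A F := ((algebraMap E F).comp (algebraMap A E)).toAlgebra
  haveI : IsScalarTower A E F := IsScalarTower.of_algebraMap_eq fun _ => rfl
  haveI : IsScalarTower A F L := IsScalarTower.of_algebraMap_eq fun a => by
    show algebraMap A L a = algebraMap F L (algebraMap E F (algebraMap A E a))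
    rw [← IsScalarTower.algebraMap_apply E F L, ← IsScalarTower.algebraMap_apply A E L]
  have H0F : ∀ z : F, IsIntegral A z → z ∈ Set.range (algebraMap A F) := by
    intro z hz
    obtain ⟨a, ha⟩ := H0 (algebraMap F L z) hz.algebraMap
    exact ⟨a, (algebraMap F L).injective (by rw [← IsScalarTower.algebraMap_apply, ha])⟩
  obtain ⟨q1, q2⟩ := qlink π hπ x hx hgen H0F H1 B0 Binf hB0 hBinf
    (unramx_of_tower hx B0 H2) (unramx_of_tower (transcendental_inv hx) Binf H2')
    inc hinc red θ hθ hO τ hτ hfrac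
  have hne1 : red y₁ ≠ 0 := hred ▸ hne
  have hi1 : inc y₁ ≠ 0 := fun h0 => hne1 (by rw [hinc (h0.trans (map_zero inc).symm), map_zero])
  have hτW : τ W ≠ 0 := by
    intro h0
    rw [h0, zero_mul] at hW
    exact hi1 hW.symm
  refine GK π hπ x hx hgen H1 d hd2 hdπ W (q1 W y₁ y₂ hne hW) (q1 W⁻¹ y₂ y₁ hne1 ?_)
    (q2 (W - 1) (y₁ - y₂) y₂ hne (by rw [map_sub, hred, sub_self]) ?_)
    w hw hdeg hli H0 B0 Binf hB0 hBinf H2 H2'
  · rw [map_inv₀, ← hW, inv_mul_cancel_left₀ hτW]
  · rw [map_sub, map_sub, map_one, sub_mul, hW, one_mul]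

end Fermat.Agent.Crux.G
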