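import Fermat.Agent.Crux.G.Defs

/-!
# Crux / G : basic closure properties of `O_L`, `O_G`, `B_K`, saturation, traces
-/

set_option autoImplicit false
set_option linter.unusedSectionVars false
set_option linter.unusedVariables false

open Polynomial

namespace Fermat.Agent.Crux.G

variable {A : Type*} [CommRing A] [IsDomain A] {π : A}
variable {E : Type*} [Field E] [Algebra A[X] E]
variable {L : Type*} [Field L] [Algebra A[X] L]

/-! ### auxiliary facts on the prime `C π` -/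

theorem Sat.prime_C (hπ : Prime π) : Prime (C π : A[X]) := Polynomial.prime_C_iff.mpr hπ

theorem Sat.not_dvd_one (hπ : Prime π) : ¬ (C π : A[X]) ∣ 1 := fun h =>
  (Sat.prime_C hπ).not_isUnit (isUnit_of_dvd_one h)

theorem Sat.not_dvd_mul (hπ : Prime π) {s t : A[X]} (hs : ¬ C π ∣ s) (ht : ¬ C π ∣ t) :
    ¬ C π ∣ s * t := fun h => ((Sat.prime_C hπ).dvd_or_dvd h).elim hs ht

theorem Sat.not_dvd_pow (hπ : Prime π) {s : A[X]} (hs : ¬ C π ∣ s) (n : ℕ) :
    ¬ C π ∣ s ^ n := fun h => hs ((Sat.prime_C hπ).dvd_of_dvd_pow h)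

theorem Sat.ne_zero_of_not_dvd {s : A[X]} (hs : ¬ C π ∣ s) : s ≠ 0 := fun h =>
  hs (h ▸ dvd_zero _)

/-! ### `O_L` is a ring containing `M`, stable under division by `s ∉ (π)` -/

theorem IsOL.of_isIntegral (hπ : Prime π) {y : L} (hy : IsIntegral A[X] y) : IsOL π y :=
  ⟨1, Sat.not_dvd_one hπ, by rwa [one_smul]⟩

theorem isOL_zero (hπ : Prime π) : IsOL π (0 : L) :=
  IsOL.of_isIntegral hπ isIntegral_zero

theorem isOL_one (hπ : Prime π) : IsOL π (1 : L) :=
  IsOL.of_isIntegral hπ isIntegral_one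

theorem isOL_algebraMap (hπ : Prime π) (r : A[X]) : IsOL π (algebraMap A[X] L r) :=
  IsOL.of_isIntegral hπ isIntegral_algebraMap

theorem IsOL.add (hπ : Prime π) {y z : L} (hy : IsOL π y) (hz : IsOL π z) : IsOL π (y + z) := by
  obtain ⟨s, hs, h1⟩ := hy
  obtain ⟨t, ht, h2⟩ := hz
  refine ⟨s * t, Sat.not_dvd_mul hπ hs ht, ?_⟩
  have : (s * t) • (y + z) = t • (s • y) + s • (t • z) := by
    rw [smul_add, mul_smul, mul_smul, smul_comm s t y]
  rw [this]
  exact (h1.smul t).add (h2.smul s)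

theorem IsOL.neg {y : L} (hy : IsOL π y) : IsOL π (-y) := by
  obtain ⟨s, hs, h1⟩ := hy
  exact ⟨s, hs, by rw [smul_neg]; exact h1.neg⟩

theorem IsOL.sub (hπ : Prime π) {y z : L} (hy : IsOL π y) (hz : IsOL π z) : IsOL π (y - z) := by
  rw [sub_eq_add_neg]
  exact hy.add hπ hz.neg

theorem IsOL.mul (hπ : Prime π) {y z : L} (hy : IsOL π y) (hz : IsOL π z) : IsOL π (y * z) := by
  obtain ⟨s, hs, h1⟩ := hy
  obtain ⟨t, ht, h2⟩ := hz
  refine ⟨s * t, Sat.not_dvd_mul hπ hs ht, ?_⟩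
  rw [← smul_mul_smul_comm]
  exact h1.mul h2

theorem IsOL.pow (hπ : Prime π) {y : L} (hy : IsOL π y) (m : ℕ) : IsOL π (y ^ m) := by
  induction m with
  | zero => rw [pow_zero]; exact isOL_one hπ
  | succ m ih => rw [pow_succ]; exact ih.mul hπ hy

theorem IsOL.smul {y : L} (hy : IsOL π y) (r : A[X]) : IsOL π (r • y) := by
  obtain ⟨s, hs, h1⟩ := hy
  exact ⟨s, hs, by rw [smul_comm]; exact h1.smul r⟩

theorem IsOL.sum (hπ : Prime π) {ι : Type*} (s : Finset ι) (f : ι → L)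
    (h : ∀ i ∈ s, IsOL π (f i)) : IsOL π (∑ i ∈ s, f i) :=
  Finset.sum_induction f (IsOL π) (fun _ _ ha hb => ha.add hπ hb) (isOL_zero hπ) h

/-- division by `s ∉ (π)` -/
theorem IsOL.of_smul (hπ : Prime π) {s : A[X]} (hs : ¬ C π ∣ s) {y : L} (hy : IsOL π (s • y)) :
    IsOL π y := by
  obtain ⟨t, ht, h1⟩ := hy
  exact ⟨t * s, Sat.not_dvd_mul hπ ht hs, by rwa [mul_smul]⟩

/-! ### `π O_L` is an ideal of `O_L` -/

theorem IsPiOL.isOL {y : L} (hy : IsPiOL π y) : IsOL π y := by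
  obtain ⟨z, hz, rfl⟩ := hy
  exact hz.smul _

theorem isPiOL_zero (hπ : Prime π) : IsPiOL π (0 : L) :=
  ⟨0, isOL_zero hπ, by rw [smul_zero]⟩

theorem IsPiOL.add (hπ : Prime π) {y z : L} (hy : IsPiOL π y) (hz : IsPiOL π z) :
    IsPiOL π (y + z) := by
  obtain ⟨y', hy', rfl⟩ := hy
  obtain ⟨z', hz', rfl⟩ := hz
  exact ⟨y' + z', hy'.add hπ hz', by rw [smul_add]⟩

theorem IsPiOL.neg {y : L} (hy : IsPiOL π y) : IsPiOL π (-y) := by
  obtain ⟨y', hy', rfl⟩ := hy
  exact ⟨-y', hy'.neg, by rw [smul_neg]⟩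

theorem IsPiOL.sub (hπ : Prime π) {y z : L} (hy : IsPiOL π y) (hz : IsPiOL π z) :
    IsPiOL π (y - z) := by
  rw [sub_eq_add_neg]
  exact hy.add hπ hz.neg

theorem IsPiOL.mul_left (hπ : Prime π) {y z : L} (hz : IsOL π z) (hy : IsPiOL π y) :
    IsPiOL π (z * y) := by
  obtain ⟨y', hy', rfl⟩ := hy
  exact ⟨z * y', hz.mul hπ hy', by rw [mul_smul_comm]⟩

theorem IsPiOL.mul_right (hπ : Prime π) {y z : L} (hy : IsPiOL π y) (hz : IsOL π z) :
    IsPiOL π (y * z) := by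
  rw [mul_comm]
  exact hy.mul_left hπ hz

theorem IsPiOL.smul {y : L} (hy : IsPiOL π y) (r : A[X]) : IsPiOL π (r • y) := by
  obtain ⟨y', hy', rfl⟩ := hy
  exact ⟨r • y', hy'.smul r, by rw [smul_comm]⟩

theorem IsPiOL.sum (hπ : Prime π) {ι : Type*} (s : Finset ι) (f : ι → L)
    (h : ∀ i ∈ s, IsPiOL π (f i)) : IsPiOL π (∑ i ∈ s, f i) :=
  Finset.sum_induction f (IsPiOL π) (fun _ _ ha hb => ha.add hπ hb) (isPiOL_zero hπ) h

theorem IsOL.C_smul {y : L} (hy : IsOL π y) : IsPiOL π ((C π : A[X]) • y) :=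
  ⟨y, hy, rfl⟩

theorem IsPiOL.of_smul [FaithfulSMul A[X] L] (hπ : Prime π) {s : A[X]} (hs : ¬ C π ∣ s) {y : L}
    (hy : IsPiOL π (s • y)) : IsPiOL π y := by
  obtain ⟨z, hz, h⟩ := hy
  have hs0 : algebraMap A[X] L s ≠ 0 := by
    rw [Ne, FaithfulSMul.algebraMap_eq_zero_iff]
    exact Sat.ne_zero_of_not_dvd hs
  have hz' : s • ((algebraMap A[X] L s)⁻¹ * z) = z := by
    rw [Algebra.smul_def, mul_inv_cancel_left₀ hs0]
  refine ⟨(algebraMap A[X] L s)⁻¹ * z, IsOL.of_smul hπ hs (by rwa [hz']), ?_⟩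
  have h2 : algebraMap A[X] L s * y
      = algebraMap A[X] L s * ((C π : A[X]) • ((algebraMap A[X] L s)⁻¹ * z)) := by
    rw [← Algebra.smul_def, h, mul_smul_comm, mul_inv_cancel_left₀ hs0]
  exact mul_left_cancel₀ hs0 h2

/-! ### `O_G` and `π O_G` -/

theorem isOG_algebraMap (hπ : Prime π) (r : A[X]) : IsOG π (algebraMap A[X] E r) :=
  ⟨1, r, Sat.not_dvd_one hπ, one_smul _ _⟩

theorem IsOG.add (hπ : Prime π) {c d : E} (hc : IsOG π c) (hd : IsOG π d) : IsOG π (c + d) := by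
  obtain ⟨s, r, hs, h1⟩ := hc
  obtain ⟨t, u, ht, h2⟩ := hd
  refine ⟨s * t, t * r + s * u, Sat.not_dvd_mul hπ hs ht, ?_⟩
  rw [smul_add, mul_smul, mul_smul, smul_comm s t c, h1, h2, map_add, map_mul, map_mul,
    Algebra.smul_def, Algebra.smul_def]

theorem IsOG.neg {c : E} (hc : IsOG π c) : IsOG π (-c) := by
  obtain ⟨s, r, hs, h1⟩ := hc
  exact ⟨s, -r, hs, by rw [smul_neg, h1, map_neg]⟩

theorem IsOG.sub (hπ : Prime π) {c d : E} (hc : IsOG π c) (hd : IsOG π d) : IsOG π (c - d) := by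
  rw [sub_eq_add_neg]
  exact hc.add hπ hd.neg

theorem IsOG.mul (hπ : Prime π) {c d : E} (hc : IsOG π c) (hd : IsOG π d) : IsOG π (c * d) := by
  obtain ⟨s, r, hs, h1⟩ := hc
  obtain ⟨t, u, ht, h2⟩ := hd
  refine ⟨s * t, r * u, Sat.not_dvd_mul hπ hs ht, ?_⟩
  rw [← smul_mul_smul_comm, h1, h2, map_mul]

theorem IsOG.sum (hπ : Prime π) {ι : Type*} (s : Finset ι) (f : ι → E)
    (h : ∀ i ∈ s, IsOG π (f i)) : IsOG π (∑ i ∈ s, f i) :=
  Finset.sum_induction f (IsOG π) (fun _ _ ha hb => ha.add hπ hb)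
    (by simpa using isOG_algebraMap (E := E) hπ 0) h

theorem IsOG.of_smul (hπ : Prime π) {s : A[X]} (hs : ¬ C π ∣ s) {c : E} (hc : IsOG π (s • c)) :
    IsOG π c := by
  obtain ⟨t, r, ht, h1⟩ := hc
  exact ⟨t * s, r, Sat.not_dvd_mul hπ ht hs, by rwa [mul_smul]⟩

theorem IsPiOG.isOG {c : E} (hc : IsPiOG π c) : IsOG π c := by
  obtain ⟨c', ⟨s, r, hs, h1⟩, rfl⟩ := hc
  exact ⟨s, C π * r, hs, by rw [smul_comm, h1, map_mul, Algebra.smul_def]⟩

theorem IsPiOG.add (hπ : Prime π) {c d : E} (hc : IsPiOG π c) (hd : IsPiOG π d) :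
    IsPiOG π (c + d) := by
  obtain ⟨c', hc', rfl⟩ := hc
  obtain ⟨d', hd', rfl⟩ := hd
  exact ⟨c' + d', hc'.add hπ hd', by rw [smul_add]⟩

theorem IsPiOG.neg {c : E} (hc : IsPiOG π c) : IsPiOG π (-c) := by
  obtain ⟨c', hc', rfl⟩ := hc
  exact ⟨-c', hc'.neg, by rw [smul_neg]⟩

theorem IsPiOG.sub (hπ : Prime π) {c d : E} (hc : IsPiOG π c) (hd : IsPiOG π d) :
    IsPiOG π (c - d) := by
  rw [sub_eq_add_neg]
  exact hc.add hπ hd.neg

theorem IsPiOG.mul_left (hπ : Prime π) {c d : E} (hd : IsOG π d) (hc : IsPiOG π c) :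
    IsPiOG π (d * c) := by
  obtain ⟨c', hc', rfl⟩ := hc
  exact ⟨d * c', hd.mul hπ hc', by rw [mul_smul_comm]⟩

theorem IsPiOG.sum (hπ : Prime π) {ι : Type*} (s : Finset ι) (f : ι → E)
    (h : ∀ i ∈ s, IsPiOG π (f i)) : IsPiOG π (∑ i ∈ s, f i) :=
  Finset.sum_induction f (IsPiOG π) (fun _ _ ha hb => ha.add hπ hb)
    ⟨0, by simpa using isOG_algebraMap (E := E) hπ 0, by rw [smul_zero]⟩ h

theorem IsPiOG.of_smul [FaithfulSMul A[X] E] (hπ : Prime π) {s : A[X]} (hs : ¬ C π ∣ s) {c : E}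
    (hc : IsPiOG π (s • c)) : IsPiOG π c := by
  obtain ⟨z, hz, h⟩ := hc
  have hs0 : algebraMap A[X] E s ≠ 0 := by
    rw [Ne, FaithfulSMul.algebraMap_eq_zero_iff]
    exact Sat.ne_zero_of_not_dvd hs
  have hz' : s • ((algebraMap A[X] E s)⁻¹ * z) = z := by
    rw [Algebra.smul_def, mul_inv_cancel_left₀ hs0]
  refine ⟨(algebraMap A[X] E s)⁻¹ * z, IsOG.of_smul hπ hs (by rwa [hz']), ?_⟩
  have h2 : algebraMap A[X] E s * c
      = algebraMap A[X] E s * ((C π : A[X]) • ((algebraMap A[X] E s)⁻¹ * z)) := by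
    rw [← Algebra.smul_def, h, mul_smul_comm, mul_inv_cancel_left₀ hs0]
  exact mul_left_cancel₀ hs0 h2

/-- `π O_G ∩ A[X] = π A[X]`. -/
theorem isPiOG_algebraMap_iff [FaithfulSMul A[X] E] (hπ : Prime π) (r : A[X]) :
    IsPiOG π (algebraMap A[X] E r) ↔ C π ∣ r := by
  constructor
  · rintro ⟨c', ⟨s, u, hs, h1⟩, h⟩
    have h2 : algebraMap A[X] E (s * r) = algebraMap A[X] E (C π * u) := by
      rw [map_mul, map_mul, h, ← h1, ← Algebra.smul_def, ← Algebra.smul_def, smul_comm]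
    have h3 : s * r = C π * u := FaithfulSMul.algebraMap_injective A[X] E h2
    exact ((Sat.prime_C hπ).dvd_or_dvd ⟨u, h3⟩).resolve_left hs
  · rintro ⟨u, rfl⟩
    exact ⟨algebraMap A[X] E u, isOG_algebraMap hπ u, by rw [map_mul, Algebra.smul_def]⟩

/-! ### `O_L` is an `O_G`-module -/

section tower

variable [Algebra E L] [IsScalarTower A[X] E L]

theorem IsOG.smul_isOL (hπ : Prime π) {c : E} (hc : IsOG π c) {y : L} (hy : IsOL π y) :
    IsOL π (c • y) := by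
  obtain ⟨s, r, hs, h1⟩ := hc
  obtain ⟨t, ht, h2⟩ := hy
  refine ⟨s * t, Sat.not_dvd_mul hπ hs ht, ?_⟩
  have : (s * t) • (c • y) = r • (t • y) := by
    rw [mul_smul, smul_comm t c y, ← smul_assoc s c, h1, algebraMap_smul]
  rw [this]
  exact h2.smul r

theorem IsPiOG.smul_isOL (hπ : Prime π) {c : E} (hc : IsPiOG π c) {y : L} (hy : IsOL π y) :
    IsPiOL π (c • y) := by
  obtain ⟨c', hc', rfl⟩ := hc
  exact ⟨c' • y, hc'.smul_isOL hπ hy, by rw [smul_assoc]⟩

theorem IsOG.smul_isPiOL (hπ : Prime π) {c : E} (hc : IsOG π c) {y : L} (hy : IsPiOL π y) :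
    IsPiOL π (c • y) := by
  obtain ⟨y', hy', rfl⟩ := hy
  exact ⟨c • y', hc.smul_isOL hπ hy', by rw [smul_comm]⟩

end tower

/-! ### `B_K` -/

theorem IsBK.of_isIntegral {y : L} (hy : IsIntegral A[X] y) : IsBK π y :=
  ⟨0, by rwa [pow_zero, one_smul]⟩

theorem IsBK.add {y z : L} (hy : IsBK π y) (hz : IsBK π z) : IsBK π (y + z) := by
  obtain ⟨j, h1⟩ := hy
  obtain ⟨k, h2⟩ := hz
  refine ⟨j + k, ?_⟩
  have : (C π : A[X]) ^ (j + k) • (y + z)
      = (C π : A[X]) ^ k • ((C π : A[X]) ^ j • y) + (C π : A[X]) ^ j • ((C π : A[X]) ^ k • z) := by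
    rw [smul_add, pow_add, mul_smul, mul_smul, smul_comm ((C π : A[X]) ^ j) ((C π : A[X]) ^ k) y]
  rw [this]
  exact (h1.smul _).add (h2.smul _)

theorem IsBK.neg {y : L} (hy : IsBK π y) : IsBK π (-y) := by
  obtain ⟨j, h1⟩ := hy
  exact ⟨j, by rw [smul_neg]; exact h1.neg⟩

theorem IsBK.mul {y z : L} (hy : IsBK π y) (hz : IsBK π z) : IsBK π (y * z) := by
  obtain ⟨j, h1⟩ := hy
  obtain ⟨k, h2⟩ := hz
  refine ⟨j + k, ?_⟩
  rw [pow_add, ← smul_mul_smul_comm]
  exact h1.mul h2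

theorem IsBK.pow {y : L} (hy : IsBK π y) (m : ℕ) : IsBK π (y ^ m) := by
  induction m with
  | zero => rw [pow_zero]; exact IsBK.of_isIntegral isIntegral_one
  | succ m ih => rw [pow_succ]; exact ih.mul hy

theorem IsBK.smul {y : L} (hy : IsBK π y) (r : A[X]) : IsBK π (r • y) := by
  obtain ⟨j, h1⟩ := hy
  exact ⟨j, by rw [smul_comm]; exact h1.smul r⟩

/-! ### Saturation and traces (here `A[X]` must be integrally closed, `E = Frac A[X]`) -/

section sat

variable [IsIntegrallyClosed A] [IsFractionRing A[X] E] [Algebra E L] [IsScalarTower A[X] E L]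
  [FiniteDimensional E L]

/-- If `a c` and `π^k c` lie in `A[X]`, `π ∤ a`, then `c ∈ A[X]`. -/
theorem Sat.mem_range_of_mul (hπ : Prime π) {a : A[X]} (ha : ¬ C π ∣ a) (k : ℕ) {c : E}
    {r r' : A[X]} (h1 : c * algebraMap A[X] E a = algebraMap A[X] E r)
    (h2 : c * algebraMap A[X] E ((C π) ^ k) = algebraMap A[X] E r') :
    c ∈ (algebraMap A[X] E).range := by
  have hinj := IsFractionRing.injective A[X] E
  have h3 : (C π) ^ k * r = a * r' := by
    apply hinj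
    rw [map_mul, map_mul, ← h1, ← h2]
    ring
  have h4 : (C π : A[X]) ^ k ∣ r' :=
    ((Sat.prime_C hπ).pow_dvd_of_dvd_mul_left k ha ⟨r, h3.symm⟩)
  obtain ⟨u, rfl⟩ := h4
  refine ⟨u, ?_⟩
  have h5 : algebraMap A[X] E ((C π) ^ k) ≠ 0 := by
    rw [Ne, map_eq_zero_iff _ hinj]
    exact pow_ne_zero _ (Sat.prime_C hπ).ne_zero
  rw [map_mul, mul_comm c] at h2
  exact (mul_left_cancel₀ h5 h2).symm

variable (E) in
include E in
/-- **Saturation**: `O_L ∩ B_K = M`. (If `s y` and `π^j y` are integral over `A[X]`, `π ∤ s`, then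
the coefficients `c_i` of the minimal polynomial of `y` over `E` satisfy `s^i c_i, π^{ij} c_i ∈ A[X]`
(`IsIntegrallyClosed.minpoly_smul`, `minpoly.isIntegrallyClosed_eq_field_fractions`),
hence `c_i ∈ A[X]` because `π` is prime and does not divide `s`.) -/
theorem isIntegral_of_isOL_of_isBK (hπ : Prime π) {y : L} (h1 : IsOL π y) (h2 : IsBK π y) :
    IsIntegral A[X] y := by
  obtain ⟨s, hs, h1⟩ := h1
  obtain ⟨j, h2⟩ := h2
  have hinj := IsFractionRing.injective A[X] E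
  have hyE : IsIntegral E y := Algebra.IsIntegral.isIntegral y
  -- key: coefficients after scaling
  have key : ∀ a : A[X], a ≠ 0 → IsIntegral A[X] (a • y) → ∀ i,
      (minpoly E y).coeff i * algebraMap A[X] E (a ^ ((minpoly E y).natDegree - i))
        = algebraMap A[X] E ((minpoly A[X] (a • y)).coeff i) := by
    intro a ha hay i
    have e1 : minpoly E (a • y) = (minpoly A[X] (a • y)).map (algebraMap A[X] E) :=
      minpoly.isIntegrallyClosed_eq_field_fractions' E hay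
    have e2 : minpoly E ((algebraMap A[X] E a) • y)
        = (minpoly E y).scaleRoots (algebraMap A[X] E a) :=
      IsIntegrallyClosed.minpoly_smul (by rwa [Ne, map_eq_zero_iff _ hinj]) hyE
    rw [algebraMap_smul] at e2
    have e3 := congrArg (fun p => p.coeff i) (e2.symm.trans e1)
    simp only [coeff_scaleRoots, coeff_map] at e3
    rw [map_pow]
    exact e3
  have hlift : minpoly E y ∈ Polynomial.lifts (algebraMap A[X] E) := by
    rw [Polynomial.lifts_iff_coeff_lifts]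
    intro i
    have k1 := key s (Sat.ne_zero_of_not_dvd hs) h1 i
    have k2 := key ((C π) ^ j) (pow_ne_zero _ (Sat.prime_C hπ).ne_zero) h2 i
    rw [← pow_mul] at k2
    exact Sat.mem_range_of_mul hπ (Sat.not_dvd_pow hπ hs _) _ k1 k2
  obtain ⟨q, hq, -, hqm⟩ := Polynomial.lifts_and_natDegree_eq_and_monic hlift (minpoly.monic hyE)
  refine ⟨q, hqm, ?_⟩
  have := minpoly.aeval E y
  rw [← hq, aeval_map_algebraMap] at this
  exact this

variable (E) in
include E in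
/-- `π O_L ∩ A[X] = π A[X]`. (If `r = π z`, `s z` integral, then `s z ∈ E` is integral over `A[X]`,
so it lies in `A[X]`, and `π ∣ s r`.) -/
theorem isPiOL_algebraMap_iff (hπ : Prime π) (r : A[X]) :
    IsPiOL π (algebraMap A[X] L r) ↔ C π ∣ r := by
  have hinj := IsFractionRing.injective A[X] E
  constructor
  · rintro ⟨z, ⟨s, hs, h1⟩, h⟩
    have hπ0 : algebraMap A[X] E (C π) ≠ 0 := by
      rw [Ne, map_eq_zero_iff _ hinj]
      exact (Sat.prime_C hπ).ne_zero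
    have hπL : algebraMap A[X] L (C π) ≠ 0 := by
      rw [IsScalarTower.algebraMap_apply A[X] E L, Ne, map_eq_zero]
      exact hπ0
    -- `z` comes from `E`
    have hz : z = algebraMap E L (algebraMap A[X] E r / algebraMap A[X] E (C π)) := by
      rw [map_div₀, ← IsScalarTower.algebraMap_apply, ← IsScalarTower.algebraMap_apply, h,
        Algebra.smul_def, mul_div_cancel_left₀ _ hπL]
    have hsz : s • z = algebraMap E L (algebraMap A[X] E s *
        (algebraMap A[X] E r / algebraMap A[X] E (C π))) := by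
      rw [map_mul, ← hz, ← IsScalarTower.algebraMap_apply, Algebra.smul_def]
    rw [hsz, isIntegral_algebraMap_iff (algebraMap E L).injective] at h1
    obtain ⟨u, hu⟩ := IsIntegrallyClosed.isIntegral_iff.mp h1
    have h3 : s * r = C π * u := by
      apply hinj
      rw [map_mul, map_mul, hu]
      field_simp
    exact ((Sat.prime_C hπ).dvd_or_dvd ⟨u, h3⟩).resolve_left hs
  · rintro ⟨u, rfl⟩
    exact ⟨algebraMap A[X] L u, isOL_algebraMap hπ u, by rw [map_mul, Algebra.smul_def]⟩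

theorem exists_trace_eq_of_isIntegral {y : L} (hy : IsIntegral A[X] y) :
    ∃ r : A[X], Algebra.trace E L y = algebraMap A[X] E r := by
  obtain ⟨r, hr⟩ := IsIntegrallyClosed.isIntegral_iff.mp (Algebra.isIntegral_trace (L := E) hy)
  exact ⟨r, hr.symm⟩

theorem Sat.trace_smul (r : A[X]) (y : L) :
    Algebra.trace E L (r • y) = r • Algebra.trace E L y := by
  rw [← algebraMap_smul E r y, map_smul, algebraMap_smul]

theorem IsOL.trace (hπ : Prime π) {y : L} (hy : IsOL π y) : IsOG π (Algebra.trace E L y) := by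
  obtain ⟨s, hs, h1⟩ := hy
  obtain ⟨r, hr⟩ := exists_trace_eq_of_isIntegral (E := E) h1
  exact ⟨s, r, hs, by rw [← Sat.trace_smul, hr]⟩

theorem IsPiOL.trace (hπ : Prime π) {y : L} (hy : IsPiOL π y) :
    IsPiOG π (Algebra.trace E L y) := by
  obtain ⟨z, hz, rfl⟩ := hy
  exact ⟨Algebra.trace E L z, hz.trace hπ, Sat.trace_smul _ _⟩

end sat

end Fermat.Agent.Crux.G
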