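import Fermat.Agent.Crux.G.UnitDisc
import Fermat.Agent.Crux.G.TwoCharts

/-!
# Crux / G : (H1) from a full set of embeddings which stay distinct modulo `π`

`unitDisc_of_embeddings`: let `τ_1, …, τ_n : L → Ω` (`n = [L:E]`) be extensions of `ι : E → Ω`, let
`O → Ω` be an injective ring hom and `red : O → κ` a ring hom to a field (think of
`O = A((x))`, `Ω = K((x))`, `κ = k((x))`), compatible with the Gauss valuation of `E`.  If any two
different `τ_a, τ_b` differ modulo `π` on some element of `O_L` all of whose conjugates lie in `O`,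
then `L` has an `E`-basis in `O_L` with unit discriminant.
-/

set_option autoImplicit false
set_option linter.unusedSectionVars false
set_option linter.style.haveILetI false

open Polynomial

namespace Fermat.Agent.Crux.G

/-- Linearly independent functions `χ_1, …, χ_n : S → κ` admit `n` points `y_i` with
`det (χ_a (y_i)) ≠ 0`. -/
theorem exists_det_ne_zero_of_linearIndependent {κ S : Type*} [Field κ] {n : ℕ}
    (χ : Fin n → S → κ) (h : LinearIndependent κ χ) :
    ∃ y : Fin n → S, (Matrix.of fun i a => χ a (y i)).det ≠ 0 := by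
  classical
  set v : S → (Fin n → κ) := fun y a => χ a y with hv
  have hspan : Submodule.span κ (Set.range v) = ⊤ := by
    by_contra hne
    obtain ⟨f, hf0, hf⟩ := Submodule.exists_le_ker_of_lt_top _ (lt_top_iff_ne_top.2 hne)
    apply hf0
    have hc : ∀ a, f (Pi.single a 1) = 0 := by
      apply Fintype.linearIndependent_iff.1 h
      ext y
      have h1 : f (v y) = 0 := hf (Submodule.subset_span ⟨y, rfl⟩)
      have h2 : v y = ∑ a, χ a y • (Pi.single a 1 : Fin n → κ) := by
        ext b
        simp [hv, Finset.sum_apply, Pi.single_apply]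
      rw [h2, map_sum] at h1
      simp only [map_smul, smul_eq_mul] at h1
      simp only [Finset.sum_apply, Pi.smul_apply, smul_eq_mul, Pi.zero_apply]
      rw [← h1]
      exact Finset.sum_congr rfl fun a _ => mul_comm _ _
    apply LinearMap.pi_ext'
    intro a
    ext
    simp [hc a]
  have hfr : Module.finrank κ (Submodule.span κ (Set.range v)) = n := by
    rw [hspan, finrank_top]; simp
  have := Submodule.exists_fun_fin_finrank_span_eq κ (Set.range v)
  rw [hfr] at this
  obtain ⟨f, hf, -, hli⟩ := this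
  choose y hy using hf
  refine ⟨y, ?_⟩
  have hM : (Matrix.of fun i a => χ a (y i)).row = f := by
    ext i a
    simp [Matrix.row, ← hy i, hv]
  have hu : IsUnit (Matrix.of fun i a => χ a (y i)) := by
    rw [← Matrix.linearIndependent_rows_iff_isUnit, hM]
    exact hli
  exact ((Matrix.isUnit_iff_isUnit_det _).1 hu).ne_zero

/-- The trace is the sum of the conjugates, for a full set of embeddings into any field. -/
theorem map_trace_eq_sum_of_embeddings {E L Ω : Type*} [Field E] [Field L] [Field Ω] [Algebra E L]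
    [FiniteDimensional E L] [Algebra.IsSeparable E L] (ι : E →+* Ω) {n : ℕ}
    (hn : Module.finrank E L = n) (τ : Fin n → L →+* Ω)
    (hτ : ∀ a c, τ a (algebraMap E L c) = ι c) (hinj : Function.Injective τ) (z : L) :
    ι (Algebra.trace E L z) = ∑ a, τ a z := by
  classical
  let _ : Algebra E (AlgebraicClosure Ω) := ((algebraMap Ω (AlgebraicClosure Ω)).comp ι).toAlgebra
  have halg : ∀ c : E, algebraMap E (AlgebraicClosure Ω) c
      = algebraMap Ω (AlgebraicClosure Ω) (ι c) := fun c => rfl
  let τ' : Fin n → (L →ₐ[E] AlgebraicClosure Ω) := fun a =>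
    { ((algebraMap Ω (AlgebraicClosure Ω)).comp (τ a)) with
      commutes' := fun c => by
        simp [halg, hτ] }
  have hτ' : ∀ a y, τ' a y = algebraMap Ω (AlgebraicClosure Ω) (τ a y) := fun a y => rfl
  have hinj' : Function.Injective τ' := by
    intro a b hab
    apply hinj
    ext y
    apply (algebraMap Ω (AlgebraicClosure Ω)).injective
    rw [← hτ', ← hτ', hab]
  have hbij : Function.Bijective τ' := by
    rw [Fintype.bijective_iff_injective_and_card]
    refine ⟨hinj', ?_⟩
    rw [AlgHom.card, hn, Fintype.card_fin]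
  apply (algebraMap Ω (AlgebraicClosure Ω)).injective
  rw [← halg, trace_eq_sum_embeddings (AlgebraicClosure Ω), map_sum]
  exact (Fintype.sum_bijective τ' hbij _ _ fun a => (hτ' a z).symm).symm

variable {A : Type*} [CommRing A] [IsDomain A] [IsDiscreteValuationRing A] {π : A}
variable {E : Type*} [Field E] [Algebra A[X] E] [IsFractionRing A[X] E] [CharZero E]
variable {L : Type*} [Field L] [Algebra A[X] L] [Algebra E L] [IsScalarTower A[X] E L]
  [FiniteDimensional E L]

/-- `O_G` as a subring of `E`. -/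
def ogSubringEmb (E : Type*) [Field E] [Algebra A[X] E] (hπ : Prime π) : Subring E where
  carrier := {c | IsOG π c}
  mul_mem' := fun ha hb => ha.mul hπ hb
  one_mem' := by simpa using isOG_algebraMap (E := E) hπ 1
  add_mem' := fun ha hb => ha.add hπ hb
  zero_mem' := by simpa using isOG_algebraMap (E := E) hπ 0
  neg_mem' := fun ha => ha.neg

theorem IsOG.det (hπ : Prime π) {n : ℕ} (M : Matrix (Fin n) (Fin n) E)
    (h : ∀ i j, IsOG π (M i j)) : IsOG π M.det := by
  let M' : Matrix (Fin n) (Fin n) (ogSubringEmb E hπ) := Matrix.of fun i j => ⟨M i j, h i j⟩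
  have : M = (ogSubringEmb E hπ).subtype.mapMatrix M' := by ext; rfl
  rw [this, ← RingHom.map_det]
  exact (M'.det).2

/-- **(H1) from embeddings (Dedekind independence).** -/
theorem unitDisc_of_embeddings (hπ : Irreducible π) {Ω O κ : Type*} [Field Ω] [CommRing O]
    [Field κ] (inc : O →+* Ω) (hinc : Function.Injective inc) (red : O →+* κ)
    (θ : A[X] →+* O) (hθ : ∀ r : A[X], red (θ r) = 0 ↔ C π ∣ r)
    (ι : E →+* Ω) (hι : ∀ r : A[X], ι (algebraMap A[X] E r) = inc (θ r))
    {n : ℕ} (hn : Module.finrank E L = n) (τ : Fin n → L →+* Ω)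
    (hτ : ∀ a c, τ a (algebraMap E L c) = ι c)
    (hsep : ∀ a b, a ≠ b → ∃ (y : L) (Y : Fin n → O),
      IsOL π y ∧ (∀ c, τ c y = inc (Y c)) ∧ red (Y a) ≠ red (Y b)) :
    UnitDisc π E L := by
  classical
  have hπ' : Prime π := hπ.prime
  -- the monoid `S₀`
  let S₀ : Submonoid L :=
    { carrier := {y | IsOL π y ∧ ∀ c, ∃ Y : O, τ c y = inc Y}
      mul_mem' := by
        rintro y z ⟨hy, hy'⟩ ⟨hz, hz'⟩
        refine ⟨hy.mul hπ' hz, fun c => ?_⟩
        obtain ⟨Y, hY⟩ := hy' c
        obtain ⟨Z, hZ⟩ := hz' c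
        exact ⟨Y * Z, by rw [map_mul, map_mul, hY, hZ]⟩
      one_mem' := ⟨isOL_one hπ', fun c => ⟨1, by simp⟩⟩ }
  choose lift hlift using fun (y : S₀) (c : Fin n) => y.2.2 c
  let χ : Fin n → (S₀ →* κ) := fun c =>
    { toFun := fun y => red (lift y c)
      map_one' := by
        have : lift 1 c = 1 := hinc (by rw [← hlift]; simp)
        rw [this, map_one]
      map_mul' := fun y z => by
        have : lift (y * z) c = lift y c * lift z c :=
          hinc (by rw [← hlift, map_mul, ← hlift, ← hlift]; simp)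
        rw [this, map_mul] }
  have hχ : ∀ c y, χ c y = red (lift y c) := fun c y => rfl
  have hχinj : Function.Injective χ := by
    intro a b hab
    by_contra hne
    obtain ⟨y, Y, hy, hY, hYab⟩ := hsep a b hne
    let y' : S₀ := ⟨y, hy, fun c => ⟨Y c, hY c⟩⟩
    have h1 : ∀ c, lift y' c = Y c := fun c => hinc (by rw [← hlift, ← hY])
    apply hYab
    rw [← h1, ← h1]
    exact DFunLike.congr_fun hab y'
  have hli : LinearIndependent κ (fun a => (χ a : S₀ → κ)) :=
    (linearIndependent_monoidHom S₀ κ).comp χ hχinj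
  obtain ⟨y, hy⟩ := exists_det_ne_zero_of_linearIndependent _ hli
  have hτinj : Function.Injective τ := by
    intro a b hab
    by_contra hne
    obtain ⟨y, Y, hy, hY, hYab⟩ := hsep a b hne
    apply hYab
    congr 1
    apply hinc
    rw [← hY, ← hY, hab]
  set MO : Matrix (Fin n) (Fin n) O := Matrix.of fun i a => lift (y i) a with hMO
  have hred : red MO.det ≠ 0 := by
    rw [RingHom.map_det]
    exact hy
  set b : Fin n → L := fun i => (y i : L) with hb
  have htr : ι.mapMatrix (Algebra.traceMatrix E b) = inc.mapMatrix (MO * MO.transpose) := by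
    ext i j
    simp only [RingHom.mapMatrix_apply, Matrix.map_apply, Algebra.traceMatrix_apply,
      Algebra.traceForm_apply, Matrix.mul_apply, Matrix.transpose_apply, map_mul]
    rw [map_trace_eq_sum_of_embeddings ι hn τ hτ hτinj]
    refine Finset.sum_congr rfl fun a _ => ?_
    rw [map_mul, hb, hlift, hlift]
    rfl
  have hdet : ι (Algebra.traceMatrix E b).det = inc (MO.det ^ 2) := by
    rw [RingHom.map_det, htr, ← RingHom.map_det, Matrix.det_mul, Matrix.det_transpose, sq]
  have hD0 : (Algebra.traceMatrix E b).det ≠ 0 := by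
    intro h0
    rw [h0, map_zero] at hdet
    have h2 : MO.det ^ 2 = 0 := hinc (by rw [← hdet, map_zero])
    apply hred
    have h3 : red MO.det ^ 2 = 0 := by rw [← map_pow, h2, map_zero]
    exact pow_eq_zero_iff two_ne_zero |>.1 h3
  have hbli : LinearIndependent E b := by
    by_contra hnl
    exact hD0 (Algebra.discr_zero_of_not_linearIndependent E hnl)
  have hne : Nonempty (Fin n) := ⟨⟨0, hn ▸ Module.finrank_pos⟩⟩
  let bb := basisOfLinearIndependentOfCardEqFinrank hbli (by simp [hn])
  have hbb : (bb : Fin n → L) = b := coe_basisOfLinearIndependentOfCardEqFinrank _ _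
  refine ⟨n, bb, fun i => by rw [hbb]; exact (y i).2.1, ((Algebra.traceMatrix E b).det)⁻¹, ?_,
    by rw [hbb]; exact inv_mul_cancel₀ hD0⟩
  have hDOG : IsOG π (Algebra.traceMatrix E b).det :=
    IsOG.det hπ' _ fun i j => (((y i).2.1).mul hπ' (y j).2.1).trace hπ'
  obtain ⟨s, r, hs, hsr⟩ := hDOG
  have h1 : θ s * MO.det ^ 2 = θ r :=
    hinc (by rw [map_mul, ← hdet, ← hι, ← hι, ← map_mul, ← Algebra.smul_def, hsr])
  have hr : ¬ C π ∣ r := by
    rw [← hθ, ← h1, map_mul, map_pow]
    exact mul_ne_zero (by rwa [Ne, hθ]) (pow_ne_zero 2 hred)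
  refine ⟨r, s, hr, ?_⟩
  rw [Algebra.smul_def, ← hsr, Algebra.smul_def, mul_assoc, mul_inv_cancel₀ hD0, mul_one]

/-- `unitDisc_of_embeddings` for a family indexed by a finite type. -/
theorem unitDisc_of_embeddings' (hπ : Irreducible π) {Ω O κ : Type*} [Field Ω] [CommRing O]
    [Field κ] (inc : O →+* Ω) (hinc : Function.Injective inc) (red : O →+* κ)
    (θ : A[X] →+* O) (hθ : ∀ r : A[X], red (θ r) = 0 ↔ C π ∣ r)
    (ι : E →+* Ω) (hι : ∀ r : A[X], ι (algebraMap A[X] E r) = inc (θ r))
    {J : Type*} [Fintype J] (hJ : Fintype.card J = Module.finrank E L) (τ : J → L →+* Ω)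
    (hτ : ∀ a c, τ a (algebraMap E L c) = ι c)
    (hsep : ∀ a b, a ≠ b → ∃ (y : L) (Y : J → O),
      IsOL π y ∧ (∀ c, τ c y = inc (Y c)) ∧ red (Y a) ≠ red (Y b)) :
    UnitDisc π E L := by
  let e : J ≃ Fin (Module.finrank E L) := Fintype.equivFinOfCardEq hJ
  apply unitDisc_of_embeddings hπ inc hinc red θ hθ ι hι rfl (fun a => τ (e.symm a))
    (fun a c => hτ _ c)
  intro a b hab
  obtain ⟨y, Y, hy, hY, hne⟩ := hsep (e.symm a) (e.symm b) (by simpa using hab)
  exact ⟨y, fun c => Y (e.symm c), hy, fun c => hY _, hne⟩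

/-- (H1) from embeddings. -/
theorem tracePerfect_of_embeddings (hπ : Irreducible π) {Ω O κ : Type*} [Field Ω] [CommRing O]
    [Field κ] (inc : O →+* Ω) (hinc : Function.Injective inc) (red : O →+* κ)
    (θ : A[X] →+* O) (hθ : ∀ r : A[X], red (θ r) = 0 ↔ C π ∣ r)
    (ι : E →+* Ω) (hι : ∀ r : A[X], ι (algebraMap A[X] E r) = inc (θ r))
    {J : Type*} [Fintype J] (hJ : Fintype.card J = Module.finrank E L) (τ : J → L →+* Ω)
    (hτ : ∀ a c, τ a (algebraMap E L c) = ι c)
    (hsep : ∀ a b, a ≠ b → ∃ (y : L) (Y : J → O),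
      IsOL π y ∧ (∀ c, τ c y = inc (Y c)) ∧ red (Y a) ≠ red (Y b)) :
    TracePerfect π E L :=
  tracePerfect_of_unitDisc' hπ (unitDisc_of_embeddings' hπ inc hinc red θ hθ ι hι hJ τ hτ hsep)

section Top

variable {A E L : Type*} [CommRing A] [IsDomain A] [IsDiscreteValuationRing A]
    [Field E] [Field L] [CharZero E] [Algebra A E] [Algebra E L] [FiniteDimensional E L]

/-- (H1), basis form, from embeddings, in the chart `X ↦ x`. -/
theorem unitDiscx_of_embeddings {π : A} (hπ : Irreducible π) {x : E} (hx : Transcendental A x)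
    (hgen : ∀ c : E, ∃ p q : A[X], q ≠ 0 ∧ c * aeval x q = aeval x p)
    {Ω O κ : Type*} [Field Ω] [CommRing O]
    [Field κ] (inc : O →+* Ω) (hinc : Function.Injective inc) (red : O →+* κ)
    (θ : A[X] →+* O) (hθ : ∀ r : A[X], red (θ r) = 0 ↔ C π ∣ r)
    (ι : E →+* Ω) (hι : ∀ r : A[X], ι (aeval x r) = inc (θ r))
    {J : Type*} [Fintype J] (hJ : Fintype.card J = Module.finrank E L) (τ : J → L →+* Ω)
    (hτ : ∀ a c, τ a (algebraMap E L c) = ι c)
    (hsep : ∀ a b, a ≠ b → ∃ (y : L) (Y : J → O),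
      IsOLx π x y ∧ (∀ c, τ c y = inc (Y c)) ∧ red (Y a) ≠ red (Y b)) :
    UnitDiscx L π x := by
  letI := algE (A := A) x
  letI := algL (A := A) L x
  haveI := isScalarTower_alg (A := A) (L := L) x
  haveI := isFractionRing_algE hx hgen
  exact unitDisc_of_embeddings' hπ inc hinc red θ hθ ι hι hJ τ hτ hsep

/-- (H1) from embeddings, in the chart `X ↦ x`. -/
theorem tracePerfectx_of_embeddings {π : A} (hπ : Irreducible π) {x : E}
    (hx : Transcendental A x)
    (hgen : ∀ c : E, ∃ p q : A[X], q ≠ 0 ∧ c * aeval x q = aeval x p)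
    {Ω O κ : Type*} [Field Ω] [CommRing O]
    [Field κ] (inc : O →+* Ω) (hinc : Function.Injective inc) (red : O →+* κ)
    (θ : A[X] →+* O) (hθ : ∀ r : A[X], red (θ r) = 0 ↔ C π ∣ r)
    (ι : E →+* Ω) (hι : ∀ r : A[X], ι (aeval x r) = inc (θ r))
    {J : Type*} [Fintype J] (hJ : Fintype.card J = Module.finrank E L) (τ : J → L →+* Ω)
    (hτ : ∀ a c, τ a (algebraMap E L c) = ι c)
    (hsep : ∀ a b, a ≠ b → ∃ (y : L) (Y : J → O),
      IsOLx π x y ∧ (∀ c, τ c y = inc (Y c)) ∧ red (Y a) ≠ red (Y b)) :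
    TracePerfectx L π x := by
  letI := algE (A := A) x
  letI := algL (A := A) L x
  haveI := isScalarTower_alg (A := A) (L := L) x
  haveI := isFractionRing_algE hx hgen
  exact tracePerfect_of_embeddings hπ inc hinc red θ hθ ι hι hJ τ hτ hsep

end Top

end Fermat.Agent.Crux.G
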